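/-
S55 sprint, block (I) / K4 (helper8): a bilinear pairing of cochains `K^r × L^t → T^s` which maps
cocycles to cocycles and (coboundary, cocycle), (cocycle, coboundary) to coboundaries induces a
bilinear pairing on cohomology.
-/
import Fermat.Agent.S55lib.Cpx.Basic

set_option autoImplicit false

noncomputable section

namespace Fermat.Agent.S55lib.CFDual

universe u

open Cpx

variable {k : Type u} [CommRing k] {K L T : Cpx k} {r t s : ℕ}
  (p : K.X r →ₗ[k] L.X t →ₗ[k] T.X s)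
  (hZ : ∀ κ l, K.d r κ = 0 → L.d t l = 0 → T.d s (p κ l) = 0)
  (hB1 : ∀ κ, κ ∈ K.B r → ∀ l, L.d t l = 0 → p κ l ∈ T.B s)
  (hB2 : ∀ κ, K.d r κ = 0 → ∀ l, l ∈ L.B t → p κ l ∈ T.B s)

/-- the pairing on cocycles, with values in cohomology -/
def pairZ : K.Z r →ₗ[k] L.Z t →ₗ[k] T.H s :=
  LinearMap.mk₂ k (fun κ l => T.cl (p κ.1 l.1) (hZ _ _ (K.mem_Z.1 κ.2) (L.mem_Z.1 l.2)))
    (fun κ κ' l => by
      rw [← cl_add]
      exact cl_congr T (by simp) _)
    (fun c κ l => by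
      rw [← cl_smul]
      exact cl_congr T (by simp) _)
    (fun κ l l' => by
      rw [← cl_add]
      exact cl_congr T (by simp) _)
    (fun c κ l => by
      rw [← cl_smul]
      exact cl_congr T (by simp) _)

lemma pairZ_apply (κ : K.Z r) (l : L.Z t) :
    pairZ p hZ κ l = T.cl (p κ.1 l.1) (hZ _ _ (K.mem_Z.1 κ.2) (L.mem_Z.1 l.2)) := rfl

/-- the pairing, descended in the second variable -/
def pairZH : K.Z r →ₗ[k] L.H t →ₗ[k] T.H s :=
  (Submodule.liftQ _ (pairZ p hZ).flip (by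
    intro l hl
    rw [LinearMap.mem_ker]
    apply LinearMap.ext
    intro κ
    rw [LinearMap.flip_apply, pairZ_apply, LinearMap.zero_apply, cl_eq_zero_iff]
    exact hB2 κ.1 (K.mem_Z.1 κ.2) l.1 hl)).flip

lemma pairZH_cl (κ : K.Z r) (l : L.X t) (hl : L.d t l = 0) :
    pairZH p hZ hB2 κ (L.cl l hl) = T.cl (p κ.1 l) (hZ _ _ (K.mem_Z.1 κ.2) hl) := rfl

/-- **The induced pairing on cohomology.** -/
def pairH : K.H r →ₗ[k] L.H t →ₗ[k] T.H s :=
  Submodule.liftQ _ (pairZH p hZ hB2) (by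
    intro κ hκ
    rw [LinearMap.mem_ker]
    apply LinearMap.ext
    intro h
    obtain ⟨l, hl, rfl⟩ := L.exists_rep h
    rw [pairZH_cl, LinearMap.zero_apply, cl_eq_zero_iff]
    exact hB1 κ.1 hκ l hl)

lemma pairH_cl (κ : K.X r) (hκ : K.d r κ = 0) (l : L.X t) (hl : L.d t l = 0) :
    pairH p hZ hB1 hB2 (K.cl κ hκ) (L.cl l hl) = T.cl (p κ l) (hZ _ _ hκ hl) := rfl

end Fermat.Agent.S55lib.CFDual
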