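/-
S55 sprint, block (I) / K4 (helper8): cup products of low degree cochains with respect to an
equivariant bilinear pairing `β : A × B → C`, and their Leibniz rules (total degree `≤ 3`).
Everything here is about plain functions `G → A`, `G × G → A`, `G × G × G → A`; smoothness is
treated at the end.
-/
import Fermat.Agent.S55lib.Cpx.LowDegree

set_option autoImplicit false

namespace Fermat.Agent.S55lib.CFDual

universe u

variable {k G : Type u} [CommRing k] [Group G]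

/-- A `G`-equivariant bilinear pairing `A × B → C`. -/
structure EqBilin (A B C : Rep.{u} k G) where
  /-- the bilinear map -/
  β : A →ₗ[k] B →ₗ[k] C
  /-- equivariance -/
  equiv : ∀ (g : G) (a : A) (b : B), β (A.ρ g a) (B.ρ g b) = C.ρ g (β a b)

/-! ### Raw differentials -/

section raw

variable {A : Rep.{u} k G}

/-- `d⁰` -/
def rd0 (a : A) : G → A := fun g => A.ρ g a - a

/-- `d¹` -/
def rd1 (f : G → A) : G × G → A := fun p => A.ρ p.1 (f p.2) - f (p.1 * p.2) + f p.1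

/-- `d²` -/
def rd2 (f : G × G → A) : G × G × G → A := fun q =>
  A.ρ q.1 (f (q.2.1, q.2.2)) - f (q.1 * q.2.1, q.2.2) + f (q.1, q.2.1 * q.2.2) - f (q.1, q.2.1)

end raw

/-! ### Cup products -/

section cups

variable {A B C : Rep.{u} k G} (P : EqBilin A B C)

/-- `(0,1)` -/
def cup01 (a : A) (y : G → B) : G → C := fun g => P.β a (y g)
/-- `(1,0)` -/
def cup10 (f : G → A) (b : B) : G → C := fun g => P.β (f g) (B.ρ g b)
/-- `(0,2)` -/
def cup02 (a : A) (y : G × G → B) : G × G → C := fun p => P.β a (y p)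
/-- `(1,1)` -/
def cup11 (f : G → A) (y : G → B) : G × G → C := fun p => P.β (f p.1) (B.ρ p.1 (y p.2))
/-- `(2,0)` -/
def cup20 (f : G × G → A) (b : B) : G × G → C := fun p => P.β (f p) (B.ρ (p.1 * p.2) b)
/-- `(0,3)` -/
def cup03 (a : A) (y : G × G × G → B) : G × G × G → C := fun q => P.β a (y q)
/-- `(1,2)` -/
def cup12 (f : G → A) (y : G × G → B) : G × G × G → C :=
  fun q => P.β (f q.1) (B.ρ q.1 (y (q.2.1, q.2.2)))
/-- `(2,1)` -/
def cup21 (f : G × G → A) (y : G → B) : G × G × G → C :=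
  fun q => P.β (f (q.1, q.2.1)) (B.ρ (q.1 * q.2.1) (y q.2.2))
/-- `(3,0)` -/
def cup30 (f : G × G × G → A) (b : B) : G × G × G → C :=
  fun q => P.β (f q) (B.ρ (q.1 * q.2.1 * q.2.2) b)

lemma equiv' (g : G) (a : A) (b : B) : C.ρ g (P.β a b) = P.β (A.ρ g a) (B.ρ g b) :=
  (P.equiv g a b).symm

lemma rho_mul_apply' (X : Rep.{u} k G) (g h : G) (x : X) : X.ρ (g * h) x = X.ρ g (X.ρ h x) := by
  rw [map_mul]; rfl

/-- Leibniz `(0,1)` -/
theorem leibniz01 (a : A) (y : G → B) :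
    rd1 (cup01 P a y) = cup11 P (rd0 a) y + cup02 P a (rd1 y) := by
  funext ⟨g, h⟩
  simp only [rd1, rd0, cup01, cup11, cup02, Pi.add_apply, equiv', map_sub, map_add,
    LinearMap.sub_apply]
  abel

/-- Leibniz `(1,0)` -/
theorem leibniz10 (f : G → A) (b : B) :
    rd1 (cup10 P f b) = cup20 P (rd1 f) b - cup11 P f (rd0 b) := by
  funext ⟨g, h⟩
  simp only [rd1, rd0, cup10, cup11, cup20, Pi.sub_apply, equiv', map_sub, map_add,
    LinearMap.sub_apply, LinearMap.add_apply, rho_mul_apply']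
  abel

/-- Leibniz `(0,2)` -/
theorem leibniz02 (a : A) (y : G × G → B) :
    rd2 (cup02 P a y) = cup12 P (rd0 a) y + cup03 P a (rd2 y) := by
  funext ⟨g, h, j⟩
  simp only [rd2, rd0, cup02, cup12, cup03, Pi.add_apply, equiv', map_sub, map_add,
    LinearMap.sub_apply]
  abel

/-- Leibniz `(1,1)` -/
theorem leibniz11 (f : G → A) (y : G → B) :
    rd2 (cup11 P f y) = cup21 P (rd1 f) y - cup12 P f (rd1 y) := by
  funext ⟨g, h, j⟩
  simp only [rd2, rd1, cup11, cup21, cup12, Pi.sub_apply, equiv', map_sub, map_add,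
    LinearMap.sub_apply, LinearMap.add_apply, rho_mul_apply']
  abel

/-- Leibniz `(2,0)` -/
theorem leibniz20 (f : G × G → A) (b : B) :
    rd2 (cup20 P f b) = cup30 P (rd2 f) b + cup21 P f (rd0 b) := by
  funext ⟨g, h, j⟩
  simp only [rd2, rd0, cup20, cup30, cup21, Pi.add_apply, equiv', map_sub, map_add,
    LinearMap.sub_apply, LinearMap.add_apply, rho_mul_apply', mul_assoc]
  abel

end cups

/-! ### Smoothness of cup products -/

section smooth

open Csm

variable {𝒰 : OpenBasis G} {A B C : Rep.{u} k G} (P : EqBilin A B C)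

/-- If `x` is fixed by the normal subgroup `U`, so is `g x`. -/
lemma rho_fixed_of_normal {X : Rep.{u} k G} {U : Subgroup G} (hU : U.Normal) {x : X}
    (hx : ∀ s ∈ U, X.ρ s x = x) (g : G) : ∀ s ∈ U, X.ρ s (X.ρ g x) = X.ρ g x := by
  intro s hs
  have e : s * g = g * (g⁻¹ * s * g⁻¹⁻¹) := by group
  rw [← rho_mul_apply', e, rho_mul_apply', hx _ (hU.conj_mem _ hs _)]

lemma isSm_cup01 {a : A} {y : G → B} (ha : IsSm₀ 𝒰 A a) (hy : IsSm₁ 𝒰 B y) :
    IsSm₁ 𝒰 C (cup01 P a y) := by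
  obtain ⟨U, hU, h1⟩ := ha
  obtain ⟨V, hV, h2, h3⟩ := hy
  obtain ⟨W, hW, hle⟩ := 𝒰.directed U hU V hV
  refine ⟨W, hW, fun g s hs => ?_, fun g s hs => ?_⟩
  · simp only [cup01]
    rw [h2 g s ((hle.trans inf_le_right) hs)]
  · simp only [cup01]
    rw [equiv', h1 s ((hle.trans inf_le_left) hs), h3 g s ((hle.trans inf_le_right) hs)]

lemma isSm_cup02 {a : A} {y : G × G → B} (ha : IsSm₀ 𝒰 A a) (hy : IsSm₂ 𝒰 B y) :
    IsSm₂ 𝒰 C (cup02 P a y) := by
  obtain ⟨U, hU, h1⟩ := ha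
  obtain ⟨V, hV, h2, h3⟩ := hy
  obtain ⟨W, hW, hle⟩ := 𝒰.directed U hU V hV
  refine ⟨W, hW, fun g h s hs t ht => ?_, fun g h s hs => ?_⟩
  · simp only [cup02]
    rw [h2 g h s ((hle.trans inf_le_right) hs) t ((hle.trans inf_le_right) ht)]
  · simp only [cup02]
    rw [equiv', h1 s ((hle.trans inf_le_left) hs), h3 g h s ((hle.trans inf_le_right) hs)]

lemma isSm_cup10 {f : G → A} {b : B} (hf : IsSm₁ 𝒰 A f) (hb : IsSm₀ 𝒰 B b) :
    IsSm₁ 𝒰 C (cup10 P f b) := by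
  obtain ⟨U, hU, h1, h2⟩ := hf
  obtain ⟨V, hV, h3⟩ := hb
  obtain ⟨W, hW, hle⟩ := 𝒰.directed U hU V hV
  have hWn := 𝒰.normal W hW
  have h3' : ∀ s ∈ W, B.ρ s b = b := fun s hs => h3 s ((hle.trans inf_le_right) hs)
  refine ⟨W, hW, fun g s hs => ?_, fun g s hs => ?_⟩
  · simp only [cup10]
    rw [h1 g s ((hle.trans inf_le_left) hs), rho_mul_apply', h3' s hs]
  · simp only [cup10]
    rw [equiv', h2 g s ((hle.trans inf_le_left) hs), rho_fixed_of_normal hWn h3' g s hs]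

lemma isSm_cup11 {f : G → A} {y : G → B} (hf : IsSm₁ 𝒰 A f) (hy : IsSm₁ 𝒰 B y) :
    IsSm₂ 𝒰 C (cup11 P f y) := by
  obtain ⟨U, hU, h1, h2⟩ := hf
  obtain ⟨V, hV, h3, h4⟩ := hy
  obtain ⟨W, hW, hle⟩ := 𝒰.directed U hU V hV
  have hWn := 𝒰.normal W hW
  refine ⟨W, hW, fun g h s hs t ht => ?_, fun g h s hs => ?_⟩
  · simp only [cup11]
    rw [h1 g s ((hle.trans inf_le_left) hs), h3 h t ((hle.trans inf_le_right) ht),
      rho_mul_apply', h4 h s ((hle.trans inf_le_right) hs)]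
  · simp only [cup11]
    rw [equiv', h2 g s ((hle.trans inf_le_left) hs),
      rho_fixed_of_normal hWn (fun s' hs' => h4 h s' ((hle.trans inf_le_right) hs')) g s hs]

lemma isSm_cup20 {f : G × G → A} {b : B} (hf : IsSm₂ 𝒰 A f) (hb : IsSm₀ 𝒰 B b) :
    IsSm₂ 𝒰 C (cup20 P f b) := by
  obtain ⟨U, hU, h1, h2⟩ := hf
  obtain ⟨V, hV, h3⟩ := hb
  obtain ⟨W, hW, hle⟩ := 𝒰.directed U hU V hV
  have hWn := 𝒰.normal W hW
  have h3' : ∀ s ∈ W, B.ρ s b = b := fun s hs => h3 s ((hle.trans inf_le_right) hs)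
  refine ⟨W, hW, fun g h s hs t ht => ?_, fun g h s hs => ?_⟩
  · simp only [cup20]
    rw [h1 g h s ((hle.trans inf_le_left) hs) t ((hle.trans inf_le_left) ht)]
    have e : g * s * (h * t) = g * h * ((h⁻¹ * s * h⁻¹⁻¹) * t) := by group
    rw [e, rho_mul_apply' B (g * h), h3' _ (W.mul_mem (hWn.conj_mem _ hs _) ht)]
  · simp only [cup20]
    rw [equiv', h2 g h s ((hle.trans inf_le_left) hs), rho_fixed_of_normal hWn h3' (g * h) s hs]

end smooth

end Fermat.Agent.S55lib.CFDual
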