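/-
S55 sprint, block (I) / K4 (helper8): cup products of smooth cochains in low degrees, as bilinear
maps between the cochain modules of `Csm`, and their Leibniz rules.
-/
import Fermat.Agent.S55lib.CFDual.Cup

set_option autoImplicit false

noncomputable section

namespace Fermat.Agent.S55lib.CFDual

universe u

open Csm

variable {k G : Type u} [CommRing k] [Group G] (𝒰 : OpenBasis G) {A B C : Rep.{u} k G}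
  (P : EqBilin A B C)

/-- smooth cup `(0,1)` -/
def scup01 : (Csm 𝒰 A).X 0 →ₗ[k] (Csm 𝒰 B).X 1 →ₗ[k] (Csm 𝒰 C).X 1 :=
  LinearMap.mk₂ k (fun a y => mk₁ (cup01 P (fn₀ a) (fn₁ y)) (isSm_cup01 P (isSm₀_fn₀ a) (isSm₁_fn₁ y)))
    (fun a a' y => ext₁ (by funext g; simp [cup01, fn₀_add, fn₁_add]))
    (fun c a y => ext₁ (by funext g; simp [cup01, fn₀_smul, fn₁_smul]))
    (fun a y y' => ext₁ (by funext g; simp [cup01, fn₁_add]))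
    (fun c a y => ext₁ (by funext g; simp [cup01, fn₁_smul]))

/-- smooth cup `(1,0)` -/
def scup10 : (Csm 𝒰 A).X 1 →ₗ[k] (Csm 𝒰 B).X 0 →ₗ[k] (Csm 𝒰 C).X 1 :=
  LinearMap.mk₂ k (fun f b => mk₁ (cup10 P (fn₁ f) (fn₀ b)) (isSm_cup10 P (isSm₁_fn₁ f) (isSm₀_fn₀ b)))
    (fun f f' b => ext₁ (by funext g; simp [cup10, fn₁_add]))
    (fun c f b => ext₁ (by funext g; simp [cup10, fn₁_smul]))
    (fun f b b' => ext₁ (by funext g; simp [cup10, fn₀_add, fn₁_add]))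
    (fun c f b => ext₁ (by funext g; simp [cup10, fn₀_smul, fn₁_smul]))

/-- smooth cup `(0,2)` -/
def scup02 : (Csm 𝒰 A).X 0 →ₗ[k] (Csm 𝒰 B).X 2 →ₗ[k] (Csm 𝒰 C).X 2 :=
  LinearMap.mk₂ k (fun a y => mk₂ (cup02 P (fn₀ a) (fn₂ y)) (isSm_cup02 P (isSm₀_fn₀ a) (isSm₂_fn₂ y)))
    (fun a a' y => ext₂ (by funext g; simp [cup02, fn₀_add, fn₂_add]))
    (fun c a y => ext₂ (by funext g; simp [cup02, fn₀_smul, fn₂_smul]))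
    (fun a y y' => ext₂ (by funext g; simp [cup02, fn₂_add]))
    (fun c a y => ext₂ (by funext g; simp [cup02, fn₂_smul]))

/-- smooth cup `(1,1)` -/
def scup11 : (Csm 𝒰 A).X 1 →ₗ[k] (Csm 𝒰 B).X 1 →ₗ[k] (Csm 𝒰 C).X 2 :=
  LinearMap.mk₂ k (fun f y => mk₂ (cup11 P (fn₁ f) (fn₁ y)) (isSm_cup11 P (isSm₁_fn₁ f) (isSm₁_fn₁ y)))
    (fun f f' y => ext₂ (by funext g; simp [cup11, fn₁_add, fn₂_add]))
    (fun c f y => ext₂ (by funext g; simp [cup11, fn₁_smul, fn₂_smul]))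
    (fun f y y' => ext₂ (by funext g; simp [cup11, fn₁_add, fn₂_add]))
    (fun c f y => ext₂ (by funext g; simp [cup11, fn₁_smul, fn₂_smul]))

/-- smooth cup `(2,0)` -/
def scup20 : (Csm 𝒰 A).X 2 →ₗ[k] (Csm 𝒰 B).X 0 →ₗ[k] (Csm 𝒰 C).X 2 :=
  LinearMap.mk₂ k (fun f b => mk₂ (cup20 P (fn₂ f) (fn₀ b)) (isSm_cup20 P (isSm₂_fn₂ f) (isSm₀_fn₀ b)))
    (fun f f' b => ext₂ (by funext g; simp [cup20, fn₂_add]))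
    (fun c f b => ext₂ (by funext g; simp [cup20, fn₂_smul]))
    (fun f b b' => ext₂ (by funext g; simp [cup20, fn₀_add, fn₂_add]))
    (fun c f b => ext₂ (by funext g; simp [cup20, fn₀_smul, fn₂_smul]))

@[simp] lemma fn₁_scup01 (a : (Csm 𝒰 A).X 0) (y : (Csm 𝒰 B).X 1) :
    fn₁ (scup01 𝒰 P a y) = cup01 P (fn₀ a) (fn₁ y) := rfl

@[simp] lemma fn₁_scup10 (f : (Csm 𝒰 A).X 1) (b : (Csm 𝒰 B).X 0) :
    fn₁ (scup10 𝒰 P f b) = cup10 P (fn₁ f) (fn₀ b) := rfl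

@[simp] lemma fn₂_scup02 (a : (Csm 𝒰 A).X 0) (y : (Csm 𝒰 B).X 2) :
    fn₂ (scup02 𝒰 P a y) = cup02 P (fn₀ a) (fn₂ y) :=
  fn₂_mk₂ _ (isSm_cup02 P (isSm₀_fn₀ a) (isSm₂_fn₂ y))

@[simp] lemma fn₂_scup11 (f : (Csm 𝒰 A).X 1) (y : (Csm 𝒰 B).X 1) :
    fn₂ (scup11 𝒰 P f y) = cup11 P (fn₁ f) (fn₁ y) :=
  fn₂_mk₂ _ (isSm_cup11 P (isSm₁_fn₁ f) (isSm₁_fn₁ y))

@[simp] lemma fn₂_scup20 (f : (Csm 𝒰 A).X 2) (b : (Csm 𝒰 B).X 0) :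
    fn₂ (scup20 𝒰 P f b) = cup20 P (fn₂ f) (fn₀ b) :=
  fn₂_mk₂ _ (isSm_cup20 P (isSm₂_fn₂ f) (isSm₀_fn₀ b))

/-! ### the differentials in terms of the raw ones -/

lemma fn₁_d_eq (x : (Csm 𝒰 A).X 0) : fn₁ ((Csm 𝒰 A).d 0 x) = rd0 (fn₀ x) := by
  funext g; exact fn₁_d x g

lemma fn₂_d_eq (x : (Csm 𝒰 A).X 1) : fn₂ ((Csm 𝒰 A).d 1 x) = rd1 (fn₁ x) := by
  funext ⟨g, h⟩; exact fn₂_d x g h

lemma fn₃_d_eq (x : (Csm 𝒰 A).X 2) : fn₃ ((Csm 𝒰 A).d 2 x) = rd2 (fn₂ x) := by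
  funext ⟨g, h, j⟩; exact fn₃_d x g h j

/-! ### Leibniz rules for smooth cochains (total degree `1 → 2`) -/

theorem d_scup01 (a : (Csm 𝒰 A).X 0) (y : (Csm 𝒰 B).X 1) :
    (Csm 𝒰 C).d 1 (scup01 𝒰 P a y) =
      scup11 𝒰 P ((Csm 𝒰 A).d 0 a) y + scup02 𝒰 P a ((Csm 𝒰 B).d 1 y) := by
  apply ext₂
  rw [fn₂_d_eq, fn₁_scup01, fn₂_add, fn₂_scup11, fn₂_scup02, fn₁_d_eq, fn₂_d_eq, leibniz01]

theorem d_scup10 (f : (Csm 𝒰 A).X 1) (b : (Csm 𝒰 B).X 0) :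
    (Csm 𝒰 C).d 1 (scup10 𝒰 P f b) =
      scup20 𝒰 P ((Csm 𝒰 A).d 1 f) b - scup11 𝒰 P f ((Csm 𝒰 B).d 0 b) := by
  apply ext₂
  rw [fn₂_d_eq, fn₁_scup10, fn₂_sub, fn₂_scup20, fn₂_scup11, fn₁_d_eq, fn₂_d_eq, leibniz10]

/-! ### Leibniz rules, total degree `2 → 3`, on the level of functions -/

theorem fn₃_d_scup02 (a : (Csm 𝒰 A).X 0) (y : (Csm 𝒰 B).X 2) :
    fn₃ ((Csm 𝒰 C).d 2 (scup02 𝒰 P a y)) =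
      cup12 P (fn₁ ((Csm 𝒰 A).d 0 a)) (fn₂ y) + cup03 P (fn₀ a) (fn₃ ((Csm 𝒰 B).d 2 y)) := by
  rw [fn₃_d_eq, fn₂_scup02, fn₁_d_eq, fn₃_d_eq, leibniz02]

theorem fn₃_d_scup11 (f : (Csm 𝒰 A).X 1) (y : (Csm 𝒰 B).X 1) :
    fn₃ ((Csm 𝒰 C).d 2 (scup11 𝒰 P f y)) =
      cup21 P (fn₂ ((Csm 𝒰 A).d 1 f)) (fn₁ y) - cup12 P (fn₁ f) (fn₂ ((Csm 𝒰 B).d 1 y)) := by
  rw [fn₃_d_eq, fn₂_scup11, fn₂_d_eq, fn₂_d_eq, leibniz11]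

theorem fn₃_d_scup20 (f : (Csm 𝒰 A).X 2) (b : (Csm 𝒰 B).X 0) :
    fn₃ ((Csm 𝒰 C).d 2 (scup20 𝒰 P f b)) =
      cup30 P (fn₃ ((Csm 𝒰 A).d 2 f)) (fn₀ b) + cup21 P (fn₂ f) (fn₁ ((Csm 𝒰 B).d 0 b)) := by
  rw [fn₃_d_eq, fn₂_scup20, fn₃_d_eq, fn₁_d_eq, leibniz20]

end Fermat.Agent.S55lib.CFDual
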