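/-
S55 sprint, block (I) / K4 (helper8): the pairing between the homotopy fibres
`K = Fib (C_sm(A₀) → C_sm(A₁))` and `L = Fib (C_sm(B₁) → C_sm(B₀))` induced by a pair of
equivariant pairings `β₀ : A₀ × B₀ → C`, `β₁ : A₁ × B₁ → C` which are adjoint with respect to
`φ : A₀ → A₁`, `ψ : B₁ → B₀`:   `⟨(a, b), (y, x)⟩ = a ∪ x + (-1)^(r-1) b ∪ y`.
Degrees: `(r, t) = (2,1), (1,2)` (values in `C²`), `(1,1), (0,2), (2,0)` (values in `C¹`).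
-/
import Fermat.Agent.S55lib.CFDual.SmCup
import Fermat.Agent.S55lib.CFDual.PairH

set_option autoImplicit false

noncomputable section

namespace Fermat.Agent.S55lib.CFDual

universe u

open Csm Cpx

variable {k G : Type u} [CommRing k] [Group G]

/-- Adjoint pairing data. -/
structure AdjData (A0 A1 B1 B0 C : Rep.{u} k G) where
  /-- the map on the left -/
  φ : A0 ⟶ A1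
  /-- the map on the right -/
  ψ : B1 ⟶ B0
  /-- the pairing in degree `0` -/
  β0 : EqBilin A0 B0 C
  /-- the pairing in degree `1` -/
  β1 : EqBilin A1 B1 C
  /-- adjointness -/
  adj : ∀ (a : A0) (y : B1), β1.β (φ.hom a) y = β0.β a (ψ.hom y)

variable (𝒰 : OpenBasis G) {A0 A1 B1 B0 C : Rep.{u} k G} (D : AdjData A0 A1 B1 B0 C)

namespace AdjData

/-- the left complex -/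
abbrev KC : Cpx k := Fib (Csm.map 𝒰 D.φ)

/-- the right complex -/
abbrev LC : Cpx k := Fib (Csm.map 𝒰 D.ψ)

/-! ### functoriality of `fn` -/

omit D in
lemma fn₀_map {X Y : Rep.{u} k G} (f : X ⟶ Y) (x : (Csm 𝒰 X).X 0) :
    fn₀ ((Csm.map 𝒰 f).f 0 x) = f.hom (fn₀ x) := rfl

omit D in
lemma fn₁_map {X Y : Rep.{u} k G} (f : X ⟶ Y) (x : (Csm 𝒰 X).X 1) (g : G) :
    fn₁ ((Csm.map 𝒰 f).f 1 x) g = f.hom (fn₁ x g) := rfl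

omit D in
lemma fn₂_map {X Y : Rep.{u} k G} (f : X ⟶ Y) (x : (Csm 𝒰 X).X 2) (p : G × G) :
    fn₂ ((Csm.map 𝒰 f).f 2 x) p = f.hom (fn₂ x p) := by
  obtain ⟨g, h⟩ := p
  rw [fn₂_apply, fn₂_apply]
  rfl

/-! ### adjointness of the cup products -/

lemma adj' (g : G) (a : A0) (y : B1) :
    D.β1.β (D.φ.hom a) (B1.ρ g y) = D.β0.β a (B0.ρ g (D.ψ.hom y)) := by
  rw [D.adj, Rep.hom_comm_apply]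

lemma scup11_adj (a : (Csm 𝒰 A0).X 1) (y : (Csm 𝒰 B1).X 1) :
    scup11 𝒰 D.β1 ((Csm.map 𝒰 D.φ).f 1 a) y = scup11 𝒰 D.β0 a ((Csm.map 𝒰 D.ψ).f 1 y) := by
  apply ext₂
  funext ⟨g, h⟩
  simp only [fn₂_scup11, cup11, fn₁_map, D.adj']

lemma scup02_adj (a : (Csm 𝒰 A0).X 0) (y : (Csm 𝒰 B1).X 2) :
    scup02 𝒰 D.β1 ((Csm.map 𝒰 D.φ).f 0 a) y = scup02 𝒰 D.β0 a ((Csm.map 𝒰 D.ψ).f 2 y) := by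
  apply ext₂
  funext ⟨g, h⟩
  simp only [fn₂_scup02, cup02, fn₀_map, fn₂_map, D.adj]

lemma scup20_adj (a : (Csm 𝒰 A0).X 2) (y : (Csm 𝒰 B1).X 0) :
    scup20 𝒰 D.β1 ((Csm.map 𝒰 D.φ).f 2 a) y = scup20 𝒰 D.β0 a ((Csm.map 𝒰 D.ψ).f 0 y) := by
  apply ext₂
  funext ⟨g, h⟩
  simp only [fn₂_scup20, cup20, fn₀_map, fn₂_map, D.adj']

lemma cup21_adj (a : (Csm 𝒰 A0).X 2) (y : (Csm 𝒰 B1).X 1) :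
    cup21 D.β1 (fn₂ ((Csm.map 𝒰 D.φ).f 2 a)) (fn₁ y) =
      cup21 D.β0 (fn₂ a) (fn₁ ((Csm.map 𝒰 D.ψ).f 1 y)) := by
  funext ⟨g, h, j⟩
  simp only [cup21, fn₁_map, fn₂_map, D.adj']

lemma cup12_adj (a : (Csm 𝒰 A0).X 1) (y : (Csm 𝒰 B1).X 2) :
    cup12 D.β1 (fn₁ ((Csm.map 𝒰 D.φ).f 1 a)) (fn₂ y) =
      cup12 D.β0 (fn₁ a) (fn₂ ((Csm.map 𝒰 D.ψ).f 2 y)) := by
  funext ⟨g, h, j⟩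
  simp only [cup12, fn₁_map, fn₂_map, D.adj']

/-! ### the pairings on cochains -/

/-- `(2,1) → 2` : `⟨(a, b), (y, x)⟩ = a ∪ x - b ∪ y` -/
def p21 : (D.KC 𝒰).X 2 →ₗ[k] (D.LC 𝒰).X 1 →ₗ[k] (Csm 𝒰 C).X 2 :=
  (scup20 𝒰 D.β0).compl₁₂ (LinearMap.fst k ((Csm 𝒰 A0).X 2) ((Csm 𝒰 A1).X 1))
      (LinearMap.snd k ((Csm 𝒰 B1).X 1) ((Csm 𝒰 B0).X 0)) -
    (scup11 𝒰 D.β1).compl₁₂ (LinearMap.snd k ((Csm 𝒰 A0).X 2) ((Csm 𝒰 A1).X 1))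
      (LinearMap.fst k ((Csm 𝒰 B1).X 1) ((Csm 𝒰 B0).X 0))

/-- `(1,2) → 2` : `⟨(a, b), (y, x)⟩ = a ∪ x + b ∪ y` -/
def p12 : (D.KC 𝒰).X 1 →ₗ[k] (D.LC 𝒰).X 2 →ₗ[k] (Csm 𝒰 C).X 2 :=
  (scup11 𝒰 D.β0).compl₁₂ (LinearMap.fst k ((Csm 𝒰 A0).X 1) ((Csm 𝒰 A1).X 0))
      (LinearMap.snd k ((Csm 𝒰 B1).X 2) ((Csm 𝒰 B0).X 1)) +
    (scup02 𝒰 D.β1).compl₁₂ (LinearMap.snd k ((Csm 𝒰 A0).X 1) ((Csm 𝒰 A1).X 0))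
      (LinearMap.fst k ((Csm 𝒰 B1).X 2) ((Csm 𝒰 B0).X 1))

/-- `(1,1) → 1` : `⟨(a, b), (y, x)⟩ = a ∪ x + b ∪ y` -/
def p11 : (D.KC 𝒰).X 1 →ₗ[k] (D.LC 𝒰).X 1 →ₗ[k] (Csm 𝒰 C).X 1 :=
  (scup10 𝒰 D.β0).compl₁₂ (LinearMap.fst k ((Csm 𝒰 A0).X 1) ((Csm 𝒰 A1).X 0))
      (LinearMap.snd k ((Csm 𝒰 B1).X 1) ((Csm 𝒰 B0).X 0)) +
    (scup01 𝒰 D.β1).compl₁₂ (LinearMap.snd k ((Csm 𝒰 A0).X 1) ((Csm 𝒰 A1).X 0))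
      (LinearMap.fst k ((Csm 𝒰 B1).X 1) ((Csm 𝒰 B0).X 0))

/-- `(0,2) → 1` : `⟨a, (y, x)⟩ = a ∪ x` -/
def p02 : (D.KC 𝒰).X 0 →ₗ[k] (D.LC 𝒰).X 2 →ₗ[k] (Csm 𝒰 C).X 1 :=
  (scup01 𝒰 D.β0).compl₁₂ (LinearMap.fst k ((Csm 𝒰 A0).X 0) ((sh (Csm 𝒰 A1)).X 0))
      (LinearMap.snd k ((Csm 𝒰 B1).X 2) ((Csm 𝒰 B0).X 1))

/-- `(2,0) → 1` : `⟨(a, b), y⟩ = - b ∪ y` -/
def p20 : (D.KC 𝒰).X 2 →ₗ[k] (D.LC 𝒰).X 0 →ₗ[k] (Csm 𝒰 C).X 1 :=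
  -(scup10 𝒰 D.β1).compl₁₂ (LinearMap.snd k ((Csm 𝒰 A0).X 2) ((Csm 𝒰 A1).X 1))
      (LinearMap.fst k ((Csm 𝒰 B1).X 0) ((sh (Csm 𝒰 B0)).X 0))

lemma p21_apply (a : (Csm 𝒰 A0).X 2) (b : (Csm 𝒰 A1).X 1) (y : (Csm 𝒰 B1).X 1)
    (x : (Csm 𝒰 B0).X 0) :
    D.p21 𝒰 ((a, b) : (Csm 𝒰 A0).X 2 × (Csm 𝒰 A1).X 1)
      ((y, x) : (Csm 𝒰 B1).X 1 × (Csm 𝒰 B0).X 0) =
      scup20 𝒰 D.β0 a x - scup11 𝒰 D.β1 b y := rfl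

lemma p12_apply (a : (Csm 𝒰 A0).X 1) (b : (Csm 𝒰 A1).X 0) (y : (Csm 𝒰 B1).X 2)
    (x : (Csm 𝒰 B0).X 1) :
    D.p12 𝒰 ((a, b) : (Csm 𝒰 A0).X 1 × (Csm 𝒰 A1).X 0)
      ((y, x) : (Csm 𝒰 B1).X 2 × (Csm 𝒰 B0).X 1) =
      scup11 𝒰 D.β0 a x + scup02 𝒰 D.β1 b y := rfl

lemma p11_apply (a : (Csm 𝒰 A0).X 1) (b : (Csm 𝒰 A1).X 0) (y : (Csm 𝒰 B1).X 1)
    (x : (Csm 𝒰 B0).X 0) :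
    D.p11 𝒰 ((a, b) : (Csm 𝒰 A0).X 1 × (Csm 𝒰 A1).X 0)
      ((y, x) : (Csm 𝒰 B1).X 1 × (Csm 𝒰 B0).X 0) =
      scup10 𝒰 D.β0 a x + scup01 𝒰 D.β1 b y := rfl

lemma p02_apply (a : (Csm 𝒰 A0).X 0) (b : (sh (Csm 𝒰 A1)).X 0) (y : (Csm 𝒰 B1).X 2)
    (x : (Csm 𝒰 B0).X 1) :
    D.p02 𝒰 ((a, b) : (Csm 𝒰 A0).X 0 × (sh (Csm 𝒰 A1)).X 0)
      ((y, x) : (Csm 𝒰 B1).X 2 × (Csm 𝒰 B0).X 1) = scup01 𝒰 D.β0 a x := rfl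

lemma p20_apply (a : (Csm 𝒰 A0).X 2) (b : (Csm 𝒰 A1).X 1) (y : (Csm 𝒰 B1).X 0)
    (x : (sh (Csm 𝒰 B0)).X 0) :
    D.p20 𝒰 ((a, b) : (Csm 𝒰 A0).X 2 × (Csm 𝒰 A1).X 1)
      ((y, x) : (Csm 𝒰 B1).X 0 × (sh (Csm 𝒰 B0)).X 0) = -scup10 𝒰 D.β1 b y := rfl

/-! ### Leibniz rules on the level of the fibres -/

/-- `d⟨κ, λ⟩ = ⟨dκ, λ⟩ + ⟨κ, dλ⟩` for `κ ∈ K¹`, `λ ∈ L¹`. -/
theorem d_p11 (κ : (D.KC 𝒰).X 1) (l : (D.LC 𝒰).X 1) :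
    (Csm 𝒰 C).d 1 (D.p11 𝒰 κ l) = D.p21 𝒰 ((D.KC 𝒰).d 1 κ) l + D.p12 𝒰 κ ((D.LC 𝒰).d 1 l) := by
  obtain ⟨a, b⟩ := κ
  obtain ⟨y, x⟩ := l
  have h1 := Fib.d_succ (Csm.map 𝒰 D.φ) 0 a b
  have h2 := Fib.d_succ (Csm.map 𝒰 D.ψ) 0 y x
  rw [h1, h2, p11_apply, p21_apply, p12_apply, map_add, d_scup10, d_scup01, map_sub,
    LinearMap.sub_apply, map_sub, scup11_adj]
  abel

/-- `d⟨κ, λ⟩ = ⟨dκ, λ⟩` for `κ ∈ K⁰` and a cocycle `λ ∈ L²`. -/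
theorem d_p02 (κ : (D.KC 𝒰).X 0) (l : (D.LC 𝒰).X 2) (hl : (D.LC 𝒰).d 2 l = 0) :
    (Csm 𝒰 C).d 1 (D.p02 𝒰 κ l) = D.p12 𝒰 ((D.KC 𝒰).d 0 κ) l := by
  obtain ⟨a, b⟩ := κ
  obtain ⟨y, x⟩ := l
  have h1 := Fib.d_zero (Csm.map 𝒰 D.φ) a b
  obtain ⟨_, h3⟩ := (Fib.d_succ_eq_zero_iff (Csm.map 𝒰 D.ψ) 1 y x).1 hl
  rw [h1, p02_apply, p12_apply, d_scup01, scup02_adj, h3]

/-- `d⟨κ, λ⟩ = -⟨κ, dλ⟩` for a cocycle `κ ∈ K²` and `λ ∈ L⁰`. -/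
theorem d_p20 (κ : (D.KC 𝒰).X 2) (hκ : (D.KC 𝒰).d 2 κ = 0) (l : (D.LC 𝒰).X 0) :
    (Csm 𝒰 C).d 1 (D.p20 𝒰 κ l) = -D.p21 𝒰 κ ((D.LC 𝒰).d 0 l) := by
  obtain ⟨a, b⟩ := κ
  obtain ⟨y, x⟩ := l
  have h2 := Fib.d_zero (Csm.map 𝒰 D.ψ) y x
  obtain ⟨_, h3⟩ := (Fib.d_succ_eq_zero_iff (Csm.map 𝒰 D.φ) 1 a b).1 hκ
  rw [h2, p20_apply, p21_apply, map_neg, d_scup10, ← h3, scup20_adj]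

/-- `⟨κ, λ⟩` is a cocycle for cocycles `κ ∈ K²`, `λ ∈ L¹`. -/
theorem d_p21 (κ : (D.KC 𝒰).X 2) (hκ : (D.KC 𝒰).d 2 κ = 0) (l : (D.LC 𝒰).X 1)
    (hl : (D.LC 𝒰).d 1 l = 0) : (Csm 𝒰 C).d 2 (D.p21 𝒰 κ l) = 0 := by
  obtain ⟨a, b⟩ := κ
  obtain ⟨y, x⟩ := l
  obtain ⟨h1, h2⟩ := (Fib.d_succ_eq_zero_iff (Csm.map 𝒰 D.φ) 1 a b).1 hκ
  obtain ⟨h3, h4⟩ := (Fib.d_succ_eq_zero_iff (Csm.map 𝒰 D.ψ) 0 y x).1 hl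
  apply ext₃
  rw [p21_apply, map_sub, fn₃_zero]
  have e : ∀ u v : (Csm 𝒰 C).X 3, fn₃ (u - v) = fn₃ u - fn₃ v := fun _ _ => rfl
  rw [e, fn₃_d_scup20, fn₃_d_scup11, h1, h3, ← h2, ← h4, cup21_adj]
  funext ⟨g, h, j⟩
  simp [cup30, cup12, fn₃_zero, fn₂_zero]

/-- `⟨κ, λ⟩` is a cocycle for cocycles `κ ∈ K¹`, `λ ∈ L²`. -/
theorem d_p12 (κ : (D.KC 𝒰).X 1) (hκ : (D.KC 𝒰).d 1 κ = 0) (l : (D.LC 𝒰).X 2)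
    (hl : (D.LC 𝒰).d 2 l = 0) : (Csm 𝒰 C).d 2 (D.p12 𝒰 κ l) = 0 := by
  obtain ⟨a, b⟩ := κ
  obtain ⟨y, x⟩ := l
  obtain ⟨h1, h2⟩ := (Fib.d_succ_eq_zero_iff (Csm.map 𝒰 D.φ) 0 a b).1 hκ
  obtain ⟨h3, h4⟩ := (Fib.d_succ_eq_zero_iff (Csm.map 𝒰 D.ψ) 1 y x).1 hl
  apply ext₃
  rw [p12_apply, map_add, fn₃_zero]
  have e : ∀ u v : (Csm 𝒰 C).X 3, fn₃ (u + v) = fn₃ u + fn₃ v := fun _ _ => rfl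
  rw [e, fn₃_d_scup11, fn₃_d_scup02, h1, h3, ← h2, ← h4, cup12_adj]
  funext ⟨g, h, j⟩
  simp [cup21, cup03, fn₃_zero, fn₂_zero]

end AdjData

end Fermat.Agent.S55lib.CFDual
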