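/-
S55 sprint, block (I) / K4 (helper8): the pairings `H²(K) × H¹(L) → H²(C)`, `H¹(K) × H²(L) → H²(C)`
induced by adjoint pairing data, their naturality and their compatibility with connecting maps.
-/
import Fermat.Agent.S55lib.CFDual.FibPair

set_option autoImplicit false

noncomputable section

namespace Fermat.Agent.S55lib.CFDual

universe u

open Csm Cpx

variable {k G : Type u} [CommRing k] [Group G] (𝒰 : OpenBasis G)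

namespace AdjData

section defs

variable {A0 A1 B1 B0 C : Rep.{u} k G} (D : AdjData A0 A1 B1 B0 C)

/-- the pairing `H²(K) × H¹(L) → H²(C)` -/
def pair21 : (D.KC 𝒰).H 2 →ₗ[k] (D.LC 𝒰).H 1 →ₗ[k] (Csm 𝒰 C).H 2 :=
  pairH (D.p21 𝒰) (fun κ l hκ hl => D.d_p21 𝒰 κ hκ l hl)
    (fun κ hκ l hl => by
      obtain ⟨κ', rfl⟩ := ((D.KC 𝒰).mem_B_succ).1 hκ
      rw [mem_B_succ]
      refine ⟨D.p11 𝒰 κ' l, ?_⟩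
      rw [D.d_p11 𝒰 κ' l, hl, map_zero, add_zero])
    (fun κ hκ l hl => by
      obtain ⟨l', rfl⟩ := ((D.LC 𝒰).mem_B_succ).1 hl
      rw [mem_B_succ]
      refine ⟨-D.p20 𝒰 κ l', ?_⟩
      rw [map_neg, D.d_p20 𝒰 κ hκ l', neg_neg])

/-- the pairing `H¹(K) × H²(L) → H²(C)` -/
def pair12 : (D.KC 𝒰).H 1 →ₗ[k] (D.LC 𝒰).H 2 →ₗ[k] (Csm 𝒰 C).H 2 :=
  pairH (D.p12 𝒰) (fun κ l hκ hl => D.d_p12 𝒰 κ hκ l hl)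
    (fun κ hκ l hl => by
      obtain ⟨κ', rfl⟩ := ((D.KC 𝒰).mem_B_succ).1 hκ
      rw [mem_B_succ]
      refine ⟨D.p02 𝒰 κ' l, ?_⟩
      rw [D.d_p02 𝒰 κ' l hl])
    (fun κ hκ l hl => by
      obtain ⟨l', rfl⟩ := ((D.LC 𝒰).mem_B_succ).1 hl
      rw [mem_B_succ]
      refine ⟨D.p11 𝒰 κ l', ?_⟩
      rw [D.d_p11 𝒰 κ l', hκ, map_zero, LinearMap.zero_apply, zero_add])

lemma pair21_cl (κ : (D.KC 𝒰).X 2) (hκ : (D.KC 𝒰).d 2 κ = 0) (l : (D.LC 𝒰).X 1)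
    (hl : (D.LC 𝒰).d 1 l = 0) :
    D.pair21 𝒰 ((D.KC 𝒰).cl κ hκ) ((D.LC 𝒰).cl l hl) =
      (Csm 𝒰 C).cl (D.p21 𝒰 κ l) (D.d_p21 𝒰 κ hκ l hl) := rfl

lemma pair12_cl (κ : (D.KC 𝒰).X 1) (hκ : (D.KC 𝒰).d 1 κ = 0) (l : (D.LC 𝒰).X 2)
    (hl : (D.LC 𝒰).d 2 l = 0) :
    D.pair12 𝒰 ((D.KC 𝒰).cl κ hκ) ((D.LC 𝒰).cl l hl) =
      (Csm 𝒰 C).cl (D.p12 𝒰 κ l) (D.d_p12 𝒰 κ hκ l hl) := rfl

end defs

/-! ### Naturality and connecting maps, in terms of cochain identities -/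

section nat

variable {A0 A1 B1 B0 C : Rep.{u} k G} (D : AdjData A0 A1 B1 B0 C)
  {A0' A1' B1' B0' : Rep.{u} k G} (D' : AdjData A0' A1' B1' B0' C)

/-- naturality of `pair21` -/
theorem pair21_natural (a : Cpx.Hom (D.KC 𝒰) (D'.KC 𝒰)) (b : Cpx.Hom (D'.LC 𝒰) (D.LC 𝒰))
    (h : ∀ κ l, D'.p21 𝒰 (a.f 2 κ) l = D.p21 𝒰 κ (b.f 1 l))
    (e : (D.KC 𝒰).H 2) (y : (D'.LC 𝒰).H 1) :
    D'.pair21 𝒰 (a.mapH 2 e) y = D.pair21 𝒰 e (b.mapH 1 y) := by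
  obtain ⟨κ, hκ, rfl⟩ := (D.KC 𝒰).exists_rep e
  obtain ⟨l, hl, rfl⟩ := (D'.LC 𝒰).exists_rep y
  rw [Hom.mapH_cl, Hom.mapH_cl, pair21_cl, pair21_cl]
  exact cl_congr _ (h κ l) _

/-- naturality of `pair12` -/
theorem pair12_natural (a : Cpx.Hom (D.KC 𝒰) (D'.KC 𝒰)) (b : Cpx.Hom (D'.LC 𝒰) (D.LC 𝒰))
    (h : ∀ κ l, D'.p12 𝒰 (a.f 1 κ) l = D.p12 𝒰 κ (b.f 2 l))
    (e : (D.KC 𝒰).H 1) (y : (D'.LC 𝒰).H 2) :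
    D'.pair12 𝒰 (a.mapH 1 e) y = D.pair12 𝒰 e (b.mapH 2 y) := by
  obtain ⟨κ, hκ, rfl⟩ := (D.KC 𝒰).exists_rep e
  obtain ⟨l, hl, rfl⟩ := (D'.LC 𝒰).exists_rep y
  rw [Hom.mapH_cl, Hom.mapH_cl, pair12_cl, pair12_cl]
  exact cl_congr _ (h κ l) _

variable {A0'' A1'' B1'' B0'' : Rep.{u} k G} (D'' : AdjData A0'' A1'' B1'' B0'' C)

/-- **Compatibility with connecting maps.**  For short exact sequences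
`0 → K'' → K → K' → 0` and `0 → L' → L → L'' → 0` compatible with the pairings,
`⟨δ e, y⟩ + ⟨e, δ y⟩ = 0` for `e ∈ H¹(K')`, `y ∈ H¹(L'')`. -/
theorem pair_delta {jK : Cpx.Hom (D''.KC 𝒰) (D.KC 𝒰)} {pK : Cpx.Hom (D.KC 𝒰) (D'.KC 𝒰)}
    {iL : Cpx.Hom (D'.LC 𝒰) (D.LC 𝒰)} {qL : Cpx.Hom (D.LC 𝒰) (D''.LC 𝒰)}
    (SK : IsSES jK pK) (SL : IsSES iL qL)
    (h21 : ∀ κ l, D.p21 𝒰 (jK.f 2 κ) l = D''.p21 𝒰 κ (qL.f 1 l))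
    (h12 : ∀ κ l, D'.p12 𝒰 (pK.f 1 κ) l = D.p12 𝒰 κ (iL.f 2 l))
    (e : (D'.KC 𝒰).H 1) (y : (D''.LC 𝒰).H 1) :
    D''.pair21 𝒰 (SK.δ 1 e) y + D'.pair12 𝒰 e (SL.δ 1 y) = 0 := by
  obtain ⟨κ', hκ', rfl⟩ := (D'.KC 𝒰).exists_rep e
  obtain ⟨l'', hl'', rfl⟩ := (D''.LC 𝒰).exists_rep y
  obtain ⟨κ, κ₂, hκ, hκ₂⟩ := SK.exists_lift κ' hκ'
  obtain ⟨l, l₂, hl, hl₂⟩ := SL.exists_lift l'' hl''
  rw [SK.δ_cl κ' hκ' κ hκ κ₂ hκ₂, SL.δ_cl l'' hl'' l hl l₂ hl₂, pair21_cl, pair12_cl, ← cl_add,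
    cl_eq_zero_iff, mem_B_succ]
  refine ⟨D.p11 𝒰 κ l, ?_⟩
  rw [D.d_p11 𝒰 κ l, ← hκ₂, ← hl₂, h21, ← h12, hκ, hl]

end nat

end AdjData

end Fermat.Agent.S55lib.CFDual
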