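/-
S55 sprint, block (I) / K4 (helper8): the duality pairings of a two-term complex `d : P₁ ⟶ P₀`:
`α² : Ext²(d, C) × F⁰(d) → H²(G, C)` and `α¹ : Ext¹(d, C) × F¹(d) → H²(G, C)`, where
`Extʳ(d, C) = ExtH 𝒰 d C r` (helper7's hub) and `Fˢ(d) = H^{s+1}(Fib (C_sm(P₁) → C_sm(P₀)))`
(`≅ H^s_sm(G, coker d)` when `d` is injective).  Naturality in `d` and compatibility with the
connecting maps of a short exact sequence of two-term complexes.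
-/
import Fermat.Agent.S55lib.Cpx.HomRep
import Fermat.Agent.S55lib.CFDual.FibPairH

set_option autoImplicit false

noncomputable section

namespace Fermat.Agent.S55lib.CFDual

universe u

open Csm Cpx CategoryTheory

variable {k G : Type u} [CommRing k] [Group G] (𝒰 : OpenBasis G)

/-- the evaluation pairing `Hom(P, C) × P → C` -/
def evalBilin (P C : Rep.{u} k G) : EqBilin (homRep P C) P C where
  β := LinearMap.id
  equiv g φ x := by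
    show ((homRep P C).ρ g φ : P →ₗ[k] C) (P.ρ g x) = C.ρ g ((φ : P →ₗ[k] C) x)
    rw [homRep.ρ_apply, ← Module.End.mul_apply, ← map_mul, inv_mul_cancel, map_one,
      Module.End.one_apply]

lemma evalBilin_apply (P C : Rep.{u} k G) (φ : homRep P C) (x : P) :
    (evalBilin P C).β φ x = (φ : P →ₗ[k] C) x := rfl

variable {P0 P1 : Rep.{u} k G} (d : P1 ⟶ P0) (C : Rep.{u} k G)

/-- the adjoint pairing data of a two-term complex -/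
def pairData : AdjData (homRep P0 C) (homRep P1 C) P1 P0 C where
  φ := homRep.mapL d C
  ψ := d
  β0 := evalBilin P0 C
  β1 := evalBilin P1 C
  adj _ _ := rfl

/-- the complex computing `F^•(d)` (shifted by one) -/
abbrev FC : Cpx k := Fib (Csm.map 𝒰 d)

/-- `α²` -/
def alpha2 : ExtH 𝒰 d C 2 →ₗ[k] (FC 𝒰 d).H 1 →ₗ[k] (Csm 𝒰 C).H 2 :=
  (pairData d C).pair21 𝒰

/-- `α¹` -/
def alpha1 : ExtH 𝒰 d C 1 →ₗ[k] (FC 𝒰 d).H 2 →ₗ[k] (Csm 𝒰 C).H 2 :=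
  (pairData d C).pair12 𝒰

/-! ### Functoriality of `FC` -/

section maps

variable {P0' P1' : Rep.{u} k G} {d' : P1' ⟶ P0'}

/-- the map `FC d' → FC d` induced by a morphism of two-term complexes `d' → d` -/
def FC.map (a0 : P0' ⟶ P0) (a1 : P1' ⟶ P1) (h : ∀ x, d.hom (a1.hom x) = a0.hom (d'.hom x)) :
    Cpx.Hom (FC 𝒰 d') (FC 𝒰 d) :=
  Fib.map (Csm.map 𝒰 a1) (Csm.map 𝒰 a0) (by
    intro n x
    apply Subtype.ext
    funext g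
    exact h (x.1 g))

variable (a0 : P0' ⟶ P0) (a1 : P1' ⟶ P1) (h : ∀ x, d.hom (a1.hom x) = a0.hom (d'.hom x))

/-- cochain level naturality of `p21` -/
lemma p21_mapL (κ : ((pairData d C).KC 𝒰).X 2) (l : (FC 𝒰 d').X 1) :
    (pairData d' C).p21 𝒰 ((ExtC.mapL 𝒰 d a0 a1 h C).f 2 κ) l =
      (pairData d C).p21 𝒰 κ ((FC.map 𝒰 d a0 a1 h).f 1 l) := by
  obtain ⟨a, b⟩ := κ
  obtain ⟨y, x⟩ := l
  show (pairData d' C).p21 𝒰
      (((Csm.map 𝒰 (homRep.mapL a0 C)).f 2 a, (Csm.map 𝒰 (homRep.mapL a1 C)).f 1 b) :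
        (Csm 𝒰 (homRep P0' C)).X 2 × (Csm 𝒰 (homRep P1' C)).X 1)
      ((y, x) : (Csm 𝒰 P1').X 1 × (Csm 𝒰 P0').X 0) =
    (pairData d C).p21 𝒰 ((a, b) : (Csm 𝒰 (homRep P0 C)).X 2 × (Csm 𝒰 (homRep P1 C)).X 1)
      (((Csm.map 𝒰 a1).f 1 y, (Csm.map 𝒰 a0).f 0 x) : (Csm 𝒰 P1).X 1 × (Csm 𝒰 P0).X 0)
  rw [AdjData.p21_apply, AdjData.p21_apply]
  congr 1
  · apply ext₂
    funext ⟨g, h'⟩
    simp only [fn₂_scup20, cup20, AdjData.fn₂_map, AdjData.fn₀_map]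
    show ((fn₂ a (g, h') : P0 →ₗ[k] C)) (a0.hom (P0'.ρ (g * h') (fn₀ x))) = _
    rw [Rep.hom_comm_apply]
    rfl
  · apply ext₂
    funext ⟨g, h'⟩
    simp only [fn₂_scup11, cup11, AdjData.fn₁_map]
    show ((fn₁ b g : P1 →ₗ[k] C)) (a1.hom (P1'.ρ g (fn₁ y h'))) = _
    rw [Rep.hom_comm_apply]
    rfl

/-- cochain level naturality of `p12` -/
lemma p12_mapL (κ : ((pairData d C).KC 𝒰).X 1) (l : (FC 𝒰 d').X 2) :
    (pairData d' C).p12 𝒰 ((ExtC.mapL 𝒰 d a0 a1 h C).f 1 κ) l =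
      (pairData d C).p12 𝒰 κ ((FC.map 𝒰 d a0 a1 h).f 2 l) := by
  obtain ⟨a, b⟩ := κ
  obtain ⟨y, x⟩ := l
  show (pairData d' C).p12 𝒰
      (((Csm.map 𝒰 (homRep.mapL a0 C)).f 1 a, (Csm.map 𝒰 (homRep.mapL a1 C)).f 0 b) :
        (Csm 𝒰 (homRep P0' C)).X 1 × (Csm 𝒰 (homRep P1' C)).X 0)
      ((y, x) : (Csm 𝒰 P1').X 2 × (Csm 𝒰 P0').X 1) =
    (pairData d C).p12 𝒰 ((a, b) : (Csm 𝒰 (homRep P0 C)).X 1 × (Csm 𝒰 (homRep P1 C)).X 0)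
      (((Csm.map 𝒰 a1).f 2 y, (Csm.map 𝒰 a0).f 1 x) : (Csm 𝒰 P1).X 2 × (Csm 𝒰 P0).X 1)
  rw [AdjData.p12_apply, AdjData.p12_apply]
  congr 1
  · apply ext₂
    funext ⟨g, h'⟩
    simp only [fn₂_scup11, cup11, AdjData.fn₁_map]
    show ((fn₁ a g : P0 →ₗ[k] C)) (a0.hom (P0'.ρ g (fn₁ x h'))) = _
    rw [Rep.hom_comm_apply]
    rfl

/-- naturality of `α²` -/
theorem alpha2_natural (e : ExtH 𝒰 d C 2) (y : (FC 𝒰 d').H 1) :
    alpha2 𝒰 d' C ((ExtC.mapL 𝒰 d a0 a1 h C).mapH 2 e) y =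
      alpha2 𝒰 d C e ((FC.map 𝒰 d a0 a1 h).mapH 1 y) :=
  AdjData.pair21_natural 𝒰 (pairData d C) (pairData d' C) (ExtC.mapL 𝒰 d a0 a1 h C)
    (FC.map 𝒰 d a0 a1 h) (p21_mapL 𝒰 d C a0 a1 h) e y

/-- naturality of `α¹` -/
theorem alpha1_natural (e : ExtH 𝒰 d C 1) (y : (FC 𝒰 d').H 2) :
    alpha1 𝒰 d' C ((ExtC.mapL 𝒰 d a0 a1 h C).mapH 1 e) y =
      alpha1 𝒰 d C e ((FC.map 𝒰 d a0 a1 h).mapH 2 y) :=
  AdjData.pair12_natural 𝒰 (pairData d C) (pairData d' C) (ExtC.mapL 𝒰 d a0 a1 h C)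
    (FC.map 𝒰 d a0 a1 h) (p12_mapL 𝒰 d C a0 a1 h) e y

end maps

end Fermat.Agent.S55lib.CFDual
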