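/-
S55 sprint, block (I) / K4 (helper8): the class-formation hypotheses (CF1)–(CF4) in "V-form"
(cohomology of the open subgroups `V ≤ U₀` themselves, with the induced basis `𝒰.comap V.subtype`)
and the statement of K4.
-/
import Fermat.Agent.S55lib.Cpx.Shapiro
import Fermat.Agent.S55lib.CFDual.Pair

set_option autoImplicit false

noncomputable section

namespace Fermat.Agent.S55lib.CFDual

open Csm Cpx CategoryTheory

variable {G : Type} [Group G] (𝒰 : OpenBasis G)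

/-- the restriction map on smooth cochains from `G` to the subgroup `V` -/
def resHom (V : Subgroup G) (A : Rep.{0} ℤ G) :
    Cpx.Hom (Csm 𝒰 A) (Csm (𝒰.comap V.subtype) (Rep.res V.subtype A)) :=
  Csm.mapG (𝒰.isCont_comap V.subtype) (𝟙 _)

/-- the trivial module `ℤ` -/
abbrev trivZ (H : Type) [Group H] : Rep.{0} ℤ H := Rep.trivial ℤ H ℤ

/-- the trivial module `𝔽_p` -/
abbrev trivFp (p : ℕ) (H : Type) [Group H] : Rep.{0} ℤ H := Rep.trivial ℤ H (ZMod p)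

/-- multiplication by `p` on `ℤ` -/
def mulP (p : ℕ) (H : Type) [Group H] : trivZ H ⟶ trivZ H :=
  Rep.ofHom
    { toLinearMap := (p : ℤ) • LinearMap.id
      isIntertwining' := fun _ => rfl }

/-- reduction mod `p` -/
def redP (p : ℕ) (H : Type) [Group H] : trivZ H ⟶ trivFp p H :=
  Rep.ofHom
    { toLinearMap := (Int.castAddHom (ZMod p)).toIntLinearMap
      isIntertwining' := fun _ => rfl }

lemma mulP_apply (p : ℕ) (H : Type) [Group H] (n : ℤ) : (mulP p H).hom n = (p : ℤ) * n := by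
  show (p : ℤ) • n = _
  rw [smul_eq_mul]

lemma redP_apply (p : ℕ) (H : Type) [Group H] (n : ℤ) : (redP p H).hom n = (n : ZMod p) := rfl

lemma isSm_trivial {H : Type} [Group H] (𝒱 : OpenBasis H) (M : Type) [AddCommGroup M]
    [Module ℤ M] : IsSm 𝒱 (Rep.trivial ℤ H M) := by
  intro a
  obtain ⟨U, hU⟩ := 𝒱.nonempty
  exact ⟨U, hU, fun _ _ => rfl⟩

/-- the Bockstein sequence `0 → ℤ → ℤ → 𝔽_p → 0` of trivial modules is short exact on smooth
cochains -/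
theorem bock_isSES (p : ℕ) [Fact p.Prime] {H : Type} [Group H] (𝒱 : OpenBasis H) :
    IsSES (Csm.map 𝒱 (mulP p H)) (Csm.map 𝒱 (redP p H)) := by
  refine Csm.map_isSES _ _ (isSm_trivial 𝒱 ℤ) ?_ ?_ ?_
  · intro a b h
    rw [mulP_apply, mulP_apply] at h
    have hp : (p : ℤ) ≠ 0 := by exact_mod_cast (Fact.out : p.Prime).ne_zero
    exact mul_left_cancel₀ hp h
  · intro a
    obtain ⟨n, rfl⟩ := ZMod.intCast_surjective a
    exact ⟨n, rfl⟩
  · intro b
    rw [redP_apply, ZMod.intCast_zmod_eq_zero_iff_dvd]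
    constructor
    · rintro ⟨c, rfl⟩
      exact ⟨c, mulP_apply p H c⟩
    · rintro ⟨c, rfl⟩
      exact ⟨c, mulP_apply p H c⟩

/-- the Bockstein homomorphism `H¹(H, 𝔽_p) → H²(H, ℤ)` -/
def bock (p : ℕ) [Fact p.Prime] {H : Type} [Group H] (𝒱 : OpenBasis H) :
    Hsm 𝒱 (trivFp p H) 1 →ₗ[ℤ] Hsm 𝒱 (trivZ H) 2 :=
  (bock_isSES p 𝒱).δ 1

/-- the map `k → C|_V`, `n ↦ n • c`, for a `V`-invariant `c` (general coefficient ring) -/
def constHomK {k : Type} [CommRing k] (V : Subgroup G) (C : Rep.{0} k G) (c : C)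
    (hc : ∀ v ∈ V, C.ρ v c = c) : Rep.trivial k V k ⟶ Rep.res V.subtype C :=
  Rep.ofHom
    { toLinearMap := LinearMap.toSpanSingleton k C c
      isIntertwining' := by
        intro v
        apply LinearMap.ext
        intro n
        show n • c = C.ρ v.1 (n • c)
        rw [map_smul, hc v.1 v.2] }

lemma constHomK_apply {k : Type} [CommRing k] (V : Subgroup G) (C : Rep.{0} k G) (c : C)
    (hc : ∀ v ∈ V, C.ρ v c = c) (n : k) : (constHomK V C c hc).hom n = n • c := rfl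

/-- the map `ℤ → C|_V`, `n ↦ n • c`, for a `V`-invariant `c` -/
def constHom (V : Subgroup G) (C : Rep.{0} ℤ G) (c : C) (hc : ∀ v ∈ V, C.ρ v c = c) :
    trivZ V ⟶ Rep.res V.subtype C :=
  constHomK V C c hc

lemma constHomK_apply_one {k : Type} [CommRing k] (V : Subgroup G) (C : Rep.{0} k G) (c : C)
    (hc : ∀ v ∈ V, C.ρ v c = c) : (constHomK V C c hc).hom (1 : k) = c := by
  rw [constHomK_apply, one_smul]

lemma constHom_apply_one (V : Subgroup G) (C : Rep.{0} ℤ G) (c : C) (hc : ∀ v ∈ V, C.ρ v c = c) :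
    (constHom V C c hc).hom (1 : ℤ) = c :=
  constHomK_apply_one V C c hc

/-- **The class formation hypotheses in `V`-form**, for the open subgroups `V ≤ U₀`. -/
structure CFData (p : ℕ) [Fact p.Prime] (U₀ : Subgroup G) (C : Rep.{0} ℤ G) : Prop where
  /-- (CF1, injectivity) `H¹(V, C)` has no `p`-torsion -/
  cf1_inj : ∀ V : Subgroup G, 𝒰.IsOpen V → V ≤ U₀ →
    ∀ x : Hsm (𝒰.comap V.subtype) (Rep.res V.subtype C) 1, p • x = 0 → x = 0
  /-- (CF1, divisibility) `H¹(V, C)` is `p`-divisible -/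
  cf1_div : ∀ V : Subgroup G, 𝒰.IsOpen V → V ≤ U₀ →
    ∀ x : Hsm (𝒰.comap V.subtype) (Rep.res V.subtype C) 1,
      ∃ y : Hsm (𝒰.comap V.subtype) (Rep.res V.subtype C) 1, p • y = x
  /-- (CF2a) `H²(G, C)` is `p`-divisible -/
  cf2_div : ∀ x : Hsm 𝒰 C 2, ∃ y : Hsm 𝒰 C 2, p • y = x
  /-- (CF2b) `inv_V ∘ res = [G : V] inv_G` with `inv_V` injective, in the form: a `p`-primary class
  killed by `[G : V]` restricts to zero on `V` -/
  cf2_res : ∀ V : Subgroup G, 𝒰.IsOpen V → V ≤ U₀ → ∀ x : Hsm 𝒰 C 2,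
    (∃ m : ℕ, (p ^ m) • x = 0) → V.index • x = 0 → (resHom 𝒰 V C).mapH 2 x = 0
  /-- (CF2c) restriction is surjective on `p`-primary parts (the restriction of a fundamental class
  is a fundamental class) -/
  cf2_surj : ∀ V : Subgroup G, 𝒰.IsOpen V → V ≤ U₀ →
    ∀ y : Hsm (𝒰.comap V.subtype) (Rep.res V.subtype C) 2, (∃ m : ℕ, (p ^ m) • y = 0) →
      ∃ x : Hsm 𝒰 C 2, (∃ m : ℕ, (p ^ m) • x = 0) ∧ (resHom 𝒰 V C).mapH 2 x = y
  /-- (CF3) `H³(V, C)` has no `p`-torsion -/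
  cf3 : ∀ V : Subgroup G, 𝒰.IsOpen V → V ≤ U₀ →
    ∀ x : Hsm (𝒰.comap V.subtype) (Rep.res V.subtype C) 3, p • x = 0 → x = 0
  /-- (CF4, injectivity) reciprocity mod `p`: if `c_*(Bock χ) = 0` for all `χ ∈ H¹(V, 𝔽_p)` then
  `c ∈ p C^V` -/
  cf4_inj : ∀ V : Subgroup G, 𝒰.IsOpen V → V ≤ U₀ → ∀ (c : C) (hc : ∀ v ∈ V, C.ρ v c = c),
    (∀ χ : Hsm (𝒰.comap V.subtype) (trivFp p V) 1,
      (Csm.map (𝒰.comap V.subtype) (constHom V C c hc)).mapH 2 (bock p (𝒰.comap V.subtype) χ) = 0) →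
    ∃ c' : C, (∀ v ∈ V, C.ρ v c' = c') ∧ p • c' = c
  /-- (CF4, surjectivity) every additive map `H¹(V, 𝔽_p) → H²(V, C)` is `χ ↦ c_*(Bock χ)` -/
  cf4_surj : ∀ V : Subgroup G, 𝒰.IsOpen V → V ≤ U₀ →
    ∀ φ : Hsm (𝒰.comap V.subtype) (trivFp p V) 1 →+
        Hsm (𝒰.comap V.subtype) (Rep.res V.subtype C) 2,
      ∃ (c : C) (hc : ∀ v ∈ V, C.ρ v c = c), ∀ χ,
        (Csm.map (𝒰.comap V.subtype) (constHom V C c hc)).mapH 2 (bock p (𝒰.comap V.subtype) χ) =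
          φ χ

/-- **The statement of K4**: for every two-term complex `d : P1 ⟶ P0` of smooth finitely generated
free `ℤ`-modules with `d` injective and `p P0 ⊆ d P1`, the maps
`α¹ : Ext¹(d, C) → Hom(H²(FC d), H²(G, C))`, `α² : Ext²(d, C) → Hom(H¹(FC d), H²(G, C))` are
bijective and `Ext³(d, C) = 0`.  (Recall `Hⁿ⁺¹(FC d) ≅ Hⁿ(G, coker d)` by `Fib.toCokerH_bijective`.) -/
def K4Statement (p : ℕ) (C : Rep.{0} ℤ G) : Prop :=
  ∀ (P0 P1 : Rep.{0} ℤ G) [Module.Finite ℤ P0] [Module.Free ℤ P0] [Module.Finite ℤ P1]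
    [Module.Free ℤ P1], IsSm 𝒰 P0 → IsSm 𝒰 P1 → ∀ d : P1 ⟶ P0, Function.Injective d.hom →
    (∀ x : P0, ∃ y : P1, d.hom y = p • x) →
    Function.Bijective (alpha1 𝒰 d C) ∧ Function.Bijective (alpha2 𝒰 d C) ∧
      ∀ x : ExtH 𝒰 d C 3, x = 0

end Fermat.Agent.S55lib.CFDual
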