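/-
S55 sprint, block (I) / K4 (helper8): the four abstract dévissage lemmas (ADT I.1.8) as pure linear
algebra.  Notation: `E`-groups are contravariant, `F`-groups covariant, `A : E → Hom(F, T)` are the
duality maps; `N ↪ M₀ ↠ M₂`.
-/
import Mathlib

set_option autoImplicit false

namespace Fermat.Agent.S55lib.CFDual

universe u v

variable {k : Type u} [CommRing k]

/-- `τ : X → T` factors through `f : X → Y` as soon as it kills `ker f`. -/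
def ExtendsAlong {X Y : Type v} [AddCommGroup X] [Module k X] [AddCommGroup Y] [Module k Y]
    (f : X →ₗ[k] Y) (T : Type v) [AddCommGroup T] [Module k T] : Prop :=
  ∀ τ : X →ₗ[k] T, (∀ x, f x = 0 → τ x = 0) → ∃ τ' : Y →ₗ[k] T, ∀ x, τ' (f x) = τ x

section lemmas

variable {T : Type v} [AddCommGroup T] [Module k T]

/-- (A) surjectivity of `α²(N)` -/
theorem dev_surj2 {E2M0 E2N F0N F0M0 : Type v} [AddCommGroup E2M0] [Module k E2M0]
    [AddCommGroup E2N] [Module k E2N] [AddCommGroup F0N] [Module k F0N] [AddCommGroup F0M0]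
    [Module k F0M0]
    (r2 : E2M0 →ₗ[k] E2N) (i0 : F0N →ₗ[k] F0M0)
    (A2M0 : E2M0 →ₗ[k] F0M0 →ₗ[k] T) (A2N : E2N →ₗ[k] F0N →ₗ[k] T)
    (hnat : ∀ e y, A2N (r2 e) y = A2M0 e (i0 y))
    (hi0 : Function.Injective i0) (hExt : ExtendsAlong i0 T)
    (hsurj : Function.Surjective A2M0) : Function.Surjective A2N := by
  intro τ
  obtain ⟨τ', hτ'⟩ := hExt τ (fun x hx => by
    have : x = 0 := hi0 (by rw [hx, map_zero])
    rw [this, map_zero])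
  obtain ⟨e, he⟩ := hsurj τ'
  refine ⟨r2 e, ?_⟩
  apply LinearMap.ext
  intro y
  rw [hnat, he, hτ']

/-- (B) injectivity of `α²(N)` -/
theorem dev_inj2 {E2M2 E2M0 E2N F0N F0M0 F0M2 : Type v} [AddCommGroup E2M2] [Module k E2M2]
    [AddCommGroup E2M0] [Module k E2M0] [AddCommGroup E2N] [Module k E2N]
    [AddCommGroup F0N] [Module k F0N] [AddCommGroup F0M0] [Module k F0M0]
    [AddCommGroup F0M2] [Module k F0M2]
    (j2 : E2M2 →ₗ[k] E2M0) (r2 : E2M0 →ₗ[k] E2N) (i0 : F0N →ₗ[k] F0M0) (q0 : F0M0 →ₗ[k] F0M2)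
    (A2M2 : E2M2 →ₗ[k] F0M2 →ₗ[k] T) (A2M0 : E2M0 →ₗ[k] F0M0 →ₗ[k] T)
    (A2N : E2N →ₗ[k] F0N →ₗ[k] T)
    (hr2 : Function.Surjective r2) (hzero : ∀ e, r2 (j2 e) = 0)
    (hnat_r : ∀ e y, A2N (r2 e) y = A2M0 e (i0 y))
    (hnat_j : ∀ e y, A2M0 (j2 e) y = A2M2 e (q0 y))
    (hexF : ∀ y, q0 y = 0 → ∃ y', i0 y' = y) (hExt : ExtendsAlong q0 T)
    (hsurj2 : Function.Surjective A2M2) (hinj0 : Function.Injective A2M0) :
    Function.Injective A2N := by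
  rw [← LinearMap.ker_eq_bot, LinearMap.ker_eq_bot']
  intro e he
  obtain ⟨e0, rfl⟩ := hr2 e
  obtain ⟨τ'', hτ''⟩ := hExt (A2M0 e0) (fun y hy => by
    obtain ⟨y', rfl⟩ := hexF y hy
    rw [← hnat_r, he, LinearMap.zero_apply])
  obtain ⟨e2, he2⟩ := hsurj2 τ''
  have : e0 = j2 e2 := by
    apply hinj0
    apply LinearMap.ext
    intro y
    rw [hnat_j, he2, hτ'']
  rw [this, hzero]

/-- (C) surjectivity of `α¹(N)` -/
theorem dev_surj1 {E1M0 E1N E2M2 E2M0 F0M0 F0M2 F1N F1M0 : Type v}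
    [AddCommGroup E1M0] [Module k E1M0] [AddCommGroup E1N] [Module k E1N]
    [AddCommGroup E2M2] [Module k E2M2] [AddCommGroup E2M0] [Module k E2M0]
    [AddCommGroup F0M0] [Module k F0M0] [AddCommGroup F0M2] [Module k F0M2]
    [AddCommGroup F1N] [Module k F1N] [AddCommGroup F1M0] [Module k F1M0]
    (r1 : E1M0 →ₗ[k] E1N) (dE : E1N →ₗ[k] E2M2) (j2 : E2M2 →ₗ[k] E2M0)
    (q0 : F0M0 →ₗ[k] F0M2) (dF : F0M2 →ₗ[k] F1N) (i1 : F1N →ₗ[k] F1M0)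
    (A1M0 : E1M0 →ₗ[k] F1M0 →ₗ[k] T) (A1N : E1N →ₗ[k] F1N →ₗ[k] T)
    (A2M2 : E2M2 →ₗ[k] F0M2 →ₗ[k] T) (A2M0 : E2M0 →ₗ[k] F0M0 →ₗ[k] T)
    (hexE : ∀ e, j2 e = 0 → ∃ e', dE e' = e)
    (hexF : ∀ y, i1 y = 0 → ∃ z, dF z = y) (hzeroF : ∀ y, dF (q0 y) = 0)
    (hnat_r1 : ∀ e y, A1N (r1 e) y = A1M0 e (i1 y))
    (hnat_j2 : ∀ e y, A2M0 (j2 e) y = A2M2 e (q0 y))
    (hdelta : ∀ e y, A2M2 (dE e) y + A1N e (dF y) = 0)
    (hExt : ExtendsAlong i1 T)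
    (hsurj0 : Function.Surjective A1M0) (hsurj2 : Function.Surjective A2M2)
    (hinj0 : Function.Injective A2M0) : Function.Surjective A1N := by
  intro τ
  -- `σ = -τ ∘ δ_F`
  obtain ⟨e2, he2⟩ := hsurj2 (-(τ ∘ₗ dF))
  have h0 : j2 e2 = 0 := by
    apply hinj0
    apply LinearMap.ext
    intro y
    rw [hnat_j2, he2, LinearMap.neg_apply, LinearMap.comp_apply, hzeroF, map_zero, neg_zero,
      map_zero, LinearMap.zero_apply]
  obtain ⟨e1, rfl⟩ := hexE e2 h0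
  have h1 : ∀ y, (τ - A1N e1) (dF y) = 0 := by
    intro y
    have h2 := hdelta e1 y
    have h3 : A2M2 (dE e1) y = -(τ (dF y)) := by rw [he2]; rfl
    rw [h3] at h2
    rw [LinearMap.sub_apply, sub_eq_zero]
    have : τ (dF y) = A1N e1 (dF y) := by
      have := neg_add_eq_zero.1 h2
      exact this
    exact this
  obtain ⟨τ', hτ'⟩ := hExt (τ - A1N e1) (fun y hy => by
    obtain ⟨z, rfl⟩ := hexF y hy
    exact h1 z)
  obtain ⟨e0, he0⟩ := hsurj0 τ'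
  refine ⟨e1 + r1 e0, ?_⟩
  apply LinearMap.ext
  intro y
  rw [map_add, LinearMap.add_apply, hnat_r1, he0, hτ', LinearMap.sub_apply]
  abel

/-- (D) injectivity of `α¹(N)` -/
theorem dev_inj1 {E1M2 E1M0 E1N E2M2 F0M2 F1N F1M0 F1M2 : Type v}
    [AddCommGroup E1M2] [Module k E1M2] [AddCommGroup E1M0] [Module k E1M0]
    [AddCommGroup E1N] [Module k E1N] [AddCommGroup E2M2] [Module k E2M2]
    [AddCommGroup F0M2] [Module k F0M2] [AddCommGroup F1N] [Module k F1N]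
    [AddCommGroup F1M0] [Module k F1M0] [AddCommGroup F1M2] [Module k F1M2]
    (j1 : E1M2 →ₗ[k] E1M0) (r1 : E1M0 →ₗ[k] E1N) (dE : E1N →ₗ[k] E2M2)
    (dF : F0M2 →ₗ[k] F1N) (i1 : F1N →ₗ[k] F1M0) (q1 : F1M0 →ₗ[k] F1M2)
    (A1M2 : E1M2 →ₗ[k] F1M2 →ₗ[k] T) (A1M0 : E1M0 →ₗ[k] F1M0 →ₗ[k] T)
    (A1N : E1N →ₗ[k] F1N →ₗ[k] T) (A2M2 : E2M2 →ₗ[k] F0M2 →ₗ[k] T)
    (hexE : ∀ e, dE e = 0 → ∃ e', r1 e' = e) (hzero : ∀ e, r1 (j1 e) = 0)
    (hexF : ∀ y, q1 y = 0 → ∃ y', i1 y' = y)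
    (hnat_r1 : ∀ e y, A1N (r1 e) y = A1M0 e (i1 y))
    (hnat_j1 : ∀ e y, A1M0 (j1 e) y = A1M2 e (q1 y))
    (hdelta : ∀ e y, A2M2 (dE e) y + A1N e (dF y) = 0)
    (hExt : ExtendsAlong q1 T)
    (hsurj2 : Function.Surjective A1M2) (hinj0 : Function.Injective A1M0)
    (hinj2 : Function.Injective A2M2) : Function.Injective A1N := by
  rw [← LinearMap.ker_eq_bot, LinearMap.ker_eq_bot']
  intro e he
  have hd : dE e = 0 := by
    apply hinj2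
    apply LinearMap.ext
    intro y
    have := hdelta e y
    rw [he, LinearMap.zero_apply, add_zero] at this
    rw [this, map_zero, LinearMap.zero_apply]
  obtain ⟨e0, rfl⟩ := hexE e hd
  obtain ⟨τ'', hτ''⟩ := hExt (A1M0 e0) (fun y hy => by
    obtain ⟨y', rfl⟩ := hexF y hy
    rw [← hnat_r1, he, LinearMap.zero_apply])
  obtain ⟨e2, he2⟩ := hsurj2 τ''
  have : e0 = j1 e2 := by
    apply hinj0
    apply LinearMap.ext
    intro y
    rw [hnat_j1, he2, hτ'']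
  rw [this, hzero]

end lemmas

end Fermat.Agent.S55lib.CFDual
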