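/-
S55 sprint, block (I) / K4 (helper8): short exact sequences of two-term complexes
`0 → d' → d → d'' → 0`, the induced long exact sequences of `Ext^•(-, C)` and `F^•`, the sign rule
`⟨δ e, y⟩ + ⟨e, δ y⟩ = 0`, and the four dévissage steps for `α²`, `α¹`.
-/
import Fermat.Agent.S55lib.CFDual.Pair
import Fermat.Agent.S55lib.CFDual.Abstract

set_option autoImplicit false
set_option linter.unusedSectionVars false

noncomputable section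

namespace Fermat.Agent.S55lib.CFDual

universe u

open Csm Cpx CategoryTheory

variable {k G : Type u} [CommRing k] [Group G] (𝒰 : OpenBasis G)

/-- A short exact sequence of two-term complexes `0 → d' → d → d'' → 0`. -/
structure TTSES {P0' P1' P0 P1 P0'' P1'' : Rep.{u} k G} (d' : P1' ⟶ P0') (d : P1 ⟶ P0)
    (d'' : P1'' ⟶ P0'') where
  /-- inclusion, degree 0 -/
  a0 : P0' ⟶ P0
  /-- inclusion, degree 1 -/
  a1 : P1' ⟶ P1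
  /-- projection, degree 0 -/
  b0 : P0 ⟶ P0''
  /-- projection, degree 1 -/
  b1 : P1 ⟶ P1''
  ha : ∀ x, d.hom (a1.hom x) = a0.hom (d'.hom x)
  hb : ∀ x, d''.hom (b1.hom x) = b0.hom (d.hom x)
  ha0 : Function.Injective a0.hom
  hb0 : Function.Surjective b0.hom
  hex0 : ∀ x : P0, b0.hom x = 0 ↔ ∃ y, a0.hom y = x
  ha1 : Function.Injective a1.hom
  hb1 : Function.Surjective b1.hom
  hex1 : ∀ x : P1, b1.hom x = 0 ↔ ∃ y, a1.hom y = x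

/-- `H⁰` of `FC d` vanishes when `d` is injective. -/
lemma FC.H0_eq_zero {P0 P1 : Rep.{u} k G} (d : P1 ⟶ P0) (hd : Function.Injective d.hom)
    (h : (FC 𝒰 d).H 0) : h = 0 := by
  obtain ⟨a, ha, h0, rfl⟩ := Fib.exists_rep_zero (Csm.map 𝒰 d) h
  have : a = 0 := by
    apply Subtype.ext
    funext g
    apply hd
    have := congrFun (congrArg Subtype.val h0) g
    exact this.trans (map_zero _).symm
  subst this
  exact (FC 𝒰 d).cl_zero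

/-- `T` is an extension target for `Y`: homomorphisms into `T` extend along maps into `Y`. -/
def ExtTarget (k : Type u) [CommRing k] (T Y : Type u) [AddCommGroup T] [Module k T]
    [AddCommGroup Y] [Module k Y] : Prop :=
  ∀ (X : Type u) [AddCommGroup X] [Module k X] (f : X →ₗ[k] Y), ExtendsAlong f T

namespace TTSES

variable {P0' P1' P0 P1 P0'' P1'' : Rep.{u} k G} {d' : P1' ⟶ P0'} {d : P1 ⟶ P0}
  {d'' : P1'' ⟶ P0''} (S : TTSES d' d d'')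

section

variable [Module.Finite k P0] [Module.Finite k P1] [Module.Projective k P0'']
  [Module.Projective k P1''] (hP0 : IsSm 𝒰 P0) (hP1 : IsSm 𝒰 P1) {C : Rep.{u} k G}
  (hC : IsSm 𝒰 C)

include hP0 hP1 hC in
/-- the short exact sequence of `Ext` complexes -/
theorem extSES : IsSES (ExtC.mapL 𝒰 d'' S.b0 S.b1 S.hb C) (ExtC.mapL 𝒰 d S.a0 S.a1 S.ha C) :=
  ExtC.mapL_isSES 𝒰 d hP0 hP1 hC S.a0 S.a1 S.b0 S.b1 S.ha S.hb S.ha0 S.hb0 S.hex0 S.ha1 S.hb1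
    S.hex1

include hP0 hP1 in
/-- the short exact sequence of `F` complexes -/
theorem fSES : IsSES (FC.map 𝒰 d S.a0 S.a1 S.ha) (FC.map 𝒰 d'' S.b0 S.b1 S.hb) :=
  Fib.map_isSES (Csm.map_isSES _ _ hP1 S.ha1 S.hb1 S.hex1)
    (Csm.map_isSES _ _ hP0 S.ha0 S.hb0 S.hex0) _ _

/-- **the sign rule** `⟨δ e, y⟩ + ⟨e, δ y⟩ = 0` -/
theorem alpha_delta (e : ExtH 𝒰 d' C 1) (y : (FC 𝒰 d'').H 1) :
    alpha2 𝒰 d'' C ((S.extSES 𝒰 hP0 hP1 hC).δ 1 e) y +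
      alpha1 𝒰 d' C e ((S.fSES 𝒰 hP0 hP1).δ 1 y) = 0 :=
  AdjData.pair_delta 𝒰 (pairData d C) (pairData d' C) (pairData d'' C)
    (S.extSES 𝒰 hP0 hP1 hC) (S.fSES 𝒰 hP0 hP1)
    (p21_mapL 𝒰 d'' C S.b0 S.b1 S.hb) (p12_mapL 𝒰 d C S.a0 S.a1 S.ha) e y

include S hP0 hP1 hC

/-- step (A): `α²(d)` surjective ⇒ `α²(d')` surjective -/
theorem surj2 (hd'' : Function.Injective d''.hom) (hExt : ExtTarget k (Hsm 𝒰 C 2) ((FC 𝒰 d).H 1))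
    (h : Function.Surjective (alpha2 𝒰 d C)) : Function.Surjective (alpha2 𝒰 d' C) := by
  refine dev_surj2 ((ExtC.mapL 𝒰 d S.a0 S.a1 S.ha C).mapH 2) ((FC.map 𝒰 d S.a0 S.a1 S.ha).mapH 1)
    (alpha2 𝒰 d C) (alpha2 𝒰 d' C) (alpha2_natural 𝒰 d C S.a0 S.a1 S.ha) ?_ (hExt _ _) h
  rw [← LinearMap.ker_eq_bot, LinearMap.ker_eq_bot']
  intro y hy
  obtain ⟨z, rfl⟩ := ((S.fSES 𝒰 hP0 hP1).exact_left 0 y).1 hy
  rw [FC.H0_eq_zero 𝒰 d'' hd'' z, map_zero]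

/-- step (B): `α²(d')` is injective if `Ext³(d'') = 0`, `α²(d'')` is surjective and `α²(d)`
injective -/
theorem inj2 (hE3 : ∀ x : ExtH 𝒰 d'' C 3, x = 0)
    (hExt : ExtTarget k (Hsm 𝒰 C 2) ((FC 𝒰 d'').H 1))
    (hs2 : Function.Surjective (alpha2 𝒰 d'' C)) (hi0 : Function.Injective (alpha2 𝒰 d C)) :
    Function.Injective (alpha2 𝒰 d' C) := by
  have SE := S.extSES 𝒰 hP0 hP1 hC
  have SF := S.fSES 𝒰 hP0 hP1
  refine dev_inj2 ((ExtC.mapL 𝒰 d'' S.b0 S.b1 S.hb C).mapH 2)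
    ((ExtC.mapL 𝒰 d S.a0 S.a1 S.ha C).mapH 2) ((FC.map 𝒰 d S.a0 S.a1 S.ha).mapH 1)
    ((FC.map 𝒰 d'' S.b0 S.b1 S.hb).mapH 1) (alpha2 𝒰 d'' C) (alpha2 𝒰 d C) (alpha2 𝒰 d' C)
    ?_ (SE.mapH_comp_mapH 2) (alpha2_natural 𝒰 d C S.a0 S.a1 S.ha)
    (alpha2_natural 𝒰 d'' C S.b0 S.b1 S.hb) (fun y hy => (SF.exact_mid 1 y).1 hy) (hExt _ _)
    hs2 hi0
  intro e
  exact (SE.exact_right 2 e).1 (hE3 _)

/-- step (C): `α¹(d')` is surjective if `α¹(d)`, `α²(d'')` are surjective and `α²(d)` injective -/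
theorem surj1 (hExt : ExtTarget k (Hsm 𝒰 C 2) ((FC 𝒰 d).H 2))
    (hs0 : Function.Surjective (alpha1 𝒰 d C)) (hs2 : Function.Surjective (alpha2 𝒰 d'' C))
    (hi0 : Function.Injective (alpha2 𝒰 d C)) : Function.Surjective (alpha1 𝒰 d' C) := by
  have SE := S.extSES 𝒰 hP0 hP1 hC
  have SF := S.fSES 𝒰 hP0 hP1
  exact dev_surj1 ((ExtC.mapL 𝒰 d S.a0 S.a1 S.ha C).mapH 1) (SE.δ 1)
    ((ExtC.mapL 𝒰 d'' S.b0 S.b1 S.hb C).mapH 2) ((FC.map 𝒰 d'' S.b0 S.b1 S.hb).mapH 1) (SF.δ 1)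
    ((FC.map 𝒰 d S.a0 S.a1 S.ha).mapH 2) (alpha1 𝒰 d C) (alpha1 𝒰 d' C) (alpha2 𝒰 d'' C)
    (alpha2 𝒰 d C) (fun e he => (SE.exact_left 1 e).1 he) (fun y hy => (SF.exact_left 1 y).1 hy)
    (SF.δ_comp_mapH 1) (alpha1_natural 𝒰 d C S.a0 S.a1 S.ha)
    (alpha2_natural 𝒰 d'' C S.b0 S.b1 S.hb) (S.alpha_delta 𝒰 hP0 hP1 hC) (hExt _ _) hs0 hs2 hi0

/-- step (D): `α¹(d')` is injective if `α¹(d'')` is surjective and `α¹(d)`, `α²(d'')` are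
injective -/
theorem inj1 (hExt : ExtTarget k (Hsm 𝒰 C 2) ((FC 𝒰 d'').H 2))
    (hs2 : Function.Surjective (alpha1 𝒰 d'' C)) (hi0 : Function.Injective (alpha1 𝒰 d C))
    (hi2 : Function.Injective (alpha2 𝒰 d'' C)) : Function.Injective (alpha1 𝒰 d' C) := by
  have SE := S.extSES 𝒰 hP0 hP1 hC
  have SF := S.fSES 𝒰 hP0 hP1
  exact dev_inj1 ((ExtC.mapL 𝒰 d'' S.b0 S.b1 S.hb C).mapH 1)
    ((ExtC.mapL 𝒰 d S.a0 S.a1 S.ha C).mapH 1) (SE.δ 1) (SF.δ 1)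
    ((FC.map 𝒰 d S.a0 S.a1 S.ha).mapH 2) ((FC.map 𝒰 d'' S.b0 S.b1 S.hb).mapH 2)
    (alpha1 𝒰 d'' C) (alpha1 𝒰 d C) (alpha1 𝒰 d' C) (alpha2 𝒰 d'' C)
    (fun e he => (SE.exact_right 1 e).1 he) (SE.mapH_comp_mapH 1)
    (fun y hy => (SF.exact_mid 2 y).1 hy) (alpha1_natural 𝒰 d C S.a0 S.a1 S.ha)
    (alpha1_natural 𝒰 d'' C S.b0 S.b1 S.hb) (S.alpha_delta 𝒰 hP0 hP1 hC) (hExt _ _) hs2 hi0 hi2

/-- half-exactness of `Ext³`: `Ext³(d'') = 0` and `Ext³(d') = 0` imply `Ext³(d) = 0` -/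
theorem ext3_eq_zero (h'' : ∀ x : ExtH 𝒰 d'' C 3, x = 0) (h' : ∀ x : ExtH 𝒰 d' C 3, x = 0)
    (x : ExtH 𝒰 d C 3) : x = 0 := by
  have SE := S.extSES 𝒰 hP0 hP1 hC
  obtain ⟨w, rfl⟩ := (SE.exact_mid 3 x).1 (h' _)
  rw [h'' w, map_zero]

end

end TTSES

end Fermat.Agent.S55lib.CFDual
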