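/-
S55 sprint, block (I) / K4 (helper8): functoriality toolkit for two-term complexes: morphisms of
pairs `PairHom`, the induced maps `E` on `Ext` and `F` on the `F`-groups, their functorial
identities (stated with pointwise hypotheses), and compatibility with `α¹`, `α²`.
-/
import Fermat.Agent.S55lib.CFDual.PairSES

set_option autoImplicit false
set_option linter.unusedSectionVars false

noncomputable section

namespace Fermat.Agent.S55lib.CFDual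

universe u

open Csm Cpx CategoryTheory

variable {k G : Type u} [CommRing k] [Group G] (𝒰 : OpenBasis G)

/-- pointwise equal chain maps induce the same map on cohomology -/
lemma mapH_congr {K L : Cpx k} {Φ Ψ : Cpx.Hom K L} (h : ∀ n x, Φ.f n x = Ψ.f n x) (n : ℕ)
    (w : K.H n) : Φ.mapH n w = Ψ.mapH n w := by
  obtain ⟨x, hx, rfl⟩ := K.exists_rep w
  rw [Cpx.Hom.mapH_cl, Cpx.Hom.mapH_cl]
  exact Cpx.cl_congr _ (h n x) _

/-- a degreewise bijective chain map induces zero cohomology of the fibre -/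
theorem Fib.H_eq_zero_of_bijective {K L : Cpx k} (φ : Cpx.Hom K L)
    (hφ : ∀ n, Function.Bijective (φ.mapH n)) (n : ℕ) (h : (Fib φ).H n) : h = 0 := by
  cases n with
  | zero =>
    apply Fib.π_zero_injective φ
    rw [map_zero]
    apply (hφ 0).1
    rw [map_zero]
    exact (Fib.exact_φ φ 0 _).2 ⟨h, rfl⟩
  | succ n =>
    have h1 : Fib.π φ (n + 1) h = 0 := by
      apply (hφ (n + 1)).1
      rw [map_zero]
      exact (Fib.exact_φ φ (n + 1) _).2 ⟨h, rfl⟩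
    obtain ⟨h', rfl⟩ := (Fib.exact_π φ n h).1 h1
    obtain ⟨h'', rfl⟩ := (hφ n).2 h'
    exact (Fib.exact_ι φ n _).2 ⟨h'', rfl⟩

section fib

variable {K L K' L' K'' L'' : Cpx k} {φ : Cpx.Hom K L} {φ' : Cpx.Hom K' L'}
  {φ'' : Cpx.Hom K'' L''}

lemma fibMap_mapH_add (α α₁ α₂ : Cpx.Hom K K') (β β₁ β₂ : Cpx.Hom L L')
    (h : ∀ n x, φ'.f n (α.f n x) = β.f n (φ.f n x))
    (h₁ : ∀ n x, φ'.f n (α₁.f n x) = β₁.f n (φ.f n x))
    (h₂ : ∀ n x, φ'.f n (α₂.f n x) = β₂.f n (φ.f n x))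
    (hα : ∀ n x, α.f n x = α₁.f n x + α₂.f n x) (hβ : ∀ n x, β.f n x = β₁.f n x + β₂.f n x)
    (n : ℕ) (w : (Fib φ).H n) :
    (Fib.map α β h).mapH n w = (Fib.map α₁ β₁ h₁).mapH n w + (Fib.map α₂ β₂ h₂).mapH n w := by
  obtain ⟨x, hx, rfl⟩ := (Fib φ).exists_rep w
  simp only [Cpx.Hom.mapH_cl]
  rw [← Cpx.cl_add]
  refine Cpx.cl_congr _ ?_ _
  cases n with
  | zero =>
    exact Prod.ext (hα 0 x.1) (Subsingleton.elim _ _)
  | succ n =>
    obtain ⟨a, b⟩ := x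
    exact Prod.ext (hα (n + 1) a) (hβ n b)

lemma fibMap_mapH_comp (α : Cpx.Hom K K') (β : Cpx.Hom L L')
    (h : ∀ n x, φ'.f n (α.f n x) = β.f n (φ.f n x)) (α' : Cpx.Hom K' K'') (β' : Cpx.Hom L' L'')
    (h' : ∀ n x, φ''.f n (α'.f n x) = β'.f n (φ'.f n x)) (α'' : Cpx.Hom K K'')
    (β'' : Cpx.Hom L L'') (h'' : ∀ n x, φ''.f n (α''.f n x) = β''.f n (φ.f n x))
    (hα : ∀ n x, α''.f n x = α'.f n (α.f n x)) (hβ : ∀ n x, β''.f n x = β'.f n (β.f n x))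
    (n : ℕ) (w : (Fib φ).H n) :
    (Fib.map α'' β'' h'').mapH n w = (Fib.map α' β' h').mapH n ((Fib.map α β h).mapH n w) := by
  obtain ⟨x, hx, rfl⟩ := (Fib φ).exists_rep w
  simp only [Cpx.Hom.mapH_cl]
  refine Cpx.cl_congr _ ?_ _
  cases n with
  | zero =>
    exact Prod.ext (hα 0 x.1) (Subsingleton.elim _ _)
  | succ n =>
    obtain ⟨a, b⟩ := x
    exact Prod.ext (hα (n + 1) a) (hβ n b)

lemma fibMap_mapH_id (α : Cpx.Hom K K) (β : Cpx.Hom L L)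
    (h : ∀ n x, φ.f n (α.f n x) = β.f n (φ.f n x))
    (hα : ∀ n x, α.f n x = x) (hβ : ∀ n x, β.f n x = x) (n : ℕ) (w : (Fib φ).H n) :
    (Fib.map α β h).mapH n w = w := by
  obtain ⟨x, hx, rfl⟩ := (Fib φ).exists_rep w
  simp only [Cpx.Hom.mapH_cl]
  refine Cpx.cl_congr _ ?_ _
  cases n with
  | zero =>
    exact Prod.ext (hα 0 x.1) (Subsingleton.elim _ _)
  | succ n =>
    obtain ⟨a, b⟩ := x
    exact Prod.ext (hα (n + 1) a) (hβ n b)

lemma fibMap_mapH_nsmul (α : Cpx.Hom K K) (β : Cpx.Hom L L)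
    (h : ∀ n x, φ.f n (α.f n x) = β.f n (φ.f n x)) (m : ℕ)
    (hα : ∀ n x, α.f n x = m • x) (hβ : ∀ n x, β.f n x = m • x) (n : ℕ) (w : (Fib φ).H n) :
    (Fib.map α β h).mapH n w = m • w := by
  obtain ⟨x, hx, rfl⟩ := (Fib φ).exists_rep w
  simp only [Cpx.Hom.mapH_cl]
  have e : (Fib.map α β h).f n x = m • x := by
    cases n with
    | zero =>
      exact Prod.ext (hα 0 x.1) (Subsingleton.elim _ _)
    | succ n =>
      obtain ⟨a, b⟩ := x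
      exact Prod.ext (hα (n + 1) a) (hβ n b)
  have hx' : (Fib φ).d n (m • x) = 0 := by rw [map_nsmul, hx, smul_zero]
  rw [Cpx.cl_congr _ e]
  show (Fib φ).cls n ⟨m • x, _⟩ = m • (Fib φ).cls n ⟨x, _⟩
  rw [← map_nsmul]
  rfl

lemma fibMap_mapH_zero (α : Cpx.Hom K K') (β : Cpx.Hom L L')
    (h : ∀ n x, φ'.f n (α.f n x) = β.f n (φ.f n x))
    (hα : ∀ n x, α.f n x = 0) (hβ : ∀ n x, β.f n x = 0) (n : ℕ) (w : (Fib φ).H n) :
    (Fib.map α β h).mapH n w = 0 := by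
  obtain ⟨x, hx, rfl⟩ := (Fib φ).exists_rep w
  simp only [Cpx.Hom.mapH_cl]
  have e : (Fib.map α β h).f n x = 0 := by
    cases n with
    | zero =>
      exact Prod.ext (hα 0 x.1) (Subsingleton.elim _ _)
    | succ n =>
      obtain ⟨a, b⟩ := x
      exact Prod.ext (hα (n + 1) a) (hβ n b)
  rw [Cpx.cl_congr _ e]
  exact (Fib φ').cl_zero

end fib

/-! ### Morphisms of two-term complexes -/

/-- a morphism of two-term complexes `d' → d` -/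
structure PairHom {P0' P1' P0 P1 : Rep.{u} k G} (d' : P1' ⟶ P0') (d : P1 ⟶ P0) where
  /-- degree 0 -/
  a0 : P0' ⟶ P0
  /-- degree 1 -/
  a1 : P1' ⟶ P1
  comm : ∀ x, d.hom (a1.hom x) = a0.hom (d'.hom x)

namespace PairHom

variable {P0' P1' P0 P1 P0'' P1'' : Rep.{u} k G} {d' : P1' ⟶ P0'} {d : P1 ⟶ P0}
  {d'' : P1'' ⟶ P0''}

/-- the induced map on `Ext` groups (contravariant) -/
def E (f : PairHom d' d) (C : Rep.{u} k G) (n : ℕ) : ExtH 𝒰 d C n →ₗ[k] ExtH 𝒰 d' C n :=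
  (ExtC.mapL 𝒰 d f.a0 f.a1 f.comm C).mapH n

/-- the induced map on `F` groups (covariant) -/
def F (f : PairHom d' d) (n : ℕ) : (FC 𝒰 d').H n →ₗ[k] (FC 𝒰 d).H n :=
  (FC.map 𝒰 d f.a0 f.a1 f.comm).mapH n

variable (C : Rep.{u} k G)

/-- compatibility with `α²` -/
theorem alpha2_E (f : PairHom d' d) (e : ExtH 𝒰 d C 2) (y : (FC 𝒰 d').H 1) :
    alpha2 𝒰 d' C (f.E 𝒰 C 2 e) y = alpha2 𝒰 d C e (f.F 𝒰 1 y) :=
  alpha2_natural 𝒰 d C f.a0 f.a1 f.comm e y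

/-- compatibility with `α¹` -/
theorem alpha1_E (f : PairHom d' d) (e : ExtH 𝒰 d C 1) (y : (FC 𝒰 d').H 2) :
    alpha1 𝒰 d' C (f.E 𝒰 C 1 e) y = alpha1 𝒰 d C e (f.F 𝒰 2 y) :=
  alpha1_natural 𝒰 d C f.a0 f.a1 f.comm e y

/-! #### functorial identities for `E` -/

theorem E_add (f f₁ f₂ : PairHom d' d) (h0 : ∀ x, f.a0.hom x = f₁.a0.hom x + f₂.a0.hom x)
    (h1 : ∀ x, f.a1.hom x = f₁.a1.hom x + f₂.a1.hom x) (n : ℕ) (e : ExtH 𝒰 d C n) :
    f.E 𝒰 C n e = f₁.E 𝒰 C n e + f₂.E 𝒰 C n e := by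
  refine fibMap_mapH_add _ _ _ _ _ _ _ _ _ ?_ ?_ n e
  · intro m x
    apply Subtype.ext
    funext g
    apply LinearMap.ext
    intro y
    show (x.1 g : P0 →ₗ[k] C) (f.a0.hom y) =
      (x.1 g : P0 →ₗ[k] C) (f₁.a0.hom y) + (x.1 g : P0 →ₗ[k] C) (f₂.a0.hom y)
    rw [h0, map_add]
  · intro m x
    apply Subtype.ext
    funext g
    apply LinearMap.ext
    intro y
    show (x.1 g : P1 →ₗ[k] C) (f.a1.hom y) =
      (x.1 g : P1 →ₗ[k] C) (f₁.a1.hom y) + (x.1 g : P1 →ₗ[k] C) (f₂.a1.hom y)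
    rw [h1, map_add]

theorem E_comp (f : PairHom d' d) (g : PairHom d'' d') (fg : PairHom d'' d)
    (h0 : ∀ x, fg.a0.hom x = f.a0.hom (g.a0.hom x))
    (h1 : ∀ x, fg.a1.hom x = f.a1.hom (g.a1.hom x)) (n : ℕ) (e : ExtH 𝒰 d C n) :
    fg.E 𝒰 C n e = g.E 𝒰 C n (f.E 𝒰 C n e) := by
  refine fibMap_mapH_comp _ _ _ _ _ _ _ _ _ ?_ ?_ n e
  · intro m x
    apply Subtype.ext
    funext γ
    apply LinearMap.ext
    intro y
    show (x.1 γ : P0 →ₗ[k] C) (fg.a0.hom y) = (x.1 γ : P0 →ₗ[k] C) (f.a0.hom (g.a0.hom y))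
    rw [h0]
  · intro m x
    apply Subtype.ext
    funext γ
    apply LinearMap.ext
    intro y
    show (x.1 γ : P1 →ₗ[k] C) (fg.a1.hom y) = (x.1 γ : P1 →ₗ[k] C) (f.a1.hom (g.a1.hom y))
    rw [h1]

theorem E_id (f : PairHom d d) (h0 : ∀ x, f.a0.hom x = x) (h1 : ∀ x, f.a1.hom x = x) (n : ℕ)
    (e : ExtH 𝒰 d C n) : f.E 𝒰 C n e = e := by
  refine fibMap_mapH_id _ _ _ ?_ ?_ n e
  · intro m x
    apply Subtype.ext
    funext γ
    apply LinearMap.ext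
    intro y
    show (x.1 γ : P0 →ₗ[k] C) (f.a0.hom y) = (x.1 γ : P0 →ₗ[k] C) y
    rw [h0]
  · intro m x
    apply Subtype.ext
    funext γ
    apply LinearMap.ext
    intro y
    show (x.1 γ : P1 →ₗ[k] C) (f.a1.hom y) = (x.1 γ : P1 →ₗ[k] C) y
    rw [h1]

theorem E_nsmul (f : PairHom d d) (m : ℕ) (h0 : ∀ x, f.a0.hom x = m • x)
    (h1 : ∀ x, f.a1.hom x = m • x) (n : ℕ) (e : ExtH 𝒰 d C n) : f.E 𝒰 C n e = m • e := by
  refine fibMap_mapH_nsmul _ _ _ m ?_ ?_ n e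
  · intro j x
    apply Subtype.ext
    funext γ
    apply LinearMap.ext
    intro y
    show (x.1 γ : P0 →ₗ[k] C) (f.a0.hom y) = ((m • x).1 γ : P0 →ₗ[k] C) y
    rw [h0, map_nsmul]
    rfl
  · intro j x
    apply Subtype.ext
    funext γ
    apply LinearMap.ext
    intro y
    show (x.1 γ : P1 →ₗ[k] C) (f.a1.hom y) = ((m • x).1 γ : P1 →ₗ[k] C) y
    rw [h1, map_nsmul]
    rfl

theorem E_zero (f : PairHom d' d) (h0 : ∀ x, f.a0.hom x = 0) (h1 : ∀ x, f.a1.hom x = 0) (n : ℕ)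
    (e : ExtH 𝒰 d C n) : f.E 𝒰 C n e = 0 := by
  refine fibMap_mapH_zero _ _ _ ?_ ?_ n e
  · intro m x
    apply Subtype.ext
    funext γ
    apply LinearMap.ext
    intro y
    show (x.1 γ : P0 →ₗ[k] C) (f.a0.hom y) = 0
    rw [h0, map_zero]
  · intro m x
    apply Subtype.ext
    funext γ
    apply LinearMap.ext
    intro y
    show (x.1 γ : P1 →ₗ[k] C) (f.a1.hom y) = 0
    rw [h1, map_zero]

/-! #### functorial identities for `F` -/

theorem F_add (f f₁ f₂ : PairHom d' d) (h0 : ∀ x, f.a0.hom x = f₁.a0.hom x + f₂.a0.hom x)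
    (h1 : ∀ x, f.a1.hom x = f₁.a1.hom x + f₂.a1.hom x) (n : ℕ) (y : (FC 𝒰 d').H n) :
    f.F 𝒰 n y = f₁.F 𝒰 n y + f₂.F 𝒰 n y := by
  refine fibMap_mapH_add _ _ _ _ _ _ _ _ _ ?_ ?_ n y
  · intro m x
    apply Subtype.ext
    funext g
    exact h1 _
  · intro m x
    apply Subtype.ext
    funext g
    exact h0 _

theorem F_comp (f : PairHom d' d) (g : PairHom d'' d') (fg : PairHom d'' d)
    (h0 : ∀ x, fg.a0.hom x = f.a0.hom (g.a0.hom x))
    (h1 : ∀ x, fg.a1.hom x = f.a1.hom (g.a1.hom x)) (n : ℕ) (y : (FC 𝒰 d'').H n) :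
    fg.F 𝒰 n y = f.F 𝒰 n (g.F 𝒰 n y) := by
  refine fibMap_mapH_comp _ _ _ _ _ _ _ _ _ ?_ ?_ n y
  · intro m x
    apply Subtype.ext
    funext γ
    exact h1 _
  · intro m x
    apply Subtype.ext
    funext γ
    exact h0 _

theorem F_id (f : PairHom d d) (h0 : ∀ x, f.a0.hom x = x) (h1 : ∀ x, f.a1.hom x = x) (n : ℕ)
    (y : (FC 𝒰 d).H n) : f.F 𝒰 n y = y := by
  refine fibMap_mapH_id _ _ _ ?_ ?_ n y
  · intro m x
    apply Subtype.ext
    funext γ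
    exact h1 _
  · intro m x
    apply Subtype.ext
    funext γ
    exact h0 _

theorem F_nsmul (f : PairHom d d) (m : ℕ) (h0 : ∀ x, f.a0.hom x = m • x)
    (h1 : ∀ x, f.a1.hom x = m • x) (n : ℕ) (y : (FC 𝒰 d).H n) : f.F 𝒰 n y = m • y := by
  refine fibMap_mapH_nsmul _ _ _ m ?_ ?_ n y
  · intro j x
    apply Subtype.ext
    funext γ
    exact h1 _
  · intro j x
    apply Subtype.ext
    funext γ
    exact h0 _

theorem F_zero (f : PairHom d' d) (h0 : ∀ x, f.a0.hom x = 0) (h1 : ∀ x, f.a1.hom x = 0) (n : ℕ)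
    (y : (FC 𝒰 d').H n) : f.F 𝒰 n y = 0 := by
  refine fibMap_mapH_zero _ _ _ ?_ ?_ n y
  · intro m x
    apply Subtype.ext
    funext γ
    exact h1 _
  · intro m x
    apply Subtype.ext
    funext γ
    exact h0 _

end PairHom

end Fermat.Agent.S55lib.CFDual
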