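/-
S55 sprint, block (I) / K4 (helper8): `H²` of smooth cochains is a torsion group (every class is
killed by the index of a level), and consequences for `p`-divisibility.
-/
import Fermat.Agent.S55lib.Cpx.LowDegree

set_option autoImplicit false
set_option linter.unusedSectionVars false
set_option linter.style.haveILetI false

noncomputable section

namespace Fermat.Agent.S55lib.CFDual

universe u

open Csm Cpx

variable {k G : Type u} [CommRing k] [Group G] (𝒰 : OpenBasis G) (A : Rep.{u} k G)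

/-- every class in `H²` of the smooth cochains is torsion -/
theorem Hsm_two_torsion (x : Hsm 𝒰 A 2) : ∃ n : ℕ, 0 < n ∧ n • x = 0 := by
  classical
  obtain ⟨f, hf, rfl⟩ := (Csm 𝒰 A).exists_rep x
  obtain ⟨U, hU, h1, h2⟩ := isSm₂_fn₂ f
  haveI : U.FiniteIndex := 𝒰.finiteIndex U hU
  haveI : Fintype (G ⧸ U) := Fintype.ofFinite _
  have hcoc := (d_two_eq_zero_iff f).1 hf
  -- the function `y U ↦ f (g, y)`
  let φ : G → G ⧸ U → A := fun g => Quotient.lift (fun y : G => fn₂ f (g, y)) (by
    intro y y' h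
    have hmem : y⁻¹ * y' ∈ U := QuotientGroup.leftRel_apply.1 h
    have e : y' = y * (y⁻¹ * y') := by group
    show fn₂ f (g, y) = fn₂ f (g, y')
    conv_rhs => rw [e]
    have := h1 g y 1 U.one_mem _ hmem
    rw [mul_one] at this
    exact this.symm)
  have hφ : ∀ g y : G, φ g (y : G ⧸ U) = fn₂ f (g, y) := fun _ _ => rfl
  let b : G → A := fun g => ∑ x : G ⧸ U, φ g x
  have hb : IsSm₁ 𝒰 A b := by
    refine ⟨U, hU, fun g s hs => ?_, fun g s hs => ?_⟩
    · refine Finset.sum_congr rfl fun x _ => ?_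
      induction x using QuotientGroup.induction_on with
      | H y =>
        rw [hφ, hφ]
        have := h1 g y s hs 1 U.one_mem
        rwa [mul_one] at this
    · show A.ρ s (∑ x : G ⧸ U, φ g x) = ∑ x : G ⧸ U, φ g x
      rw [map_sum]
      refine Finset.sum_congr rfl fun x _ => ?_
      induction x using QuotientGroup.induction_on with
      | H y =>
        rw [hφ]
        exact h2 g y s hs
  refine ⟨U.index, Nat.pos_of_ne_zero Subgroup.FiniteIndex.index_ne_zero, ?_⟩
  have hsum : ∀ g h, U.index • fn₂ f (g, h) = A.ρ g (b h) - b (g * h) + b g := by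
    intro g h
    have e1 : A.ρ g (b h) = ∑ x : G ⧸ U, A.ρ g (φ h x) := map_sum _ _ _
    have e2 : b g = ∑ x : G ⧸ U, φ g (h • x) :=
      (Fintype.sum_equiv (MulAction.toPerm h) _ _ (fun x => rfl)).symm
    have e3 : U.index • fn₂ f (g, h) = ∑ _x : G ⧸ U, fn₂ f (g, h) := by
      rw [Finset.sum_const, Finset.card_univ, Subgroup.index_eq_card, Nat.card_eq_fintype_card]
    rw [e1, e2, e3]
    show _ = ∑ x : G ⧸ U, A.ρ g (φ h x) - ∑ x : G ⧸ U, φ (g * h) x + _
    rw [← Finset.sum_sub_distrib, ← Finset.sum_add_distrib]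
    refine Finset.sum_congr rfl fun x _ => ?_
    induction x using QuotientGroup.induction_on with
    | H y =>
      show fn₂ f (g, h) = A.ρ g (fn₂ f (h, y)) - fn₂ f (g * h, y) + fn₂ f (g, h * y)
      have := hcoc g h y
      rw [sub_add_eq_add_sub, this]
      abel
  have hcl : U.index • (Csm 𝒰 A).cl f hf = (Csm 𝒰 A).cl ((U.index : k) • f)
      (by rw [map_smul, hf, smul_zero]) := by
    rw [cl_smul, Nat.cast_smul_eq_nsmul]
  rw [hcl, cl_eq_zero_iff, mem_B_succ]
  refine ⟨mk₁ b hb, ?_⟩
  apply ext₂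
  funext ⟨g, h⟩
  rw [fn₂_d, fn₁_mk₁, fn₂_smul, Pi.smul_apply, Nat.cast_smul_eq_nsmul, hsum]

end Fermat.Agent.S55lib.CFDual
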