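/-
S55 sprint, block (I) / K4 (helper8): small general tools for the base case of K4:
maps on smooth cohomology determined pointwise, the fibre of multiplication by `p`, additive maps
from functional relations, divisibility lemmas, `H¹(H, ℤ) = 0`.
-/
import Fermat.Agent.S55lib.CFDual.Hyp
import Fermat.Agent.S55lib.CFDual.TorsionH
import Fermat.Agent.S55lib.CFDual.PairKit

set_option autoImplicit false
set_option linter.unusedSectionVars false
set_option linter.style.haveILetI false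

noncomputable section

namespace Fermat.Agent.S55lib.CFDual

universe u

open Csm Cpx CategoryTheory

section general

variable {k G : Type u} [CommRing k] [Group G] (𝒰 : OpenBasis G)

/-- composition of maps on smooth cohomology, from a pointwise identity -/
lemma Csm_mapH_comp_pointwise {A B D : Rep.{u} k G} (f : A ⟶ B) (g : B ⟶ D) (h : A ⟶ D)
    (hh : ∀ a, g.hom (f.hom a) = h.hom a) (n : ℕ) (y : Hsm 𝒰 A n) :
    (Csm.map 𝒰 g).mapH n ((Csm.map 𝒰 f).mapH n y) = (Csm.map 𝒰 h).mapH n y := by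
  obtain ⟨x, hx, rfl⟩ := (Csm 𝒰 A).exists_rep y
  rw [Hom.mapH_cl, Hom.mapH_cl, Hom.mapH_cl]
  refine cl_congr _ ?_ _
  apply Subtype.ext
  funext γ
  exact hh _

/-- `n • cl x = cl (n • x)` -/
lemma nsmul_cl {K : Cpx k} {n : ℕ} (m : ℕ) (x : K.X n) (hx : K.d n x = 0) :
    m • K.cl x hx = K.cl (m • x) (by rw [map_nsmul, hx, smul_zero]) := by
  have h1 : m • K.cl x hx = (m : k) • K.cl x hx := (Nat.cast_smul_eq_nsmul k m _).symm
  rw [h1, ← cl_smul]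
  exact cl_congr _ (Nat.cast_smul_eq_nsmul k m x) _

/-- a chain map which is multiplication by `m` in every degree acts as `m` on cohomology -/
lemma mapH_eq_nsmul {K : Cpx k} (φ : Cpx.Hom K K) (m : ℕ) (h : ∀ n x, φ.f n x = m • x) (n : ℕ)
    (w : K.H n) : φ.mapH n w = m • w := by
  obtain ⟨x, hx, rfl⟩ := K.exists_rep w
  rw [Hom.mapH_cl, nsmul_cl]
  exact cl_congr _ (h n x) _

/-- a morphism which is multiplication by `m` acts as `m` on smooth cohomology -/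
lemma Csm_mapH_eq_nsmul {A : Rep.{u} k G} (f : A ⟶ A) (m : ℕ) (h : ∀ a, f.hom a = m • a) (n : ℕ)
    (w : Hsm 𝒰 A n) : (Csm.map 𝒰 f).mapH n w = m • w := by
  refine mapH_eq_nsmul _ m (fun n x => ?_) n w
  apply Subtype.ext
  funext γ
  exact h _

/-- precomposition with multiplication by `m` is multiplication by `m` -/
lemma mapL_eq_nsmul {P C : Rep.{u} k G} (d : P ⟶ P) (m : ℕ) (hd : ∀ x, d.hom x = m • x)
    (φ : homRep P C) : (homRep.mapL d C).hom φ = m • φ := by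
  apply LinearMap.ext
  intro f
  show (φ : P →ₗ[k] C) (d.hom f) = m • (φ : P →ₗ[k] C) f
  rw [hd, map_nsmul]

/-- the fibre of multiplication by `p`: vanishing -/
lemma fibP_H_succ_eq_zero {K : Cpx k} (φ : Cpx.Hom K K) (p : ℕ)
    (hφ : ∀ n (w : K.H n), φ.mapH n w = p • w) (n : ℕ)
    (hdiv : ∀ w : K.H n, ∃ y : K.H n, p • y = w)
    (htor : ∀ w : K.H (n + 1), p • w = 0 → w = 0) (e : (Fib φ).H (n + 1)) : e = 0 := by
  have h1 : Fib.π φ (n + 1) e = 0 := by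
    apply htor
    rw [← hφ]
    exact (Fib.exact_φ φ (n + 1) _).2 ⟨e, rfl⟩
  obtain ⟨w, rfl⟩ := (Fib.exact_π φ n e).1 h1
  obtain ⟨y, rfl⟩ := hdiv w
  exact (Fib.exact_ι φ n _).2 ⟨y, hφ n y⟩

/-- the fibre of multiplication by `p`: `π` lands in the `p`-torsion -/
lemma fibP_smul_π {K : Cpx k} (φ : Cpx.Hom K K) (p : ℕ)
    (hφ : ∀ n (w : K.H n), φ.mapH n w = p • w) (n : ℕ) (e : (Fib φ).H n) :
    p • Fib.π φ n e = 0 := by
  rw [← hφ]
  exact (Fib.exact_φ φ n _).2 ⟨e, rfl⟩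

/-- the fibre of multiplication by `p`: every `p`-torsion class lifts -/
lemma fibP_exists_π {K : Cpx k} (φ : Cpx.Hom K K) (p : ℕ)
    (hφ : ∀ n (w : K.H n), φ.mapH n w = p • w) (n : ℕ) (w : K.H n) (hw : p • w = 0) :
    ∃ e : (Fib φ).H n, Fib.π φ n e = w :=
  (Fib.exact_φ φ n w).1 (by rw [hφ, hw])

/-- the fibre of multiplication by `p`: `ι` kills multiples of `p` -/
lemma fibP_ι_smul {K : Cpx k} (φ : Cpx.Hom K K) (p : ℕ)
    (hφ : ∀ n (w : K.H n), φ.mapH n w = p • w) (n : ℕ) (w : K.H n) :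
    Fib.ι φ n (p • w) = 0 :=
  (Fib.exact_ι φ n _).2 ⟨w, hφ n w⟩

/-- the `0`-cochain of an invariant element -/
def mkInv {A : Rep.{u} k G} (a : A) (ha : ∀ g, A.ρ g a = a) : (Csm 𝒰 A).X 0 :=
  mk₀ a (by
    obtain ⟨U, hU⟩ := 𝒰.nonempty
    exact ⟨U, hU, fun s _ => ha s⟩)

@[simp] lemma fn₀_mkInv {A : Rep.{u} k G} (a : A) (ha : ∀ g, A.ρ g a = a) :
    fn₀ (mkInv 𝒰 a ha) = a := rfl

lemma d_mkInv {A : Rep.{u} k G} (a : A) (ha : ∀ g, A.ρ g a = a) :
    (Csm 𝒰 A).d 0 (mkInv 𝒰 a ha) = 0 :=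
  (d_zero_eq_zero_iff (mkInv 𝒰 a ha)).2 ha

/-- the class of an invariant element in `H⁰` -/
def cl₀ {A : Rep.{u} k G} (a : A) (ha : ∀ g, A.ρ g a = a) : Hsm 𝒰 A 0 :=
  (Csm 𝒰 A).cl (mkInv 𝒰 a ha) (d_mkInv 𝒰 a ha)

lemma exists_cl₀ {A : Rep.{u} k G} (x : Hsm 𝒰 A 0) :
    ∃ (a : A) (ha : ∀ g, A.ρ g a = a), cl₀ 𝒰 a ha = x := by
  obtain ⟨x0, hx0, rfl⟩ := (Csm 𝒰 A).exists_rep x
  refine ⟨fn₀ x0, (d_zero_eq_zero_iff x0).1 hx0, ?_⟩
  unfold cl₀
  exact cl_congr _ (ext₀ (x := mkInv 𝒰 (fn₀ x0) _) (y := x0) rfl) _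

lemma cl₀_eq_iff {A : Rep.{u} k G} {a a' : A} (ha : ∀ g, A.ρ g a = a) (ha' : ∀ g, A.ρ g a' = a') :
    cl₀ 𝒰 a ha = cl₀ 𝒰 a' ha' ↔ a = a' := by
  constructor
  · intro h
    unfold cl₀ at h
    rw [cl_eq_cl_iff] at h
    have h0 : mkInv 𝒰 a ha - mkInv 𝒰 a' ha' = 0 := h
    have := congrArg fn₀ h0
    rw [fn₀_sub, fn₀_mkInv, fn₀_mkInv, fn₀_zero] at this
    exact sub_eq_zero.1 this
  · rintro rfl
    rfl

lemma nsmul_cl₀ {A : Rep.{u} k G} (m : ℕ) (a : A) (ha : ∀ g, A.ρ g a = a) :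
    m • cl₀ 𝒰 a ha = cl₀ 𝒰 (m • a) (fun g => by rw [map_nsmul, ha]) := by
  unfold cl₀
  rw [nsmul_cl]
  exact cl_congr _ (ext₀ (x := m • mkInv 𝒰 a ha) (y := mkInv 𝒰 (m • a) _) rfl) _

end general

/-! ### additive maps from functional relations -/

/-- a total, single valued, additive relation is the graph of an additive map -/
lemma exists_addMonoidHom_of_rel {X Y : Type*} [AddCommGroup X] [AddCommGroup Y]
    (R : X → Y → Prop) (htot : ∀ x, ∃ y, R x y) (huniq : ∀ x y y', R x y → R x y' → y = y')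
    (hadd : ∀ x x' y y', R x y → R x' y' → R (x + x') (y + y')) :
    ∃ φ : X →+ Y, ∀ x, R x (φ x) := by
  choose f hf using htot
  refine ⟨AddMonoidHom.mk' f (fun x x' => ?_), hf⟩
  exact huniq _ _ _ (hf (x + x')) (hadd x x' _ _ (hf x) (hf x'))

/-! ### divisibility -/

section div

variable {A : Type*} [AddCommGroup A] (p : ℕ) [Fact p.Prime]

/-- iterated divisibility -/
lemma exists_pow_nsmul_eq (hdiv : ∀ x : A, ∃ y : A, p • y = x) (a : ℕ) (z : A) :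
    ∃ x : A, p ^ a • x = z := by
  induction a generalizing z with
  | zero => exact ⟨z, by rw [pow_zero, one_smul]⟩
  | succ a ih =>
    obtain ⟨y, hy⟩ := hdiv z
    obtain ⟨x, hx⟩ := ih y
    exact ⟨x, by rw [pow_succ, mul_comm, mul_smul, hx, hy]⟩

/-- in a `p`-divisible group every `p`-primary element is divisible by any `n ≠ 0`, with a
`p`-primary quotient -/
lemma exists_nsmul_eq_of_pdiv (hdiv : ∀ x : A, ∃ y : A, p • y = x) (n : ℕ) (hn : n ≠ 0) (z : A)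
    (hz : ∃ m : ℕ, p ^ m • z = 0) : ∃ x : A, (∃ m : ℕ, p ^ m • x = 0) ∧ n • x = z := by
  have hp : p.Prime := Fact.out
  obtain ⟨a, m, hm, rfl⟩ := Nat.exists_eq_pow_mul_and_not_dvd hn p hp.ne_one
  obtain ⟨m₀, hm₀⟩ := hz
  obtain ⟨x₁, hx₁⟩ := exists_pow_nsmul_eq p hdiv a z
  have hcop : Nat.Coprime m (p ^ (a + m₀)) :=
    Nat.Coprime.pow_right _ ((Nat.Prime.coprime_iff_not_dvd hp).2 hm).symm
  have hkill : p ^ (a + m₀) • x₁ = 0 := by
    rw [add_comm, pow_add, mul_smul, hx₁, hm₀]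
  have hbez : (1 : ℤ) = (m : ℤ) * Int.gcdA m (p ^ (a + m₀)) +
      ((p ^ (a + m₀) : ℕ) : ℤ) * Int.gcdB m (p ^ (a + m₀)) := by
    have := Int.gcd_eq_gcd_ab (m : ℤ) ((p ^ (a + m₀) : ℕ) : ℤ)
    rw [Int.gcd_natCast_natCast, hcop.gcd_eq_one] at this
    exact_mod_cast this
  set u := Int.gcdA m (p ^ (a + m₀))
  set v := Int.gcdB m (p ^ (a + m₀))
  refine ⟨u • x₁, ⟨a + m₀, ?_⟩, ?_⟩
  · rw [smul_comm, hkill, smul_zero]
  · have h1 : ((m : ℤ) * u) • x₁ = x₁ := by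
      have : (m : ℤ) * u = 1 - ((p ^ (a + m₀) : ℕ) : ℤ) * v := by linarith
      rw [this, sub_smul, one_smul, mul_comm, mul_smul, Nat.cast_smul_eq_nsmul, hkill, smul_zero,
        sub_zero]
    rw [mul_smul, ← Nat.cast_smul_eq_nsmul ℤ m, smul_smul, h1, hx₁]

/-- a torsion element is `p`-divisible as soon as the `p`-primary elements are -/
lemma pdiv_of_torsion (hprim : ∀ w : A, (∃ m : ℕ, p ^ m • w = 0) → ∃ y : A, p • y = w) (w : A)
    (n : ℕ) (hn : n ≠ 0) (hw : n • w = 0) : ∃ y : A, p • y = w := by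
  have hp : p.Prime := Fact.out
  obtain ⟨a, m, hm, rfl⟩ := Nat.exists_eq_pow_mul_and_not_dvd hn p hp.ne_one
  have hcop : Nat.Coprime (p ^ (a + 1)) m :=
    Nat.Coprime.pow_left _ ((Nat.Prime.coprime_iff_not_dvd hp).2 hm)
  have hbez : (1 : ℤ) = ((p ^ (a + 1) : ℕ) : ℤ) * Int.gcdA (p ^ (a + 1) : ℕ) m +
      (m : ℤ) * Int.gcdB (p ^ (a + 1) : ℕ) m := by
    have := Int.gcd_eq_gcd_ab ((p ^ (a + 1) : ℕ) : ℤ) (m : ℤ)
    rw [Int.gcd_natCast_natCast, hcop.gcd_eq_one] at this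
    exact_mod_cast this
  set u := Int.gcdA (p ^ (a + 1) : ℕ) m
  set v := Int.gcdB (p ^ (a + 1) : ℕ) m
  -- the `p`-primary part
  obtain ⟨y₁, hy₁⟩ := hprim (((m : ℤ) * v) • w) ⟨a, by
    rw [← Nat.cast_smul_eq_nsmul ℤ, smul_smul, ← mul_assoc, mul_comm, mul_smul, ← Nat.cast_mul,
      Nat.cast_smul_eq_nsmul, hw, smul_zero]⟩
  refine ⟨(((p ^ a : ℕ) : ℤ) * u) • w + y₁, ?_⟩
  rw [smul_add, hy₁, ← Nat.cast_smul_eq_nsmul ℤ p, smul_smul, ← add_smul]
  have : (p : ℤ) * (((p ^ a : ℕ) : ℤ) * u) + (m : ℤ) * v = 1 := by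
    rw [hbez]
    push_cast
    ring
  rw [this, one_smul]

end div

/-! ### `H¹(H, ℤ) = 0` -/

/-- smooth homomorphisms to `ℤ` vanish -/
theorem Hsm_one_trivZ_eq_zero {H : Type} [Group H] (𝒱 : OpenBasis H) (x : Hsm 𝒱 (trivZ H) 1) :
    x = 0 := by
  obtain ⟨f, hf, rfl⟩ := (Csm 𝒱 (trivZ H)).exists_rep x
  have hcoc := (d_one_eq_zero_iff f).1 hf
  have hadd : ∀ g h : H, fn₁ f (g * h) = fn₁ f h + fn₁ f g := fun g h => hcoc g h
  obtain ⟨U, hU, h1, -⟩ := isSm₁_fn₁ f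
  haveI : U.Normal := 𝒱.normal U hU
  haveI : U.FiniteIndex := 𝒱.finiteIndex U hU
  have h0 : fn₁ f 1 = 0 := by
    have := hadd 1 1
    rw [mul_one] at this
    have h' : fn₁ f 1 + 0 = fn₁ f 1 + fn₁ f 1 := by rw [add_zero]; exact this
    exact (add_left_cancel h').symm
  have hU0 : ∀ s ∈ U, fn₁ f s = 0 := by
    intro s hs
    have := h1 1 s hs
    rw [one_mul] at this
    rw [this, h0]
  have hpow : ∀ (g : H) (n : ℕ), fn₁ f (g ^ n) = n • fn₁ f g := by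
    intro g n
    induction n with
    | zero => rw [pow_zero, h0, zero_smul]
    | succ n ih => rw [pow_succ, hadd, ih, succ_nsmul, add_comm]
  have hzero : fn₁ f = 0 := by
    funext g
    have h2 := hpow g U.index
    rw [hU0 _ (Subgroup.pow_index_mem U g)] at h2
    have h3 : (U.index : ℤ) * fn₁ f g = 0 := by
      rw [← nsmul_eq_mul]
      exact h2.symm
    rcases mul_eq_zero.1 h3 with h4 | h4
    · exact absurd (by exact_mod_cast h4) Subgroup.FiniteIndex.index_ne_zero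
    · exact h4
  have : f = 0 := ext₁ (by rw [hzero, fn₁_zero])
  subst this
  rw [cl_eq_zero_iff]
  exact Submodule.zero_mem _

end Fermat.Agent.S55lib.CFDual
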