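/-
S55 sprint, block (I) / K4 (helper8): the duality pairings `α¹`, `α²` on the images of
`ι : H⁰(P₀) → F¹`, `ι : H⁰(Hom(P₁, C)) → Ext¹`:
`α²(e)(ι x) = (ev_x)_* (π e)`, `α¹(ι b)(ξ) = b_* (π ξ)`.
-/
import Fermat.Agent.S55lib.CFDual.PairKit

set_option autoImplicit false
set_option linter.unusedSectionVars false

noncomputable section

namespace Fermat.Agent.S55lib.CFDual

universe u

open Csm Cpx CategoryTheory

variable {k G : Type u} [CommRing k] [Group G] (𝒰 : OpenBasis G)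

/-- evaluation at an invariant element, `Hom(P, C) → C` -/
def evalHom (P C : Rep.{u} k G) (x : P) (hx : ∀ g, P.ρ g x = x) : homRep P C ⟶ C :=
  Rep.ofHom
    { toLinearMap :=
        { toFun := fun φ => (φ : P →ₗ[k] C) x
          map_add' := fun _ _ => rfl
          map_smul' := fun _ _ => rfl }
      isIntertwining' := by
        intro g
        apply LinearMap.ext
        intro φ
        show ((homRep P C).ρ g φ : P →ₗ[k] C) x = C.ρ g ((φ : P →ₗ[k] C) x)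
        rw [homRep.ρ_apply, hx] }

@[simp] lemma evalHom_apply (P C : Rep.{u} k G) (x : P) (hx : ∀ g, P.ρ g x = x)
    (φ : P →ₗ[k] C) : (evalHom P C x hx).hom (φ : homRep P C) = φ x := rfl

/-- an invariant linear map as a morphism of representations -/
def homOfInv (P C : Rep.{u} k G) (b : P →ₗ[k] C)
    (hb : ∀ g, (homRep P C).ρ g (b : homRep P C) = b) : P ⟶ C :=
  Rep.ofHom
    { toLinearMap := b
      isIntertwining' := by
        intro g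
        apply LinearMap.ext
        intro x
        show b (P.ρ g x) = C.ρ g (b x)
        have h := congrArg (fun ψ : P →ₗ[k] C => ψ (P.ρ g x)) (hb g)
        have h2 : ((homRep P C).ρ g (b : homRep P C) : P →ₗ[k] C) (P.ρ g x) = b (P.ρ g x) := h
        rw [homRep.ρ_apply, ← Module.End.mul_apply, ← map_mul, inv_mul_cancel, map_one] at h2
        exact h2.symm }

@[simp] lemma homOfInv_apply (P C : Rep.{u} k G) (b : P →ₗ[k] C)
    (hb : ∀ g, (homRep P C).ρ g (b : homRep P C) = b) (x : P) :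
    (homOfInv P C b hb).hom x = b x := rfl

/-- a morphism of representations as an invariant element of `Hom(P, C)` -/
lemma ρ_hom_eq_self {P C : Rep.{u} k G} (f : P ⟶ C) (g : G) :
    (homRep P C).ρ g (f.hom.toLinearMap : homRep P C) = f.hom.toLinearMap := by
  apply LinearMap.ext
  intro x
  show ((homRep P C).ρ g (f.hom.toLinearMap : homRep P C) : P →ₗ[k] C) x = f.hom x
  rw [homRep.ρ_apply]
  show C.ρ g (f.hom (P.ρ g⁻¹ x)) = f.hom x
  rw [← Rep.hom_comm_apply, ← Module.End.mul_apply, ← map_mul, mul_inv_cancel, map_one]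
  rfl

variable {P0 P1 : Rep.{u} k G} (d : P1 ⟶ P0) (C : Rep.{u} k G)

/-- `α²(e)(ι x) = (ev_x)_*(π e)` -/
theorem alpha2_ι (x : P0) (hx : ∀ g, P0.ρ g x = x) (x0 : (Csm 𝒰 P0).X 0) (hx0 : fn₀ x0 = x)
    (hd : (Csm 𝒰 P0).d 0 x0 = 0) (e : ExtH 𝒰 d C 2) :
    alpha2 𝒰 d C e (Fib.ι (Csm.map 𝒰 d) 0 ((Csm 𝒰 P0).cl x0 hd)) =
      (Csm.map 𝒰 (evalHom P0 C x hx)).mapH 2 (Fib.π (Csm.map 𝒰 (homRep.mapL d C)) 2 e) := by
  obtain ⟨a, b, ha, hab, rfl⟩ := Fib.exists_rep_succ (Csm.map 𝒰 (homRep.mapL d C)) e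
  rw [Fib.ι_cl', Fib.π_clS, Hom.mapH_cl]
  unfold Fib.clS
  refine ((pairData d C).pair21_cl 𝒰 (a, b) _ (0, x0) _).trans ?_
  refine cl_congr _ ?_ _
  rw [AdjData.p21_apply, map_zero, sub_zero]
  apply ext₂
  funext ⟨g, h⟩
  rw [fn₂_scup20, AdjData.fn₂_map]
  show ((fn₂ a (g, h) : P0 →ₗ[k] C)) (P0.ρ (g * h) (fn₀ x0)) = (fn₂ a (g, h) : P0 →ₗ[k] C) x
  rw [hx0, hx]

/-- `α¹(ι b)(ξ) = b_*(π ξ)` -/
theorem alpha1_ι (b : P1 ⟶ C) (b0 : (Csm 𝒰 (homRep P1 C)).X 0)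
    (hb0 : fn₀ b0 = (b.hom.toLinearMap : homRep P1 C))
    (hd : (Csm 𝒰 (homRep P1 C)).d 0 b0 = 0) (ξ : (FC 𝒰 d).H 2) :
    alpha1 𝒰 d C (Fib.ι (Csm.map 𝒰 (homRep.mapL d C)) 0 ((Csm 𝒰 (homRep P1 C)).cl b0 hd)) ξ =
      (Csm.map 𝒰 b).mapH 2 (Fib.π (Csm.map 𝒰 d) 2 ξ) := by
  obtain ⟨y, x, hy, hyx, rfl⟩ := Fib.exists_rep_succ (Csm.map 𝒰 d) ξ
  rw [Fib.ι_cl', Fib.π_clS, Hom.mapH_cl]
  unfold Fib.clS
  refine ((pairData d C).pair12_cl 𝒰 (0, b0) _ (y, x) _).trans ?_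
  refine cl_congr _ ?_ _
  rw [AdjData.p12_apply, map_zero, LinearMap.zero_apply, zero_add]
  apply ext₂
  funext ⟨g, h⟩
  rw [fn₂_scup02, AdjData.fn₂_map]
  show ((fn₀ b0 : P1 →ₗ[k] C)) (fn₂ y (g, h)) = b.hom (fn₂ y (g, h))
  rw [hb0]
  rfl

end Fermat.Agent.S55lib.CFDual
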