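/-
S55 sprint, block (I) / K4 (helper8): products, kernels and quotients of representations, with
explicit carriers.
-/
import Fermat.Agent.S55lib.Cpx.HomRep

set_option autoImplicit false
set_option linter.unusedSectionVars false

noncomputable section

namespace Fermat.Agent.S55lib.CFDual

universe u

open CategoryTheory

variable {k G : Type u} [CommRing k] [Group G]

/-! ### Products -/

/-- the product of two representations, carrier `A × B` -/
abbrev prodRep (A B : Rep.{u} k G) : Rep.{u} k G := Rep.of (A.ρ.prod B.ρ)

namespace prodRep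

variable (A B : Rep.{u} k G)

lemma ρ_apply (g : G) (x : A × B) : (prodRep A B).ρ g x = (A.ρ g x.1, B.ρ g x.2) := rfl

/-- first inclusion -/
def inl : A ⟶ prodRep A B :=
  Rep.ofHom { toLinearMap := LinearMap.inl k A B
              isIntertwining' := by
                intro g
                apply LinearMap.ext
                intro x
                show ((A.ρ g x, (0 : B)) : A × B) = (A.ρ g x, B.ρ g 0)
                rw [map_zero] }

/-- second inclusion -/
def inr : B ⟶ prodRep A B :=
  Rep.ofHom { toLinearMap := LinearMap.inr k A B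
              isIntertwining' := by
                intro g
                apply LinearMap.ext
                intro x
                show (((0 : A), B.ρ g x) : A × B) = (A.ρ g 0, B.ρ g x)
                rw [map_zero] }

/-- first projection -/
def fst : prodRep A B ⟶ A :=
  Rep.ofHom { toLinearMap := LinearMap.fst k A B
              isIntertwining' := fun _ => rfl }

/-- second projection -/
def snd : prodRep A B ⟶ B :=
  Rep.ofHom { toLinearMap := LinearMap.snd k A B
              isIntertwining' := fun _ => rfl }

@[simp] lemma inl_apply (a : A) : (inl A B).hom a = ((a, 0) : A × B) := rfl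
@[simp] lemma inr_apply (b : B) : (inr A B).hom b = ((0, b) : A × B) := rfl
@[simp] lemma fst_apply (x : A × B) : (fst A B).hom x = x.1 := rfl
@[simp] lemma snd_apply (x : A × B) : (snd A B).hom x = x.2 := rfl

variable {A B}

/-- pairing of two maps into the factors -/
def lift {X : Rep.{u} k G} (f : X ⟶ A) (g : X ⟶ B) : X ⟶ prodRep A B :=
  Rep.ofHom { toLinearMap := f.hom.toLinearMap.prod g.hom.toLinearMap
              isIntertwining' := by
                intro γ
                apply LinearMap.ext
                intro x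
                show ((f.hom (X.ρ γ x), g.hom (X.ρ γ x)) : A × B) =
                  (A.ρ γ (f.hom x), B.ρ γ (g.hom x))
                rw [Rep.hom_comm_apply, Rep.hom_comm_apply] }

/-- copairing of two maps out of the factors -/
def desc {X : Rep.{u} k G} (f : A ⟶ X) (g : B ⟶ X) : prodRep A B ⟶ X :=
  Rep.ofHom { toLinearMap := f.hom.toLinearMap.coprod g.hom.toLinearMap
              isIntertwining' := by
                intro γ
                apply LinearMap.ext
                intro x
                show f.hom (A.ρ γ x.1) + g.hom (B.ρ γ x.2) = X.ρ γ (f.hom x.1 + g.hom x.2)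
                rw [Rep.hom_comm_apply, Rep.hom_comm_apply, map_add] }

@[simp] lemma lift_apply {X : Rep.{u} k G} (f : X ⟶ A) (g : X ⟶ B) (x : X) :
    (lift f g).hom x = ((f.hom x, g.hom x) : A × B) := rfl

@[simp] lemma desc_apply {X : Rep.{u} k G} (f : A ⟶ X) (g : B ⟶ X) (x : A × B) :
    (desc f g).hom x = f.hom x.1 + g.hom x.2 := rfl

lemma isSm (𝒰 : OpenBasis G) (hA : IsSm 𝒰 A) (hB : IsSm 𝒰 B) : IsSm 𝒰 (prodRep A B) := by
  rintro ⟨a, b⟩
  obtain ⟨U, hU, h1⟩ := hA a
  obtain ⟨V, hV, h2⟩ := hB b
  obtain ⟨W, hW, hle⟩ := 𝒰.directed U hU V hV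
  refine ⟨W, hW, fun s hs => ?_⟩
  show ((A.ρ s a, B.ρ s b) : A × B) = (a, b)
  rw [h1 s ((hle.trans inf_le_left) hs), h2 s ((hle.trans inf_le_right) hs)]

instance [Module.Finite k A] [Module.Finite k B] : Module.Finite k (prodRep A B) :=
  inferInstanceAs (Module.Finite k (A × B))

instance [Module.Free k A] [Module.Free k B] : Module.Free k (prodRep A B) :=
  inferInstanceAs (Module.Free k (A × B))

end prodRep

/-! ### Kernels -/

/-- the kernel of a morphism of representations, carrier the kernel submodule -/
abbrev kerRep {A B : Rep.{u} k G} (φ : A ⟶ B) : Rep.{u} k G :=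
  Rep.of (A.ρ.subrepresentation (LinearMap.ker φ.hom.toLinearMap) (by
    intro g x hx
    rw [Submodule.mem_comap, LinearMap.mem_ker]
    show φ.hom (A.ρ g x) = 0
    rw [Rep.hom_comm_apply, show φ.hom x = 0 from hx, map_zero]))

namespace kerRep

variable {A B : Rep.{u} k G} (φ : A ⟶ B)

/-- the inclusion of the kernel -/
def incl : kerRep φ ⟶ A :=
  Rep.ofHom { toLinearMap := (LinearMap.ker φ.hom.toLinearMap).subtype
              isIntertwining' := fun _ => rfl }

lemma incl_injective : Function.Injective (incl φ).hom := fun _ _ h => Subtype.ext h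

lemma comp_incl (x : kerRep φ) : φ.hom ((incl φ).hom x) = 0 := x.2

lemma exists_of_eq_zero (a : A) (h : φ.hom a = 0) : ∃ x : kerRep φ, (incl φ).hom x = a :=
  ⟨⟨a, h⟩, rfl⟩

/-- maps into the kernel -/
def lift {X : Rep.{u} k G} (f : X ⟶ A) (h : ∀ x, φ.hom (f.hom x) = 0) : X ⟶ kerRep φ :=
  Rep.ofHom { toLinearMap := f.hom.toLinearMap.codRestrict _ h
              isIntertwining' := by
                intro γ
                apply LinearMap.ext
                intro x
                apply Subtype.ext
                show f.hom (X.ρ γ x) = A.ρ γ (f.hom x)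
                rw [Rep.hom_comm_apply] }

@[simp] lemma incl_lift {X : Rep.{u} k G} (f : X ⟶ A) (h : ∀ x, φ.hom (f.hom x) = 0) (x : X) :
    (incl φ).hom ((lift φ f h).hom x) = f.hom x := rfl

lemma isSm (𝒰 : OpenBasis G) (hA : IsSm 𝒰 A) : IsSm 𝒰 (kerRep φ) := by
  intro x
  obtain ⟨U, hU, h⟩ := hA x.1
  exact ⟨U, hU, fun s hs => Subtype.ext (h s hs)⟩

instance [IsNoetherianRing k] [Module.Finite k A] : Module.Finite k (kerRep φ) :=
  inferInstanceAs (Module.Finite k (LinearMap.ker φ.hom.toLinearMap))

instance [IsDomain k] [IsPrincipalIdealRing k] [Module.Finite k A] [Module.Free k A] :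
    Module.Free k (kerRep φ) :=
  inferInstanceAs (Module.Free k (LinearMap.ker φ.hom.toLinearMap))

end kerRep

/-! ### Cokernels -/

/-- the cokernel of a morphism of representations, carrier the quotient module -/
abbrev cokerRep {A B : Rep.{u} k G} (φ : A ⟶ B) : Rep.{u} k G :=
  Rep.of (B.ρ.quotient (LinearMap.range φ.hom.toLinearMap) (by
    rintro g _ ⟨a, rfl⟩
    rw [Submodule.mem_comap]
    refine ⟨A.ρ g a, ?_⟩
    show φ.hom (A.ρ g a) = B.ρ g (φ.hom a)
    rw [Rep.hom_comm_apply]))

namespace cokerRep

variable {A B : Rep.{u} k G} (φ : A ⟶ B)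

/-- the projection onto the cokernel -/
def proj : B ⟶ cokerRep φ :=
  Rep.ofHom { toLinearMap := (LinearMap.range φ.hom.toLinearMap).mkQ
              isIntertwining' := fun _ => rfl }

lemma proj_surjective : Function.Surjective (proj φ).hom :=
  Submodule.mkQ_surjective _

lemma proj_eq_zero_iff (b : B) : (proj φ).hom b = 0 ↔ ∃ a, φ.hom a = b := by
  show (LinearMap.range φ.hom.toLinearMap).mkQ b = 0 ↔ _
  rw [Submodule.mkQ_apply, Submodule.Quotient.mk_eq_zero]
  rfl

lemma isSm (𝒰 : OpenBasis G) (hB : IsSm 𝒰 B) : IsSm 𝒰 (cokerRep φ) := by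
  intro x
  obtain ⟨b, rfl⟩ := proj_surjective φ x
  obtain ⟨U, hU, h⟩ := hB b
  refine ⟨U, hU, fun s hs => ?_⟩
  rw [← Rep.hom_comm_apply, h s hs]

instance [Module.Finite k B] : Module.Finite k (cokerRep φ) :=
  inferInstanceAs (Module.Finite k (B ⧸ LinearMap.range φ.hom.toLinearMap))

/-- the cokernel of a `k`-split injection into a free module over a PID is free -/
lemma free_of_retraction [IsDomain k] [IsPrincipalIdealRing k] [Module.Finite k B]
    [Module.Free k B] (r : B →ₗ[k] A) (hr : ∀ a, r (φ.hom a) = a) : Module.Free k (cokerRep φ) := by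
  have hc : IsCompl (LinearMap.range φ.hom.toLinearMap) (LinearMap.ker r) := by
    constructor
    · rw [Submodule.disjoint_def]
      rintro _ ⟨a, rfl⟩ h2
      have : a = 0 := by rw [← hr a]; exact h2
      rw [this, map_zero]
    · rw [codisjoint_iff, eq_top_iff]
      intro b _
      rw [Submodule.mem_sup]
      refine ⟨φ.hom (r b), ⟨r b, rfl⟩, b - φ.hom (r b), ?_, by abel⟩
      rw [LinearMap.mem_ker, map_sub, hr, sub_self]
  exact Module.Free.of_equiv (Submodule.quotientEquivOfIsCompl _ _ hc).symm

end cokerRep

end Fermat.Agent.S55lib.CFDual
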