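/-
S55 sprint, block (I) / K4 (helper8): finite coinduction `cRep V B` from a subgroup `V` of finite
index (equivariant functions `G → B`, `f (g v) = v⁻¹ f g`, left translation action), its exactness,
the unit `A → cRep V (res A)` and the trace `cRep V (res A) → A`.
-/
import Fermat.Agent.S55lib.CFDual.RepKit

set_option autoImplicit false
set_option linter.unusedSectionVars false

noncomputable section

namespace Fermat.Agent.S55lib.CFDual

universe u

open CategoryTheory

variable {k G : Type u} [CommRing k] [Group G] (V : Subgroup G)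

/-- the module of `V`-equivariant functions `G → B`: `f (g * v) = v⁻¹ • f g` -/
def cSub (B : Rep.{u} k V) : Submodule k (G → B) where
  carrier := {f | ∀ (g : G) (v : V), f (g * v) = B.ρ v⁻¹ (f g)}
  add_mem' := by
    intro f f' hf hf' g v
    show f (g * v) + f' (g * v) = B.ρ v⁻¹ (f g + f' g)
    rw [hf, hf', map_add]
  zero_mem' := by
    intro g v
    show (0 : B) = B.ρ v⁻¹ 0
    rw [map_zero]
  smul_mem' := by
    intro c f hf g v
    show c • f (g * v) = B.ρ v⁻¹ (c • f g)
    rw [hf, map_smul]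

/-- left translation on equivariant functions -/
def cRepn (B : Rep.{u} k V) : Representation k G (cSub V B) where
  toFun γ :=
    { toFun := fun f => ⟨fun g => f.1 (γ⁻¹ * g), fun g v => by
        show f.1 (γ⁻¹ * (g * v)) = _
        rw [← mul_assoc]
        exact f.2 _ v⟩
      map_add' := fun _ _ => rfl
      map_smul' := fun _ _ => rfl }
  map_one' := by
    apply LinearMap.ext
    intro f
    apply Subtype.ext
    funext g
    show f.1 (1⁻¹ * g) = f.1 g
    rw [inv_one, one_mul]
  map_mul' γ γ' := by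
    apply LinearMap.ext
    intro f
    apply Subtype.ext
    funext g
    show f.1 ((γ * γ')⁻¹ * g) = f.1 (γ'⁻¹ * (γ⁻¹ * g))
    rw [mul_inv_rev, mul_assoc]

/-- the coinduced representation -/
abbrev cRep (B : Rep.{u} k V) : Rep.{u} k G := Rep.of (cRepn V B)

namespace cRep

variable {V} {B B' B'' : Rep.{u} k V}

lemma ρ_apply (γ : G) (f : cRep V B) (g : G) : ((cRep V B).ρ γ f).1 g = f.1 (γ⁻¹ * g) := rfl

lemma equivariant (f : cRep V B) (g : G) (v : V) : f.1 (g * v) = B.ρ v⁻¹ (f.1 g) := f.2 g v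

@[ext] lemma ext {f f' : cRep V B} (h : ∀ g, f.1 g = f'.1 g) : f = f' := Subtype.ext (funext h)

/-- functoriality -/
def map (φ : B ⟶ B') : cRep V B ⟶ cRep V B' :=
  Rep.ofHom
    { toLinearMap :=
        { toFun := fun f => ⟨fun g => φ.hom (f.1 g), fun g v => by
            show φ.hom (f.1 (g * v)) = B'.ρ v⁻¹ (φ.hom (f.1 g))
            rw [f.2 g v, Rep.hom_comm_apply]⟩
          map_add' := fun f f' => by
            apply Subtype.ext
            funext g
            exact map_add φ.hom (f.1 g) (f'.1 g)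
          map_smul' := fun c f => by
            apply Subtype.ext
            funext g
            exact map_smul φ.hom c (f.1 g) }
      isIntertwining' := fun _ => rfl }

@[simp] lemma map_apply (φ : B ⟶ B') (f : cRep V B) (g : G) :
    ((map φ).hom f).1 g = φ.hom (f.1 g) := rfl

/-! #### evaluation on coset representatives -/

/-- the chosen representative of the coset of `g` -/
def σ (V : Subgroup G) (g : G) : G := (g : G ⧸ V).out

lemma σ_mul (g : G) (v : V) : σ V (g * v) = σ V g := by
  show ((g * v : G) : G ⧸ V).out = (g : G ⧸ V).out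
  rw [QuotientGroup.mk_mul_of_mem g v.2]

lemma σ_mem (g : G) : (σ V g)⁻¹ * g ∈ V := by
  rw [← QuotientGroup.eq]
  exact QuotientGroup.out_eq' _

lemma σ_out (x : G ⧸ V) : σ V x.out = x.out := by
  show ((x.out : G) : G ⧸ V).out = x.out
  rw [QuotientGroup.out_eq']

/-- the element `v` of `V` with `g = σ g * v` -/
def τ (V : Subgroup G) (g : G) : V := ⟨(σ V g)⁻¹ * g, σ_mem g⟩

lemma σ_mul_τ (g : G) : σ V g * (τ V g : G) = g := mul_inv_cancel_left _ _

lemma τ_mul (g : G) (v : V) : τ V (g * v) = τ V g * v := by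
  apply Subtype.ext
  show (σ V (g * v))⁻¹ * (g * v) = (σ V g)⁻¹ * g * v
  rw [σ_mul, mul_assoc]

lemma τ_out (x : G ⧸ V) : τ V x.out = 1 := by
  apply Subtype.ext
  show (σ V x.out)⁻¹ * x.out = 1
  rw [σ_out, inv_mul_cancel]

/-- equivariant functions are determined by their values on coset representatives -/
def evalEquiv (V : Subgroup G) (B : Rep.{u} k V) : cSub V B ≃ₗ[k] (G ⧸ V → B) where
  toFun f := fun x => f.1 x.out
  map_add' _ _ := rfl
  map_smul' _ _ := rfl
  invFun a := ⟨fun g => B.ρ (τ V g)⁻¹ (a (g : G ⧸ V)), fun g v => by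
    show B.ρ (τ V (g * v))⁻¹ (a ((g * v : G) : G ⧸ V)) = B.ρ v⁻¹ (B.ρ (τ V g)⁻¹ (a (g : G ⧸ V)))
    rw [τ_mul, mul_inv_rev, map_mul, QuotientGroup.mk_mul_of_mem g v.2]
    rfl⟩
  left_inv f := by
    apply Subtype.ext
    funext g
    show B.ρ (τ V g)⁻¹ (f.1 (g : G ⧸ V).out) = f.1 g
    have := f.2 (σ V g) (τ V g)
    rw [σ_mul_τ] at this
    rw [this]
    rfl
  right_inv a := by
    funext x
    show B.ρ (τ V x.out)⁻¹ (a ((x.out : G) : G ⧸ V)) = a x
    rw [τ_out, inv_one, map_one, QuotientGroup.out_eq']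
    rfl

lemma evalEquiv_apply (f : cSub V B) (x : G ⧸ V) : evalEquiv V B f x = f.1 x.out := rfl

lemma evalEquiv_map (φ : B ⟶ B') (f : cRep V B) (x : G ⧸ V) :
    evalEquiv V B' ((map φ).hom f) x = φ.hom (evalEquiv V B f x) := rfl

instance [Finite (G ⧸ V)] [Module.Finite k B] : Module.Finite k (cRep V B) :=
  Module.Finite.equiv (evalEquiv V B).symm

instance [Finite (G ⧸ V)] [Module.Free k B] : Module.Free k (cRep V B) :=
  Module.Free.of_equiv (evalEquiv V B).symm

/-! #### exactness -/

lemma map_injective (φ : B ⟶ B') (hφ : Function.Injective φ.hom) :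
    Function.Injective (map φ).hom := by
  intro f f' h
  apply ext
  intro g
  apply hφ
  exact congrFun (congrArg Subtype.val h) g

lemma map_surjective (φ : B ⟶ B') (hφ : Function.Surjective φ.hom) :
    Function.Surjective (map φ).hom := by
  intro f'
  choose s hs using hφ
  refine ⟨(evalEquiv V B).symm (fun x => s (evalEquiv V B' f' x)), ?_⟩
  apply (evalEquiv V B').injective
  funext x
  rw [evalEquiv_map, LinearEquiv.apply_symm_apply, hs]

lemma map_exact (φ : B ⟶ B') (ψ : B' ⟶ B'') (hφ : Function.Injective φ.hom)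
    (hex : ∀ b : B', ψ.hom b = 0 ↔ ∃ a, φ.hom a = b) (f : cRep V B') :
    (map ψ).hom f = 0 ↔ ∃ f', (map φ).hom f' = f := by
  constructor
  · intro h
    have h0 : ∀ g, ψ.hom (f.1 g) = 0 := fun g => congrFun (congrArg Subtype.val h) g
    choose a ha using fun g => (hex (f.1 g)).1 (h0 g)
    refine ⟨⟨a, fun g v => ?_⟩, ?_⟩
    · apply hφ
      rw [ha, Rep.hom_comm_apply, ha, f.2 g v]
    · apply ext
      intro g
      exact ha g
  · rintro ⟨f', rfl⟩
    apply ext
    intro g
    exact (hex _).2 ⟨f'.1 g, rfl⟩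

/-! #### smoothness -/

lemma isSm (𝒰 : OpenBasis G) {U : Subgroup G} (hU : U ∈ 𝒰.sets) (hUV : U ≤ V)
    (htriv : ∀ v : V, v.1 ∈ U → ∀ b : B, B.ρ v b = b) : IsSm 𝒰 (cRep V B) := by
  intro f
  refine ⟨U, hU, fun s hs => ?_⟩
  have hN : U.Normal := 𝒰.normal U hU
  apply ext
  intro g
  rw [ρ_apply]
  have hmem : g⁻¹ * s⁻¹ * g ∈ U := by
    have := hN.conj_mem s⁻¹ (U.inv_mem hs) g⁻¹
    rwa [inv_inv] at this
  have e : s⁻¹ * g = g * (⟨g⁻¹ * s⁻¹ * g, hUV hmem⟩ : V) := by
    show s⁻¹ * g = g * (g⁻¹ * s⁻¹ * g)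
    group
  rw [e, f.2 g _]
  exact htriv _ (U.inv_mem hmem) _

/-- if `U` acts trivially on `B` then it acts trivially on `cRep V B` -/
lemma ρ_eq_self_of_triv {U : Subgroup G} (hN : U.Normal) (hUV : U ≤ V)
    (htriv : ∀ v : V, v.1 ∈ U → ∀ b : B, B.ρ v b = b) (s : G) (hs : s ∈ U) (f : cRep V B) :
    (cRep V B).ρ s f = f := by
  apply ext
  intro g
  rw [ρ_apply]
  have hmem : g⁻¹ * s⁻¹ * g ∈ U := by
    have := hN.conj_mem s⁻¹ (U.inv_mem hs) g⁻¹
    rwa [inv_inv] at this
  have e : s⁻¹ * g = g * (⟨g⁻¹ * s⁻¹ * g, hUV hmem⟩ : V) := by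
    show s⁻¹ * g = g * (g⁻¹ * s⁻¹ * g)
    group
  rw [e, f.2 g _]
  exact htriv _ (U.inv_mem hmem) _

/-! #### unit and trace for restricted representations -/

variable (V)

/-- the unit `A → cRep V (res A)`, `a ↦ (g ↦ g⁻¹ a)` -/
def unit (A : Rep.{u} k G) : A ⟶ cRep V (Rep.res V.subtype A) :=
  Rep.ofHom
    { toLinearMap :=
        { toFun := fun a => ⟨fun g => A.ρ g⁻¹ a, fun g v => by
            show A.ρ (g * v)⁻¹ a = A.ρ (v⁻¹ : V) (A.ρ g⁻¹ a)
            rw [mul_inv_rev, map_mul]
            rfl⟩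
          map_add' := fun a a' => by
            apply Subtype.ext
            funext g
            exact map_add (A.ρ g⁻¹) a a'
          map_smul' := fun c a => by
            apply Subtype.ext
            funext g
            exact map_smul (A.ρ g⁻¹) c a }
      isIntertwining' := by
        intro γ
        apply LinearMap.ext
        intro a
        apply Subtype.ext
        funext g
        show A.ρ g⁻¹ (A.ρ γ a) = A.ρ (γ⁻¹ * g)⁻¹ a
        rw [mul_inv_rev, inv_inv, map_mul]
        rfl }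

@[simp] lemma unit_apply (A : Rep.{u} k G) (a : A) (g : G) :
    ((unit V A).hom a).1 g = A.ρ g⁻¹ a := rfl

lemma unit_injective (A : Rep.{u} k G) : Function.Injective (unit V A).hom := by
  intro a a' h
  have h1 : A.ρ (1 : G)⁻¹ a = A.ρ (1 : G)⁻¹ a' := congrFun (congrArg Subtype.val h) 1
  rw [inv_one, map_one] at h1
  exact h1

/-- naturality of the unit -/
lemma unit_natural {A A' : Rep.{u} k G} (φ : A ⟶ A') (a : A) :
    (map (Rep.resMap V.subtype φ)).hom ((unit V A).hom a) = (unit V A').hom (φ.hom a) := by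
  apply ext
  intro g
  show φ.hom (A.ρ g⁻¹ a) = A'.ρ g⁻¹ (φ.hom a)
  rw [Rep.hom_comm_apply]

/-- evaluation at `1`, a `k`-linear retraction of the unit -/
def evalOne (A : Rep.{u} k G) : cRep V (Rep.res V.subtype A) →ₗ[k] A where
  toFun f := f.1 1
  map_add' _ _ := rfl
  map_smul' _ _ := rfl

lemma evalOne_unit (A : Rep.{u} k G) (a : A) : evalOne V A ((unit V A).hom a) = a := by
  show A.ρ (1 : G)⁻¹ a = a
  rw [inv_one, map_one]
  rfl

/-- the function `g V ↦ g • f g` -/
def twist (A : Rep.{u} k G) (f : cRep V (Rep.res V.subtype A)) : G ⧸ V → A :=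
  Quotient.lift (fun g : G => A.ρ g (f.1 g)) (by
    intro g g' h
    have hmem : g⁻¹ * g' ∈ V := QuotientGroup.leftRel_apply.1 h
    have e : g' = g * (⟨g⁻¹ * g', hmem⟩ : V) := by
      show g' = g * (g⁻¹ * g')
      group
    show A.ρ g (f.1 g) = A.ρ g' (f.1 g')
    conv_rhs => rw [e, f.2 g _]
    show A.ρ g (f.1 g) = A.ρ (g * (g⁻¹ * g')) (A.ρ (g⁻¹ * g')⁻¹ (f.1 g))
    rw [← Module.End.mul_apply, ← map_mul]
    congr 2
    group)

lemma twist_mk (A : Rep.{u} k G) (f : cRep V (Rep.res V.subtype A)) (g : G) :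
    twist V A f (g : G ⧸ V) = A.ρ g (f.1 g) := rfl

lemma twist_ρ (A : Rep.{u} k G) (f : cRep V (Rep.res V.subtype A)) (γ : G) (x : G ⧸ V) :
    twist V A ((cRep V (Rep.res V.subtype A)).ρ γ f) x = A.ρ γ (twist V A f (γ⁻¹ • x)) := by
  induction x using QuotientGroup.induction_on with
  | H g =>
    show A.ρ g (f.1 (γ⁻¹ * g)) = A.ρ γ (A.ρ (γ⁻¹ * g) (f.1 (γ⁻¹ * g)))
    rw [← Module.End.mul_apply, ← map_mul, mul_inv_cancel_left]

/-- the trace `cRep V (res A) → A`, `f ↦ ∑_{gV} g f(g)` -/
def tr [Fintype (G ⧸ V)] (A : Rep.{u} k G) : cRep V (Rep.res V.subtype A) ⟶ A :=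
  Rep.ofHom
    { toLinearMap :=
        { toFun := fun f => ∑ x : G ⧸ V, twist V A f x
          map_add' := fun f f' => by
            rw [← Finset.sum_add_distrib]
            refine Finset.sum_congr rfl fun x _ => ?_
            induction x using QuotientGroup.induction_on with
            | H g => exact map_add (A.ρ g) (f.1 g) (f'.1 g)
          map_smul' := fun c f => by
            rw [RingHom.id_apply, Finset.smul_sum]
            refine Finset.sum_congr rfl fun x _ => ?_
            induction x using QuotientGroup.induction_on with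
            | H g => exact map_smul (A.ρ g) c (f.1 g) }
      isIntertwining' := by
        intro γ
        apply LinearMap.ext
        intro f
        show ∑ x : G ⧸ V, twist V A ((cRep V (Rep.res V.subtype A)).ρ γ f) x =
          A.ρ γ (∑ x : G ⧸ V, twist V A f x)
        rw [map_sum]
        exact Fintype.sum_equiv (MulAction.toPerm γ⁻¹) _ _ (fun x => twist_ρ V A f γ x) }

lemma tr_apply [Fintype (G ⧸ V)] (A : Rep.{u} k G) (f : cRep V (Rep.res V.subtype A)) :
    (tr V A).hom f = ∑ x : G ⧸ V, twist V A f x := rfl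

/-- `tr ∘ unit = [G : V]` -/
lemma tr_unit [Fintype (G ⧸ V)] (A : Rep.{u} k G) (a : A) :
    (tr V A).hom ((unit V A).hom a) = V.index • a := by
  rw [tr_apply]
  have : ∀ x : G ⧸ V, twist V A ((unit V A).hom a) x = a := by
    intro x
    induction x using QuotientGroup.induction_on with
    | H g =>
      show A.ρ g (A.ρ g⁻¹ a) = a
      rw [← Module.End.mul_apply, ← map_mul, mul_inv_cancel, map_one]
      rfl
  rw [Finset.sum_congr rfl (fun x _ => this x), Finset.sum_const, Finset.card_univ,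
    Subgroup.index_eq_card, Nat.card_eq_fintype_card]

/-- naturality of the trace -/
lemma tr_natural [Fintype (G ⧸ V)] {A A' : Rep.{u} k G} (φ : A ⟶ A')
    (f : cRep V (Rep.res V.subtype A)) :
    (tr V A').hom ((map (Rep.resMap V.subtype φ)).hom f) = φ.hom ((tr V A).hom f) := by
  rw [tr_apply, tr_apply, map_sum]
  refine Finset.sum_congr rfl fun x _ => ?_
  induction x using QuotientGroup.induction_on with
  | H g =>
    show A'.ρ g (φ.hom (f.1 g)) = φ.hom (A.ρ g (f.1 g))
    rw [Rep.hom_comm_apply]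

end cRep

end Fermat.Agent.S55lib.CFDual
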