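/-
S55 sprint, block (I) / K4 (helper8): the finite coinduction `cRep V B` and the dual
`Hom(cRep V k, C)` of the permutation module are smooth coinductions in the sense of helper7's
`SmCoind` (so that Shapiro's lemma applies); unit, augmentation and the evaluation at the norm
element.
-/
import Fermat.Agent.S55lib.Cpx.Shapiro3
import Fermat.Agent.S55lib.CFDual.AlphaIota
import Fermat.Agent.S55lib.CFDual.Coind

set_option autoImplicit false
set_option linter.unusedSectionVars false

noncomputable section

namespace Fermat.Agent.S55lib.CFDual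

universe u

open Csm Cpx CategoryTheory

variable {k G : Type u} [CommRing k] [Group G] (𝒰 : OpenBasis G) (V : Subgroup G)

namespace cRep

/-- evaluation at `1`, as a morphism of `V`-representations -/
def ev (B : Rep.{u} k V) : Rep.res V.subtype (cRep V B) ⟶ B :=
  Rep.ofHom
    { toLinearMap :=
        { toFun := fun f => f.1 1
          map_add' := fun _ _ => rfl
          map_smul' := fun _ _ => rfl }
      isIntertwining' := by
        intro v
        apply LinearMap.ext
        intro f
        show f.1 ((v : G)⁻¹ * 1) = B.ρ v (f.1 1)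
        have := f.2 1 v⁻¹
        rw [inv_inv] at this
        rw [← this, mul_one, one_mul]
        rfl }

@[simp] lemma ev_apply (B : Rep.{u} k V) (f : cRep V B) :
    (ev V B).hom (f : Rep.res V.subtype (cRep V B)) = f.1 1 := rfl

/-- `cRep V B` is the smooth coinduction of `B` -/
def smCoind (B : Rep.{u} k V) (hsm : IsSm 𝒰 (cRep V B)) :
    SmCoind 𝒰 (fun _ : PUnit.{u + 1} => ↥V) (fun _ => V.subtype) (fun _ => B) (cRep V B) where
  ev := fun _ => ev V B
  sm := hsm
  inj := by
    intro f h
    apply cRep.ext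
    intro g
    have h1 := h PUnit.unit g⁻¹
    have h2 : f.1 ((g⁻¹)⁻¹ * 1) = 0 := h1
    rw [inv_inv, mul_one] at h2
    exact h2
  surj := by
    intro F hF _
    refine ⟨⟨fun g => F PUnit.unit g⁻¹, fun g v => ?_⟩, fun i g => ?_⟩
    · show F PUnit.unit (g * v)⁻¹ = B.ρ v⁻¹ (F PUnit.unit g⁻¹)
      rw [mul_inv_rev]
      exact hF PUnit.unit v⁻¹ g⁻¹
    · show F PUnit.unit (g⁻¹ * 1)⁻¹ = F i g
      rw [mul_one, inv_inv]

lemma smCoind_fn (B : Rep.{u} k V) (hsm : IsSm 𝒰 (cRep V B)) (f : cRep V B) (g : G) :
    (smCoind 𝒰 V B hsm).fn PUnit.unit f g = f.1 g⁻¹ := by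
  show f.1 (g⁻¹ * 1) = f.1 g⁻¹
  rw [mul_one]

end cRep

end Fermat.Agent.S55lib.CFDual
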