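/-
S55 sprint, block (I) / K4 (helper8): the permutation module `T = cRep V k` (functions on `G/V`),
its delta functions, norm element and augmentation, and the dual `J = Hom(T, C)` as a smooth
coinduction of `C|_V`.
-/
import Fermat.Agent.S55lib.CFDual.CoindSh

set_option autoImplicit false
set_option linter.unusedSectionVars false

noncomputable section

namespace Fermat.Agent.S55lib.CFDual

universe u

open Csm Cpx CategoryTheory

variable {k G : Type u} [CommRing k] [Group G] (𝒰 : OpenBasis G) (V : Subgroup G)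

/-- the permutation module of `G/V`: functions `G/V → k` -/
abbrev cTriv : Rep.{u} k G := cRep V (Rep.trivial k V k)

namespace cTriv

variable {V}

lemma apply_mul (f : cTriv (k := k) V) (g : G) (v : V) : f.1 (g * v) = f.1 g := f.2 g v

lemma apply_mul_mem (f : cTriv (k := k) V) (g : G) {v : G} (hv : v ∈ V) : f.1 (g * v) = f.1 g :=
  f.2 g ⟨v, hv⟩

lemma apply_eq_of_mk_eq (f : cTriv (k := k) V) {g g' : G} (h : (g : G ⧸ V) = g') :
    f.1 g = f.1 g' := by
  have hmem : g⁻¹ * g' ∈ V := QuotientGroup.eq.1 h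
  have e : g' = g * (g⁻¹ * g') := by group
  rw [e, apply_mul_mem f g hmem]

/-- the induced function on the quotient -/
def fq (f : cTriv (k := k) V) : G ⧸ V → k :=
  Quotient.lift f.1 (fun _ _ h => apply_eq_of_mk_eq f (Quotient.sound h))

@[simp] lemma fq_mk (f : cTriv (k := k) V) (g : G) : fq f (g : G ⧸ V) = f.1 g := rfl

lemma fq_eq_evalEquiv (f : cTriv (k := k) V) :
    fq f = cRep.evalEquiv V (Rep.trivial k V k) f := by
  funext x
  rw [cRep.evalEquiv_apply]
  conv_lhs => rw [← QuotientGroup.out_eq' x]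
  rfl

lemma fq_ρ (γ : G) (f : cTriv (k := k) V) (x : G ⧸ V) :
    fq ((cTriv V).ρ γ f) x = fq f (γ⁻¹ • x) := by
  induction x using QuotientGroup.induction_on with
  | H g => rfl

open Classical in
variable (V) in
/-- the delta function of the coset `g V` -/
def dlt (g : G) : cTriv (k := k) V :=
  (cRep.evalEquiv V (Rep.trivial k V k)).symm (Pi.single (g : G ⧸ V) 1)

open Classical in
lemma dlt_val (g h : G) :
    (dlt (k := k) V g).1 h = if (h : G ⧸ V) = g then 1 else 0 := by
  unfold dlt
  show (Rep.trivial k V k).ρ (cRep.τ V h)⁻¹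
    ((Pi.single (g : G ⧸ V) (1 : k) : G ⧸ V → k) (h : G ⧸ V)) = _
  rw [Rep.trivial_ρ_apply, Pi.single_apply]

lemma dlt_eq_of_mk_eq {g g' : G} (h : (g : G ⧸ V) = g') : dlt (k := k) V g = dlt V g' := by
  unfold dlt
  rw [h]

lemma dlt_mul_mem (g : G) {v : G} (hv : v ∈ V) : dlt (k := k) V (g * v) = dlt V g :=
  dlt_eq_of_mk_eq (QuotientGroup.mk_mul_of_mem g hv)

lemma ρ_dlt (γ g : G) : (cTriv V).ρ γ (dlt (k := k) V g) = dlt V (γ * g) := by
  classical
  apply cRep.ext
  intro h
  rw [cRep.ρ_apply, dlt_val, dlt_val]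
  have : ((γ⁻¹ * h : G) : G ⧸ V) = g ↔ (h : G ⧸ V) = ((γ * g : G) : G ⧸ V) := by
    rw [QuotientGroup.eq, QuotientGroup.eq]
    have e : (γ⁻¹ * h)⁻¹ * g = h⁻¹ * (γ * g) := by group
    rw [e]
  simp only [this]

/-- linear maps out of `T` are determined by their values on the delta functions -/
lemma hom_ext [Finite (G ⧸ V)] {M : Type u} [AddCommGroup M] [Module k M]
    {φ ψ : cTriv (k := k) V →ₗ[k] M} (h : ∀ g, φ (dlt V g) = ψ (dlt V g)) : φ = ψ := by
  classical
  let E := cRep.evalEquiv V (Rep.trivial k V k)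
  have h' : φ ∘ₗ E.symm.toLinearMap = ψ ∘ₗ E.symm.toLinearMap := by
    apply LinearMap.pi_ext'
    intro x
    apply LinearMap.ext_ring
    show φ (E.symm (Pi.single x 1)) = ψ (E.symm (Pi.single x 1))
    have := h x.out
    unfold dlt at this
    rw [QuotientGroup.out_eq'] at this
    convert this
  apply LinearMap.ext
  intro f
  have := congrArg (fun χ : (G ⧸ V → k) →ₗ[k] M => χ (E f)) h'
  simpa using this

variable (V) in
/-- the linear map `T → M` with prescribed values on the delta functions -/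
def ofVals [Fintype (G ⧸ V)] {M : Type u} [AddCommGroup M] [Module k M] (c : G ⧸ V → M) :
    cTriv (k := k) V →ₗ[k] M :=
  (Fintype.linearCombination k c) ∘ₗ (cRep.evalEquiv V (Rep.trivial k V k)).toLinearMap

lemma ofVals_dlt [Fintype (G ⧸ V)] {M : Type u} [AddCommGroup M] [Module k M] (c : G ⧸ V → M)
    (g : G) : ofVals V c (dlt (k := k) V g) = c (g : G ⧸ V) := by
  classical
  unfold ofVals dlt
  rw [LinearMap.comp_apply]
  show Fintype.linearCombination k c ((cRep.evalEquiv V (Rep.trivial k V k))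
    ((cRep.evalEquiv V (Rep.trivial k V k)).symm (Pi.single (g : G ⧸ V) 1))) = _
  rw [LinearEquiv.apply_symm_apply]
  convert Fintype.linearCombination_apply_single k c (g : G ⧸ V) (1 : k) using 1
  rw [one_smul]

lemma ofVals_apply [Fintype (G ⧸ V)] {M : Type u} [AddCommGroup M] [Module k M] (c : G ⧸ V → M)
    (f : cTriv (k := k) V) : ofVals V c f = ∑ x : G ⧸ V, fq f x • c x := by
  unfold ofVals
  rw [LinearMap.comp_apply, fq_eq_evalEquiv]
  rfl

/-! ### norm element, augmentation, products -/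

variable (V) in
/-- the norm element: the constant function `1` -/
def nrm : cTriv (k := k) V := ⟨fun _ => 1, fun _ _ => rfl⟩

lemma ρ_nrm (γ : G) : (cTriv V).ρ γ (nrm (k := k) V) = nrm V := rfl

variable (V) in
/-- the augmentation `T → k`, `f ↦ ∑_{x ∈ G/V} f x`, as a linear map -/
def augL [Fintype (G ⧸ V)] : cTriv (k := k) V →ₗ[k] k where
  toFun f := ∑ x : G ⧸ V, fq f x
  map_add' f f' := by
    rw [← Finset.sum_add_distrib]
    refine Finset.sum_congr rfl fun x _ => ?_
    induction x using QuotientGroup.induction_on with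
    | H g => rfl
  map_smul' c f := by
    rw [RingHom.id_apply, Finset.smul_sum]
    refine Finset.sum_congr rfl fun x _ => ?_
    induction x using QuotientGroup.induction_on with
    | H g => rfl

lemma augL_apply [Fintype (G ⧸ V)] (f : cTriv (k := k) V) : augL V f = ∑ x : G ⧸ V, fq f x := rfl

lemma augL_ρ [Fintype (G ⧸ V)] (γ : G) (f : cTriv (k := k) V) :
    augL V ((cTriv V).ρ γ f) = augL V f :=
  Fintype.sum_equiv (MulAction.toPerm γ⁻¹) _ _ (fun x => fq_ρ γ f x)

variable (V) in
/-- the augmentation as a morphism to the trivial representation -/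
def aug [Fintype (G ⧸ V)] : cTriv (k := k) V ⟶ Rep.trivial k G k :=
  Rep.ofHom
    { toLinearMap := augL V
      isIntertwining' := by
        intro γ
        apply LinearMap.ext
        intro f
        exact augL_ρ γ f }

lemma aug_apply [Fintype (G ⧸ V)] (f : cTriv (k := k) V) : (aug V).hom f = augL V f := rfl

lemma augL_dlt [Fintype (G ⧸ V)] (g : G) : augL V (dlt (k := k) V g) = 1 := by
  classical
  rw [augL_apply]
  have : ∀ x : G ⧸ V, fq (dlt (k := k) V g) x = if x = (g : G ⧸ V) then 1 else 0 := by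
    intro x
    induction x using QuotientGroup.induction_on with
    | H h =>
      rw [fq_mk, dlt_val]
  rw [Finset.sum_congr rfl (fun x _ => this x), Finset.sum_ite_eq' Finset.univ (g : G ⧸ V)]
  simp

lemma augL_nrm [Fintype (G ⧸ V)] : augL V (nrm (k := k) V) = (V.index : k) := by
  rw [augL_apply]
  have : ∀ x : G ⧸ V, fq (nrm (k := k) V) x = 1 := by
    intro x
    induction x using QuotientGroup.induction_on with
    | H h => rfl
  rw [Finset.sum_congr rfl (fun x _ => this x), Finset.sum_const, Finset.card_univ,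
    Subgroup.index_eq_card, Nat.card_eq_fintype_card, nsmul_eq_mul, mul_one]

/-- the pointwise product on `T` -/
def mul (f t : cTriv (k := k) V) : cTriv (k := k) V :=
  ⟨fun g => f.1 g * t.1 g, fun g v => by
    show f.1 (g * v) * t.1 (g * v) = f.1 g * t.1 g
    rw [apply_mul, apply_mul]⟩

@[simp] lemma mul_val (f t : cTriv (k := k) V) (g : G) : (mul f t).1 g = f.1 g * t.1 g := rfl

lemma ρ_mul (γ : G) (f t : cTriv (k := k) V) :
    (cTriv V).ρ γ (mul f t) = mul ((cTriv V).ρ γ f) ((cTriv V).ρ γ t) := rfl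

lemma nrm_mul (t : cTriv (k := k) V) : mul (nrm V) t = t := by
  apply cRep.ext
  intro g
  show (1 : k) * t.1 g = t.1 g
  rw [one_mul]

lemma dlt_one_mul (t : cTriv (k := k) V) : mul (dlt V 1) t = t.1 1 • dlt V 1 := by
  classical
  apply cRep.ext
  intro g
  show (dlt (k := k) V 1).1 g * t.1 g = t.1 1 * (dlt (k := k) V 1).1 g
  rw [dlt_val]
  by_cases h : (g : G ⧸ V) = ((1 : G) : G ⧸ V)
  · rw [if_pos h, apply_eq_of_mk_eq t h, one_mul, mul_one]
  · rw [if_neg h, zero_mul, mul_zero]

/-- multiplication by `t` as a linear map -/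
def mulRight (t : cTriv (k := k) V) : cTriv (k := k) V →ₗ[k] cTriv (k := k) V where
  toFun f := mul f t
  map_add' f f' := by
    apply cRep.ext
    intro g
    show (f.1 g + f'.1 g) * t.1 g = f.1 g * t.1 g + f'.1 g * t.1 g
    rw [add_mul]
  map_smul' c f := by
    apply cRep.ext
    intro g
    show (c * f.1 g) * t.1 g = c * (f.1 g * t.1 g)
    rw [mul_assoc]

@[simp] lemma mulRight_apply (t f : cTriv (k := k) V) : mulRight t f = mul f t := rfl

end cTriv

/-! ### The dual `J = Hom(T, C)` -/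

section dual

variable {V} (C : Rep.{u} k G)

/-- evaluation at the delta function of `V`, `Hom(T, C)|_V → C|_V` -/
def dualEv : Rep.res V.subtype (homRep (cTriv V) C) ⟶ Rep.res V.subtype C :=
  Rep.ofHom
    { toLinearMap :=
        { toFun := fun φ => (φ : cTriv V →ₗ[k] C) (cTriv.dlt V 1)
          map_add' := fun _ _ => rfl
          map_smul' := fun _ _ => rfl }
      isIntertwining' := by
        intro v
        apply LinearMap.ext
        intro φ
        show ((homRep (cTriv V) C).ρ (v : G) φ : cTriv V →ₗ[k] C) (cTriv.dlt V 1) =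
          C.ρ (v : G) ((φ : cTriv V →ₗ[k] C) (cTriv.dlt V 1))
        rw [homRep.ρ_apply, cTriv.ρ_dlt, mul_one,
          cTriv.dlt_eq_of_mk_eq (g := (v : G)⁻¹) (g' := 1)
            (QuotientGroup.eq.2 (by rw [inv_inv, mul_one]; exact v.2))] }

lemma dualEv_apply (φ : cTriv V →ₗ[k] C) :
    (dualEv C).hom (φ : Rep.res V.subtype (homRep (cTriv V) C)) = φ (cTriv.dlt V 1) := rfl

lemma dualEv_ρ (g : G) (φ : cTriv V →ₗ[k] C) :
    (dualEv C).hom ((homRep (cTriv V) C).ρ g (φ : homRep (cTriv V) C) :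
      Rep.res V.subtype (homRep (cTriv V) C)) = C.ρ g (φ (cTriv.dlt V g⁻¹)) := by
  rw [dualEv_apply, homRep.ρ_apply, cTriv.ρ_dlt, mul_one]

/-- `Hom(T, C)` is the smooth coinduction of `C|_V` -/
def dualSmCoind [Fintype (G ⧸ V)] (hC : IsSm 𝒰 C) (hT : IsSm 𝒰 (cTriv (k := k) V)) :
    SmCoind 𝒰 (fun _ : PUnit.{u + 1} => ↥V) (fun _ => V.subtype)
      (fun _ => Rep.res V.subtype C) (homRep (cTriv V) C) where
  ev := fun _ => dualEv C
  sm := homRep.isSm 𝒰 hT hC
  inj := by
    intro φ h
    apply cTriv.hom_ext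
    intro g
    have h1 := h PUnit.unit g⁻¹
    rw [dualEv_ρ, inv_inv] at h1
    have h2 := congrArg (C.ρ g) h1
    rw [← Module.End.mul_apply, ← map_mul, mul_inv_cancel, map_one, map_zero] at h2
    exact h2
  surj := by
    intro F hF _
    refine ⟨cTriv.ofVals V (fun x => C.ρ x.out (F PUnit.unit x.out⁻¹)), fun i g => ?_⟩
    rw [dualEv_ρ, cTriv.ofVals_dlt]
    have e : (g⁻¹ : G) = cRep.σ V g⁻¹ * (cRep.τ V g⁻¹ : G) := (cRep.σ_mul_τ g⁻¹).symm
    have e2 : (cRep.σ V g⁻¹)⁻¹ = (cRep.τ V g⁻¹ : G) * g :=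
      calc (cRep.σ V g⁻¹)⁻¹ = (cRep.σ V g⁻¹)⁻¹ * (g⁻¹ * g) := by group
        _ = (cRep.σ V g⁻¹)⁻¹ * (cRep.σ V g⁻¹ * (cRep.τ V g⁻¹ : G) * g) := by rw [← e]
        _ = (cRep.τ V g⁻¹ : G) * g := by group
    show C.ρ g (C.ρ (cRep.σ V g⁻¹) (F PUnit.unit (cRep.σ V g⁻¹)⁻¹)) = F i g
    rw [e2]
    have h3 := hF PUnit.unit (cRep.τ V g⁻¹) g
    have h4 : F PUnit.unit ((cRep.τ V g⁻¹ : G) * g) = C.ρ (cRep.τ V g⁻¹ : G) (F PUnit.unit g) := h3
    rw [h4, ← Module.End.mul_apply, ← Module.End.mul_apply, ← map_mul, ← map_mul, mul_assoc,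
      ← e, mul_inv_cancel, map_one]
    rfl

/-- the unit `η : C → Hom(T, C)`, `c ↦ (f ↦ aug f • c)` -/
def etaJ [Fintype (G ⧸ V)] : C ⟶ homRep (cTriv V) C :=
  Rep.ofHom
    { toLinearMap :=
        { toFun := fun c => ((cTriv.augL V).smulRight c : cTriv V →ₗ[k] C)
          map_add' := fun c c' => by
            apply LinearMap.ext
            intro f
            show cTriv.augL V f • (c + c') = cTriv.augL V f • c + cTriv.augL V f • c'
            rw [smul_add]
          map_smul' := fun a c => by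
            apply LinearMap.ext
            intro f
            show cTriv.augL V f • (a • c) = a • (cTriv.augL V f • c)
            rw [smul_comm] }
      isIntertwining' := by
        intro γ
        apply LinearMap.ext
        intro c
        apply LinearMap.ext
        intro f
        show cTriv.augL V f • C.ρ γ c =
          ((homRep (cTriv V) C).ρ γ ((cTriv.augL V).smulRight c : cTriv V →ₗ[k] C) :
            cTriv V →ₗ[k] C) f
        rw [homRep.ρ_apply]
        show _ = C.ρ γ (cTriv.augL V ((cTriv V).ρ γ⁻¹ f) • c)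
        rw [cTriv.augL_ρ, map_smul] }

lemma etaJ_apply [Fintype (G ⧸ V)] (c : C) (f : cTriv (k := k) V) :
    ((etaJ C).hom c : cTriv V →ₗ[k] C) f = cTriv.augL V f • c := rfl

lemma dualEv_etaJ [Fintype (G ⧸ V)] (c : C) :
    (dualEv C).hom ((etaJ (V := V) C).hom c : Rep.res V.subtype (homRep (cTriv V) C)) = c := by
  rw [dualEv_apply, etaJ_apply, cTriv.augL_dlt, one_smul]

/-- evaluation at the norm element, `Σ : Hom(T, C) → C` -/
def sigmaJ : homRep (cTriv (k := k) V) C ⟶ C :=
  evalHom (cTriv V) C (cTriv.nrm V) cTriv.ρ_nrm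

lemma sigmaJ_apply (φ : cTriv (k := k) V →ₗ[k] C) :
    (sigmaJ C).hom (φ : homRep (cTriv V) C) = φ (cTriv.nrm V) := rfl

lemma sigmaJ_etaJ [Fintype (G ⧸ V)] (c : C) :
    (sigmaJ (V := V) C).hom ((etaJ C).hom c) = V.index • c := by
  rw [sigmaJ_apply, etaJ_apply, cTriv.augL_nrm, Nat.cast_smul_eq_nsmul]

variable {C}

/-- the lift `b' : T → Hom(T, C)`, `t ↦ (f ↦ b (f t))`, of a morphism `b : T → C` -/
def liftJ (b : cTriv (k := k) V ⟶ C) : cTriv (k := k) V ⟶ homRep (cTriv V) C :=
  Rep.ofHom
    { toLinearMap :=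
        { toFun := fun t => (b.hom.toLinearMap ∘ₗ cTriv.mulRight t : cTriv V →ₗ[k] C)
          map_add' := fun t t' => by
            apply LinearMap.ext
            intro f
            show b.hom (cTriv.mul f (t + t')) = b.hom (cTriv.mul f t) + b.hom (cTriv.mul f t')
            rw [← map_add]
            congr 1
            apply cRep.ext
            intro g
            show f.1 g * (t.1 g + t'.1 g) = f.1 g * t.1 g + f.1 g * t'.1 g
            rw [mul_add]
          map_smul' := fun a t => by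
            apply LinearMap.ext
            intro f
            show b.hom (cTriv.mul f (a • t)) = a • b.hom (cTriv.mul f t)
            rw [← map_smul]
            congr 1
            apply cRep.ext
            intro g
            show f.1 g * (a * t.1 g) = a * (f.1 g * t.1 g)
            rw [mul_left_comm] }
      isIntertwining' := by
        intro γ
        apply LinearMap.ext
        intro t
        apply LinearMap.ext
        intro f
        show b.hom (cTriv.mul f ((cTriv V).ρ γ t)) =
          ((homRep (cTriv V) C).ρ γ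
            (b.hom.toLinearMap ∘ₗ cTriv.mulRight t : cTriv V →ₗ[k] C) : cTriv V →ₗ[k] C) f
        rw [homRep.ρ_apply]
        show _ = C.ρ γ (b.hom (cTriv.mul ((cTriv V).ρ γ⁻¹ f) t))
        rw [← Rep.hom_comm_apply, cTriv.ρ_mul, ← Module.End.mul_apply, ← map_mul,
          mul_inv_cancel, map_one]
        rfl }

lemma liftJ_apply (b : cTriv (k := k) V ⟶ C) (t f : cTriv (k := k) V) :
    ((liftJ b).hom t : cTriv V →ₗ[k] C) f = b.hom (cTriv.mul f t) := rfl

lemma sigmaJ_liftJ (b : cTriv (k := k) V ⟶ C) (t : cTriv (k := k) V) :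
    (sigmaJ C).hom ((liftJ b).hom t) = b.hom t := by
  rw [sigmaJ_apply, liftJ_apply, cTriv.nrm_mul]

lemma dualEv_liftJ (b : cTriv (k := k) V ⟶ C) (t : cTriv (k := k) V) :
    (dualEv C).hom ((liftJ b).hom t : Rep.res V.subtype (homRep (cTriv V) C)) =
      t.1 1 • b.hom (cTriv.dlt V 1) := by
  rw [dualEv_apply, liftJ_apply, cTriv.dlt_one_mul, map_smul]

end dual

end Fermat.Agent.S55lib.CFDual
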