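/-
S55 sprint, block (I) / K4 (helper8): the property `Good` of a two-term complex (`α¹`, `α²`
bijective and `Ext³ = 0`), acyclic pairs, invariance under surjections with acyclic kernel,
additivity, retracts, and `p · Ext = 0`.
-/
import Fermat.Agent.S55lib.CFDual.PairKit

set_option autoImplicit false
set_option linter.unusedSectionVars false

noncomputable section

namespace Fermat.Agent.S55lib.CFDual

universe u

open Csm Cpx CategoryTheory

/-! ### Abstract linear algebra -/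

section abstract

variable {k : Type u} [CommRing k] {T : Type u} [AddCommGroup T] [Module k T]

/-- transfer of bijectivity along isomorphisms on both sides -/
theorem bij_transfer {E F E' F' : Type u} [AddCommGroup E] [Module k E] [AddCommGroup F]
    [Module k F] [AddCommGroup E'] [Module k E'] [AddCommGroup F'] [Module k F']
    (A : E →ₗ[k] F →ₗ[k] T) (A' : E' →ₗ[k] F' →ₗ[k] T) (ε : E' →ₗ[k] E) (φ : F →ₗ[k] F')
    (hε : Function.Bijective ε) (hφ : Function.Bijective φ)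
    (hnat : ∀ e' y, A (ε e') y = A' e' (φ y)) :
    Function.Bijective A ↔ Function.Bijective A' := by
  constructor
  · rintro ⟨hi, hs⟩
    constructor
    · intro e₁ e₂ h
      apply hε.1
      apply hi
      apply LinearMap.ext
      intro y
      rw [hnat, hnat, h]
    · intro τ
      obtain ⟨e, he⟩ := hs (τ ∘ₗ φ)
      obtain ⟨e', rfl⟩ := hε.2 e
      refine ⟨e', ?_⟩
      apply LinearMap.ext
      intro y'
      obtain ⟨y, rfl⟩ := hφ.2 y'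
      rw [← hnat, he]
      rfl
  · rintro ⟨hi, hs⟩
    constructor
    · intro e₁ e₂ h
      obtain ⟨e₁', rfl⟩ := hε.2 e₁
      obtain ⟨e₂', rfl⟩ := hε.2 e₂
      congr 1
      apply hi
      apply LinearMap.ext
      intro y'
      obtain ⟨y, rfl⟩ := hφ.2 y'
      rw [← hnat, ← hnat, h]
    · intro τ
      let φe := LinearEquiv.ofBijective φ hφ
      obtain ⟨e', he'⟩ := hs (τ ∘ₗ φe.symm.toLinearMap)
      refine ⟨ε e', ?_⟩
      apply LinearMap.ext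
      intro y
      rw [hnat, he']
      show τ (φe.symm (φe y)) = τ y
      rw [LinearEquiv.symm_apply_apply]

/-- bijectivity for a biproduct -/
theorem bij_biprod {E F Ea Fa Eb Fb : Type u} [AddCommGroup E] [Module k E] [AddCommGroup F]
    [Module k F] [AddCommGroup Ea] [Module k Ea] [AddCommGroup Fa] [Module k Fa]
    [AddCommGroup Eb] [Module k Eb] [AddCommGroup Fb] [Module k Fb]
    (A : E →ₗ[k] F →ₗ[k] T) (Aa : Ea →ₗ[k] Fa →ₗ[k] T) (Ab : Eb →ₗ[k] Fb →ₗ[k] T)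
    (ia : E →ₗ[k] Ea) (qa : Ea →ₗ[k] E) (ib : E →ₗ[k] Eb) (qb : Eb →ₗ[k] E)
    (ja : Fa →ₗ[k] F) (pa : F →ₗ[k] Fa) (jb : Fb →ₗ[k] F) (pb : F →ₗ[k] Fb)
    (hE : ∀ e, qa (ia e) + qb (ib e) = e) (hF : ∀ y, ja (pa y) + jb (pb y) = y)
    (hia : ∀ e y, Aa (ia e) y = A e (ja y)) (hib : ∀ e y, Ab (ib e) y = A e (jb y))
    (hqa : ∀ e y, A (qa e) y = Aa e (pa y)) (hqb : ∀ e y, A (qb e) y = Ab e (pb y))
    (ha : Function.Bijective Aa) (hb : Function.Bijective Ab) : Function.Bijective A := by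
  constructor
  · rw [← LinearMap.ker_eq_bot, LinearMap.ker_eq_bot']
    intro e he
    have h1 : ia e = 0 := by
      apply ha.1
      apply LinearMap.ext
      intro y
      rw [hia, he, map_zero]
      rfl
    have h2 : ib e = 0 := by
      apply hb.1
      apply LinearMap.ext
      intro y
      rw [hib, he, map_zero]
      rfl
    rw [← hE e, h1, h2, map_zero, map_zero, add_zero]
  · intro τ
    obtain ⟨ea, hea⟩ := ha.2 (τ ∘ₗ ja)
    obtain ⟨eb, heb⟩ := hb.2 (τ ∘ₗ jb)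
    refine ⟨qa ea + qb eb, ?_⟩
    apply LinearMap.ext
    intro y
    rw [map_add, LinearMap.add_apply, hqa, hqb, hea, heb]
    show τ (ja (pa y)) + τ (jb (pb y)) = τ y
    rw [← map_add, hF]

end abstract

variable {k G : Type u} [CommRing k] [Group G] (𝒰 : OpenBasis G)

/-- the property we want: `α¹`, `α²` bijective and `Ext³ = 0` -/
def Good (C : Rep.{u} k G) {P0 P1 : Rep.{u} k G} (d : P1 ⟶ P0) : Prop :=
  Function.Bijective (alpha1 𝒰 d C) ∧ Function.Bijective (alpha2 𝒰 d C) ∧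
    ∀ x : ExtH 𝒰 d C 3, x = 0

/-- an acyclic two-term complex: all `Ext` and `F` groups vanish -/
def Acyc (C : Rep.{u} k G) {P0 P1 : Rep.{u} k G} (d : P1 ⟶ P0) : Prop :=
  (∀ n (x : ExtH 𝒰 d C n), x = 0) ∧ ∀ n (y : (FC 𝒰 d).H n), y = 0

/-- the identity two-term complex is acyclic -/
theorem acyc_id (C : Rep.{u} k G) (X : Rep.{u} k G) : Acyc 𝒰 C (𝟙 X) := by
  constructor
  · intro n x
    refine Fib.H_eq_zero_of_bijective _ (fun m => ?_) n x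
    have h : ∀ w, (Csm.map 𝒰 (homRep.mapL (𝟙 X) C)).mapH m w = w := by
      intro w
      obtain ⟨x, hx, rfl⟩ := (Csm 𝒰 (homRep X C)).exists_rep w
      rfl
    exact ⟨fun a b hab => by rw [← h a, ← h b, hab], fun a => ⟨a, h a⟩⟩
  · intro n y
    refine Fib.H_eq_zero_of_bijective _ (fun m => ?_) n y
    have h : ∀ w, (Csm.map 𝒰 (𝟙 X)).mapH m w = w := by
      intro w
      obtain ⟨x, hx, rfl⟩ := (Csm 𝒰 X).exists_rep w
      rfl
    exact ⟨fun a b hab => by rw [← h a, ← h b, hab], fun a => ⟨a, h a⟩⟩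

namespace TTSES

variable {P0' P1' P0 P1 P0'' P1'' : Rep.{u} k G} {d' : P1' ⟶ P0'} {d : P1 ⟶ P0}
  {d'' : P1'' ⟶ P0''} (S : TTSES d' d d'')

/-- the inclusion as a `PairHom` -/
def incl : PairHom d' d := ⟨S.a0, S.a1, S.ha⟩

/-- the projection as a `PairHom` -/
def proj : PairHom d d'' := ⟨S.b0, S.b1, S.hb⟩

variable [Module.Finite k P0] [Module.Finite k P1] [Module.Projective k P0'']
  [Module.Projective k P1''] (hP0 : IsSm 𝒰 P0) (hP1 : IsSm 𝒰 P1) {C : Rep.{u} k G}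
  (hC : IsSm 𝒰 C)

include hP0 hP1 hC in
/-- acyclic kernel ⇒ `E(proj)` is bijective -/
theorem E_proj_bijective (hac : Acyc 𝒰 C d') (n : ℕ) :
    Function.Bijective (S.proj.E 𝒰 C n) := by
  have SE := S.extSES 𝒰 hP0 hP1 hC
  constructor
  · rw [← LinearMap.ker_eq_bot, LinearMap.ker_eq_bot']
    intro e he
    cases n with
    | zero => exact SE.mapH_zero_injective (he.trans (map_zero _).symm)
    | succ n =>
      obtain ⟨h', rfl⟩ := (SE.exact_left n e).1 he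
      rw [hac.1 n h', map_zero]
  · intro e
    exact (SE.exact_mid n e).1 (hac.1 n _)

include hP0 hP1 in
/-- acyclic kernel ⇒ `F(proj)` is bijective -/
theorem F_proj_bijective (hac : Acyc 𝒰 C d') (n : ℕ) :
    Function.Bijective (S.proj.F 𝒰 n) := by
  have SF := S.fSES 𝒰 hP0 hP1
  constructor
  · rw [← LinearMap.ker_eq_bot, LinearMap.ker_eq_bot']
    intro y hy
    obtain ⟨h', rfl⟩ := (SF.exact_mid n y).1 hy
    rw [hac.2 n h', map_zero]
  · intro y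
    exact (SF.exact_right n y).1 (hac.2 (n + 1) _)

include S hP0 hP1 hC in
/-- acyclic kernel ⇒ `Good` transfers in both directions -/
theorem good_iff_of_acyc (hac : Acyc 𝒰 C d') : Good 𝒰 C d ↔ Good 𝒰 C d'' := by
  have h1 := bij_transfer (alpha1 𝒰 d C) (alpha1 𝒰 d'' C) (S.proj.E 𝒰 C 1) (S.proj.F 𝒰 2)
    (S.E_proj_bijective 𝒰 hP0 hP1 hC hac 1) (S.F_proj_bijective 𝒰 hP0 hP1 hac 2)
    (fun e y => S.proj.alpha1_E 𝒰 C e y)
  have h2 := bij_transfer (alpha2 𝒰 d C) (alpha2 𝒰 d'' C) (S.proj.E 𝒰 C 2) (S.proj.F 𝒰 1)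
    (S.E_proj_bijective 𝒰 hP0 hP1 hC hac 2) (S.F_proj_bijective 𝒰 hP0 hP1 hac 1)
    (fun e y => S.proj.alpha2_E 𝒰 C e y)
  have h3 : (∀ x : ExtH 𝒰 d C 3, x = 0) ↔ ∀ x : ExtH 𝒰 d'' C 3, x = 0 := by
    have hb := S.E_proj_bijective 𝒰 hP0 hP1 hC hac 3
    constructor
    · intro h x
      apply hb.1
      rw [h (S.proj.E 𝒰 C 3 x), map_zero]
    · intro h x
      obtain ⟨x', rfl⟩ := hb.2 x
      rw [h x', map_zero]
  unfold Good
  rw [h1, h2, h3]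

include S hP0 hP1 hC in
/-- acyclic kernel ⇒ vanishing of `Ext³` transfers -/
theorem ext3_iff_of_acyc (hac : Acyc 𝒰 C d') :
    (∀ x : ExtH 𝒰 d C 3, x = 0) ↔ ∀ x : ExtH 𝒰 d'' C 3, x = 0 := by
  have hb := S.E_proj_bijective 𝒰 hP0 hP1 hC hac 3
  constructor
  · intro h x
    apply hb.1
    rw [h (S.proj.E 𝒰 C 3 x), map_zero]
  · intro h x
    obtain ⟨x', rfl⟩ := hb.2 x
    rw [h x', map_zero]

end TTSES

/-! ### Biproducts -/

section biprod

variable {P0 P1 Pa0 Pa1 Pb0 Pb1 : Rep.{u} k G} {d : P1 ⟶ P0} {da : Pa1 ⟶ Pa0} {db : Pb1 ⟶ Pb0}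
  (C : Rep.{u} k G)

/-- `Good` for a biproduct of two-term complexes -/
theorem good_biprod (ia : PairHom da d) (qa : PairHom d da) (ib : PairHom db d) (qb : PairHom d db)
    (h0 : ∀ x, ia.a0.hom (qa.a0.hom x) + ib.a0.hom (qb.a0.hom x) = x)
    (h1 : ∀ x, ia.a1.hom (qa.a1.hom x) + ib.a1.hom (qb.a1.hom x) = x)
    (ha : Good 𝒰 C da) (hb : Good 𝒰 C db) : Good 𝒰 C d := by
  -- composite pair morphisms
  let fa : PairHom d d := ⟨qa.a0 ≫ ia.a0, qa.a1 ≫ ia.a1, fun x => by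
    show d.hom (ia.a1.hom (qa.a1.hom x)) = ia.a0.hom (qa.a0.hom (d.hom x))
    rw [ia.comm, qa.comm]⟩
  let fb : PairHom d d := ⟨qb.a0 ≫ ib.a0, qb.a1 ≫ ib.a1, fun x => by
    show d.hom (ib.a1.hom (qb.a1.hom x)) = ib.a0.hom (qb.a0.hom (d.hom x))
    rw [ib.comm, qb.comm]⟩
  let one : PairHom d d := ⟨𝟙 _, 𝟙 _, fun _ => rfl⟩
  have hE : ∀ n (e : ExtH 𝒰 d C n), qa.E 𝒰 C n (ia.E 𝒰 C n e) + qb.E 𝒰 C n (ib.E 𝒰 C n e) = e := by
    intro n e
    rw [← PairHom.E_comp 𝒰 C ia qa fa (fun _ => rfl) (fun _ => rfl),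
      ← PairHom.E_comp 𝒰 C ib qb fb (fun _ => rfl) (fun _ => rfl),
      ← PairHom.E_add 𝒰 C one fa fb (fun x => (h0 x).symm) (fun x => (h1 x).symm),
      PairHom.E_id 𝒰 C one (fun _ => rfl) (fun _ => rfl)]
  have hF : ∀ n (y : (FC 𝒰 d).H n), ia.F 𝒰 n (qa.F 𝒰 n y) + ib.F 𝒰 n (qb.F 𝒰 n y) = y := by
    intro n y
    rw [← PairHom.F_comp 𝒰 ia qa fa (fun _ => rfl) (fun _ => rfl),
      ← PairHom.F_comp 𝒰 ib qb fb (fun _ => rfl) (fun _ => rfl),
      ← PairHom.F_add 𝒰 one fa fb (fun x => (h0 x).symm) (fun x => (h1 x).symm),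
      PairHom.F_id 𝒰 one (fun _ => rfl) (fun _ => rfl)]
  refine ⟨?_, ?_, ?_⟩
  · exact bij_biprod (alpha1 𝒰 d C) (alpha1 𝒰 da C) (alpha1 𝒰 db C) (ia.E 𝒰 C 1) (qa.E 𝒰 C 1)
      (ib.E 𝒰 C 1) (qb.E 𝒰 C 1) (ia.F 𝒰 2) (qa.F 𝒰 2) (ib.F 𝒰 2) (qb.F 𝒰 2) (hE 1) (hF 2)
      (fun e y => ia.alpha1_E 𝒰 C e y) (fun e y => ib.alpha1_E 𝒰 C e y)
      (fun e y => qa.alpha1_E 𝒰 C e y) (fun e y => qb.alpha1_E 𝒰 C e y) ha.1 hb.1
  · exact bij_biprod (alpha2 𝒰 d C) (alpha2 𝒰 da C) (alpha2 𝒰 db C) (ia.E 𝒰 C 2) (qa.E 𝒰 C 2)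
      (ib.E 𝒰 C 2) (qb.E 𝒰 C 2) (ia.F 𝒰 1) (qa.F 𝒰 1) (ib.F 𝒰 1) (qb.F 𝒰 1) (hE 2) (hF 1)
      (fun e y => ia.alpha2_E 𝒰 C e y) (fun e y => ib.alpha2_E 𝒰 C e y)
      (fun e y => qa.alpha2_E 𝒰 C e y) (fun e y => qb.alpha2_E 𝒰 C e y) ha.2.1 hb.2.1
  · intro x
    rw [← hE 3 x, ha.2.2 (ia.E 𝒰 C 3 x), hb.2.2 (ib.E 𝒰 C 3 x), map_zero, map_zero, add_zero]

end biprod

/-! ### Retracts -/

section retract

variable {P0 P1 Q0 Q1 : Rep.{u} k G} {d : P1 ⟶ P0} {e : Q1 ⟶ Q0} (C : Rep.{u} k G)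

/-- if `s ∘ i = m` on `d`, `m` and `p` are coprime and `p` kills `Ext³(d)`, then `Ext³(e) = 0`
implies `Ext³(d) = 0` -/
theorem ext3_of_retract (i : PairHom d e) (s : PairHom e d) (m p : ℕ) (hmp : Nat.Coprime m p)
    (h0 : ∀ x, s.a0.hom (i.a0.hom x) = m • x) (h1 : ∀ x, s.a1.hom (i.a1.hom x) = m • x)
    (hp : ∀ x : ExtH 𝒰 d C 3, p • x = 0) (he : ∀ x : ExtH 𝒰 e C 3, x = 0)
    (x : ExtH 𝒰 d C 3) : x = 0 := by
  let f : PairHom d d := ⟨i.a0 ≫ s.a0, i.a1 ≫ s.a1, fun x => by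
    show d.hom (s.a1.hom (i.a1.hom x)) = s.a0.hom (i.a0.hom (d.hom x))
    rw [s.comm, i.comm]⟩
  have hm : m • x = 0 := by
    rw [← PairHom.E_nsmul 𝒰 C f m h0 h1 3 x,
      PairHom.E_comp 𝒰 C s i f (fun _ => rfl) (fun _ => rfl), he (s.E 𝒰 C 3 x), map_zero]
  -- Bezout
  have hb : (Nat.gcd m p : ℤ) = 1 := by exact_mod_cast hmp
  have := Nat.gcd_eq_gcd_ab m p
  have h1' : (1 : ℤ) • x = 0 := by
    rw [← hb, this, add_smul, mul_smul, mul_smul, natCast_zsmul, natCast_zsmul]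
    rw [smul_comm, hm, smul_zero, smul_comm, hp x, smul_zero, add_zero]
  rwa [one_smul] at h1'

end retract

end Fermat.Agent.S55lib.CFDual
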