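/-
S55 sprint, block (I) / K4 (helper8): multiplication by `p` kills the `Ext` and `F` groups of a
two-term complex whose cokernel is killed by `p`; the extension property of `p`-torsion groups.
-/
import Fermat.Agent.S55lib.CFDual.Good

set_option autoImplicit false
set_option linter.unusedSectionVars false
set_option linter.style.haveILetI false

noncomputable section

namespace Fermat.Agent.S55lib.CFDual

universe u

open Csm Cpx CategoryTheory

variable {k G : Type u} [CommRing k] [Group G] (𝒰 : OpenBasis G)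

/-- multiplication by a natural number on a representation -/
def nsmulHom (m : ℕ) (A : Rep.{u} k G) : A ⟶ A :=
  Rep.ofHom
    { toLinearMap := m • LinearMap.id
      isIntertwining' := by
        intro g
        apply LinearMap.ext
        intro x
        show m • (A.ρ g x) = A.ρ g (m • x)
        rw [map_nsmul] }

@[simp] lemma nsmulHom_apply (m : ℕ) (A : Rep.{u} k G) (x : A) : (nsmulHom m A).hom x = m • x :=
  rfl

section div

variable {P0 P1 : Rep.{u} k G} (d : P1 ⟶ P0) (hd : Function.Injective d.hom) (p : ℕ)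
  (hp : ∀ x : P0, ∃ y : P1, d.hom y = p • x)

/-- the map `d' : P0 ⟶ P1` with `d d' = p`, `d' d = p` -/
def divHom : P0 ⟶ P1 :=
  Rep.ofHom
    { toLinearMap :=
        { toFun := fun x => (hp x).choose
          map_add' := fun x y => hd (by
            rw [map_add, (hp _).choose_spec, (hp x).choose_spec, (hp y).choose_spec, smul_add])
          map_smul' := fun c x => hd (by
            rw [RingHom.id_apply, map_smul, (hp _).choose_spec, (hp x).choose_spec, smul_comm]) }
      isIntertwining' := by
        intro g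
        apply LinearMap.ext
        intro x
        apply hd
        show d.hom (hp (P0.ρ g x)).choose = d.hom (P1.ρ g (hp x).choose)
        rw [(hp _).choose_spec, Rep.hom_comm_apply, (hp x).choose_spec, map_nsmul] }

lemma d_divHom (x : P0) : d.hom ((divHom d hd p hp).hom x) = p • x := (hp x).choose_spec

lemma divHom_d (y : P1) : (divHom d hd p hp).hom (d.hom y) = p • y := by
  apply hd
  rw [d_divHom, map_nsmul]

include hd hp in
/-- `p` kills the `Ext` groups -/
theorem p_smul_ext_eq_zero (C : Rep.{u} k G) (n : ℕ) (e : ExtH 𝒰 d C n) : p • e = 0 := by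
  let f : PairHom d (𝟙 P0) := ⟨𝟙 P0, d, fun _ => rfl⟩
  let g : PairHom (𝟙 P0) d := ⟨nsmulHom p P0, divHom d hd p hp, fun x => d_divHom d hd p hp x⟩
  let pm : PairHom d d := ⟨nsmulHom p P0, nsmulHom p P1, fun x => by
    show d.hom (p • x) = p • d.hom x
    rw [map_nsmul]⟩
  rw [← PairHom.E_nsmul 𝒰 C pm p (fun _ => rfl) (fun _ => rfl) n e,
    PairHom.E_comp 𝒰 C g f pm (fun _ => rfl) (fun x => (divHom_d d hd p hp x).symm) n e,
    (acyc_id 𝒰 C P0).1 n (g.E 𝒰 C n e), map_zero]

include hd hp in
/-- `p` kills the `F` groups -/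
theorem p_smul_F_eq_zero (n : ℕ) (y : (FC 𝒰 d).H n) : p • y = 0 := by
  let f : PairHom d (𝟙 P0) := ⟨𝟙 P0, d, fun _ => rfl⟩
  let g : PairHom (𝟙 P0) d := ⟨nsmulHom p P0, divHom d hd p hp, fun x => d_divHom d hd p hp x⟩
  let pm : PairHom d d := ⟨nsmulHom p P0, nsmulHom p P1, fun x => by
    show d.hom (p • x) = p • d.hom x
    rw [map_nsmul]⟩
  rw [← PairHom.F_nsmul 𝒰 pm p (fun _ => rfl) (fun _ => rfl) n y,
    PairHom.F_comp 𝒰 g f pm (fun _ => rfl) (fun x => (divHom_d d hd p hp x).symm) n y,
    (acyc_id 𝒰 (P0 : Rep.{u} k G) P0).2 n (f.F 𝒰 n y), map_zero]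

end div

/-! ### The extension property -/

/-- additive maps out of subgroups of a group killed by `p` extend (to any target) -/
theorem extendsAlong_of_torsion {X Y T : Type} [AddCommGroup X] [AddCommGroup Y]
    [AddCommGroup T] [iX : Module ℤ X] [iY : Module ℤ Y] [iT : Module ℤ T] (p : ℕ)
    [Fact p.Prime] (hY : ∀ y : Y, p • y = 0) (f : X →ₗ[ℤ] Y) : ExtendsAlong f T := by
  obtain rfl := Subsingleton.elim iX (AddCommGroup.toIntModule X)
  obtain rfl := Subsingleton.elim iY (AddCommGroup.toIntModule Y)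
  obtain rfl := Subsingleton.elim iT (AddCommGroup.toIntModule T)
  intro τ hτ
  haveI : Module (ZMod p) Y := AddCommGroup.zmodModule hY
  let W : Submodule (ZMod p) Y := AddSubgroup.toZModSubmodule p f.toAddMonoidHom.range
  obtain ⟨W', hW'⟩ := Submodule.exists_isCompl W
  let π : Y →ₗ[ZMod p] W := Submodule.projectionOnto W W' hW'
  have hsurj : ∀ w : W, ∃ x, f x = w.1 := fun w => w.2
  choose s hs using hsurj
  have key : ∀ x₁ x₂, f x₁ = f x₂ → τ x₁ = τ x₂ := by
    intro x₁ x₂ h
    have := hτ (x₁ - x₂) (by rw [map_sub, h, sub_self])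
    rwa [map_sub, sub_eq_zero] at this
  let g : Y → T := fun y => τ (s (π y))
  have gadd : ∀ y y', g (y + y') = g y + g y' := by
    intro y y'
    show τ (s (π (y + y'))) = τ (s (π y)) + τ (s (π y'))
    rw [← map_add]
    apply key
    rw [map_add, hs, map_add f, hs, hs]
    rfl
  refine ⟨(AddMonoidHom.mk' g gadd).toIntLinearMap, fun x => ?_⟩
  show τ (s (π (f x))) = τ x
  apply key
  rw [hs]
  have hx : f x ∈ W := ⟨x, rfl⟩
  exact congrArg Subtype.val (Submodule.projectionOnto_apply_left hW' ⟨f x, hx⟩)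

/-- a group killed by `p` is an extension source for every target -/
theorem extTarget_of_torsion {Y T : Type} [AddCommGroup Y] [AddCommGroup T] [Module ℤ Y]
    [Module ℤ T] (p : ℕ) [Fact p.Prime] (hY : ∀ y : Y, p • y = 0) : ExtTarget ℤ T Y :=
  fun _ _ _ f => extendsAlong_of_torsion p hY f

end Fermat.Agent.S55lib.CFDual
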