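/-
S55 sprint, block (I) / K4 (helper8): the base case of K4, part 1.  For an open subgroup `V ≤ U₀`
and the standard pair `𝒮_V = [ℤ[G/V] →p ℤ[G/V]]`: the cohomology of `J = Hom(ℤ[G/V], C)` from the
class formation hypotheses via Shapiro's lemma, `Ext³(𝒮_V, C) = 0`, and `α²` is bijective.
-/
import Fermat.Agent.S55lib.CFDual.BaseKit
import Fermat.Agent.S55lib.CFDual.CoindDual
import Fermat.Agent.S55lib.CFDual.Torsion

set_option autoImplicit false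
set_option linter.unusedSectionVars false
set_option linter.style.haveILetI false

noncomputable section

namespace Fermat.Agent.S55lib.CFDual

open Csm Cpx CategoryTheory

variable {G : Type} [Group G] (𝒰 : OpenBasis G) (p : ℕ) [Fact p.Prime]

/-- the standard pair `ℤ[G/V] →p ℤ[G/V]` -/
abbrev stdPair (V : Subgroup G) : cTriv (k := ℤ) V ⟶ cTriv (k := ℤ) V :=
  cRep.map (nsmulHom p (Rep.trivial ℤ V ℤ))

lemma stdPair_apply (V : Subgroup G) (f : cTriv (k := ℤ) V) : (stdPair p V).hom f = p • f := rfl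

/-- the hypotheses of the base case -/
structure BaseData (U₀ : Subgroup G) (C : Rep.{0} ℤ G) (V : Subgroup G) : Prop where
  cf : CFData 𝒰 p U₀ C
  hC : IsSm 𝒰 C
  hV : 𝒰.IsOpen V
  hVU : V ≤ U₀

variable {𝒰 p} {U₀ : Subgroup G} {C : Rep.{0} ℤ G} {V : Subgroup G}

lemma isSm_cTriv (hV : 𝒰.IsOpen V) (M : Type) [AddCommGroup M] [Module ℤ M] :
    IsSm 𝒰 (cRep V (Rep.trivial ℤ V M)) := by
  obtain ⟨U, hU, hUV⟩ := hV
  exact cRep.isSm 𝒰 hU hUV (fun _ _ _ => rfl)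

lemma finite_quot_of_isOpen (hV : 𝒰.IsOpen V) : Finite (G ⧸ V) := by
  obtain ⟨U, hU, hUV⟩ := hV
  haveI := 𝒰.finiteIndex U hU
  haveI : V.FiniteIndex := Subgroup.finiteIndex_of_le hUV
  infer_instance

namespace BaseData

variable (hB : BaseData 𝒰 p U₀ C V) [Fintype (G ⧸ V)]

include hB

/-- `J = Hom(ℤ[G/V], C)` as a smooth coinduction of `C|_V` -/
def SJ : SmCoind 𝒰 (fun _ : PUnit.{1} => ↥V) (fun _ => V.subtype)
    (fun _ => Rep.res V.subtype C) (homRep (cTriv (k := ℤ) V) C) :=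
  dualSmCoind 𝒰 C hB.hC (isSm_cTriv hB.hV ℤ)

/-- the Shapiro map of `J` -/
def shJ : Cpx.Hom (Csm 𝒰 (homRep (cTriv (k := ℤ) V) C))
    (Csm (𝒰.comap V.subtype) (Rep.res V.subtype C)) :=
  hB.SJ.sh PUnit.unit

lemma FJ_mapH (n : ℕ) (w : Hsm 𝒰 (homRep (cTriv (k := ℤ) V) C) n) :
    (Csm.map 𝒰 (homRep.mapL (stdPair p V) C)).mapH n w = p • w := by
  exact Csm_mapH_eq_nsmul 𝒰 _ p (fun φ => mapL_eq_nsmul _ p (fun _ => rfl) φ) n w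

lemma FT_mapH (n : ℕ) (w : Hsm 𝒰 (cTriv (k := ℤ) V) n) :
    (Csm.map 𝒰 (stdPair p V)).mapH n w = p • w :=
  Csm_mapH_eq_nsmul 𝒰 _ p (fun _ => rfl) n w

/-! ### the cohomology of `J` -/

lemma HJ1_torsion_free (w : Hsm 𝒰 (homRep (cTriv (k := ℤ) V) C) 1) (hw : p • w = 0) : w = 0 :=
  hB.SJ.sh_H1_injective w (fun _ => hB.cf.cf1_inj V hB.hV hB.hVU _ (by
    rw [← map_nsmul, hw, map_zero]))

lemma HJ1_div (w : Hsm 𝒰 (homRep (cTriv (k := ℤ) V) C) 1) :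
    ∃ y : Hsm 𝒰 (homRep (cTriv (k := ℤ) V) C) 1, p • y = w := by
  obtain ⟨y', hy'⟩ := hB.cf.cf1_div V hB.hV hB.hVU (hB.shJ.mapH 1 w)
  obtain ⟨y, hy⟩ := hB.SJ.sh_H1_surjective (fun _ => y')
  refine ⟨y, ?_⟩
  have : p • y - w = 0 := hB.SJ.sh_H1_injective _ (fun i => by
    rw [map_sub, map_nsmul, hy i, hy']
    exact sub_self _)
  exact sub_eq_zero.1 this

lemma HJ3_torsion_free (w : Hsm 𝒰 (homRep (cTriv (k := ℤ) V) C) 3) (hw : p • w = 0) : w = 0 :=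
  hB.SJ.sh_H3_injective w (fun _ => hB.cf.cf3 V hB.hV hB.hVU _ (by
    rw [← map_nsmul, hw, map_zero]))

/-- `sh ∘ η_* = res` -/
lemma shJ_eta (n : ℕ) (x : Hsm 𝒰 C n) :
    hB.shJ.mapH n ((Csm.map 𝒰 (etaJ (V := V) C)).mapH n x) = (resHom 𝒰 V C).mapH n x :=
  hB.SJ.sh_unit PUnit.unit (etaJ C) (𝟙 _) (fun c => dualEv_etaJ C c) n x

/-- `Σ_* ∘ η_* = [G : V]` -/
lemma sigma_eta (n : ℕ) (x : Hsm 𝒰 C n) :
    (Csm.map 𝒰 (sigmaJ (V := V) C)).mapH n ((Csm.map 𝒰 (etaJ (V := V) C)).mapH n x) =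
      V.index • x := by
  rw [Csm_mapH_comp_pointwise 𝒰 (etaJ C) (sigmaJ C) (nsmulHom V.index C)
    (fun c => sigmaJ_etaJ C c) n x]
  exact Csm_mapH_eq_nsmul 𝒰 _ V.index (fun _ => rfl) n x

/-- every `p`-primary class of `H²(G, J)` comes from a `p`-primary class of `H²(G, C)` -/
lemma HJ2_eq_eta (w : Hsm 𝒰 (homRep (cTriv (k := ℤ) V) C) 2) (hw : ∃ m : ℕ, p ^ m • w = 0) :
    ∃ x : Hsm 𝒰 C 2, (∃ m : ℕ, p ^ m • x = 0) ∧ (Csm.map 𝒰 (etaJ (V := V) C)).mapH 2 x = w := by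
  obtain ⟨m, hm⟩ := hw
  obtain ⟨x, hx, hres⟩ := hB.cf.cf2_surj V hB.hV hB.hVU (hB.shJ.mapH 2 w) ⟨m, by
    rw [← map_nsmul, hm, map_zero]⟩
  refine ⟨x, hx, ?_⟩
  have : (Csm.map 𝒰 (etaJ (V := V) C)).mapH 2 x - w = 0 := hB.SJ.sh_H2_injective _ (fun _ => by
    rw [map_sub]
    exact sub_eq_zero.2 ((hB.shJ_eta 2 x).trans hres))
  exact sub_eq_zero.1 this

/-- `Σ_*` is injective on the `p`-torsion of `H²(G, J)` -/
lemma sigma_inj (w : Hsm 𝒰 (homRep (cTriv (k := ℤ) V) C) 2) (hw : p • w = 0)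
    (h : (Csm.map 𝒰 (sigmaJ (V := V) C)).mapH 2 w = 0) : w = 0 := by
  obtain ⟨x, hx, rfl⟩ := hB.HJ2_eq_eta w ⟨1, by rw [pow_one]; exact hw⟩
  rw [hB.sigma_eta] at h
  have hres := hB.cf.cf2_res V hB.hV hB.hVU x hx h
  have : (Csm.map 𝒰 (etaJ (V := V) C)).mapH 2 x = 0 := hB.SJ.sh_H2_injective _ (fun _ =>
    (hB.shJ_eta 2 x).trans hres)
  exact this

/-- `Σ_*` maps the `p`-torsion of `H²(G, J)` onto the `p`-torsion of `H²(G, C)` -/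
lemma sigma_surj (z : Hsm 𝒰 C 2) (hz : p • z = 0) :
    ∃ w : Hsm 𝒰 (homRep (cTriv (k := ℤ) V) C) 2, p • w = 0 ∧
      (Csm.map 𝒰 (sigmaJ (V := V) C)).mapH 2 w = z := by
  haveI : V.FiniteIndex := Subgroup.finiteIndex_of_finite_quotient
  have hidx : V.index ≠ 0 := Subgroup.FiniteIndex.index_ne_zero
  obtain ⟨x, hx, hxz⟩ := exists_nsmul_eq_of_pdiv p hB.cf.cf2_div V.index hidx z
    ⟨1, by rw [pow_one]; exact hz⟩
  refine ⟨(Csm.map 𝒰 (etaJ (V := V) C)).mapH 2 x, ?_, ?_⟩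
  · rw [← map_nsmul]
    refine hB.SJ.sh_H2_injective _ (fun _ => (hB.shJ_eta 2 (p • x)).trans ?_)
    obtain ⟨m, hm⟩ := hx
    refine hB.cf.cf2_res V hB.hV hB.hVU (p • x) ⟨m, by rw [smul_comm, hm, smul_zero]⟩ ?_
    rw [smul_comm, hxz, hz]
  · rw [hB.sigma_eta, hxz]

/-- `H²(G, J)` is `p`-divisible -/
lemma HJ2_div (w : Hsm 𝒰 (homRep (cTriv (k := ℤ) V) C) 2) :
    ∃ y : Hsm 𝒰 (homRep (cTriv (k := ℤ) V) C) 2, p • y = w := by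
  obtain ⟨n, hn, hnw⟩ := Hsm_two_torsion 𝒰 _ w
  refine pdiv_of_torsion p (fun w' hw' => ?_) w n hn.ne' hnw
  obtain ⟨x, -, rfl⟩ := hB.HJ2_eq_eta w' hw'
  obtain ⟨x', rfl⟩ := hB.cf.cf2_div x
  exact ⟨(Csm.map 𝒰 (etaJ (V := V) C)).mapH 2 x', (map_nsmul _ _ _).symm⟩

/-! ### `Ext³ = 0` -/

/-- `Ext³(𝒮_V, C) = 0` -/
theorem ext3_std (x : ExtH 𝒰 (stdPair p V) C 3) : x = 0 :=
  fibP_H_succ_eq_zero _ p hB.FJ_mapH 2 hB.HJ2_div hB.HJ3_torsion_free x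

end BaseData

end Fermat.Agent.S55lib.CFDual
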