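/-
S55 sprint, block (I) / K4 (helper8): coinduction of two-term complexes; the two induction steps
(extension by the standard pair, and split extension by the standard pair) at the level of the
subgroup.
-/
import Fermat.Agent.S55lib.CFDual.Coind
import Fermat.Agent.S55lib.CFDual.Torsion

set_option autoImplicit false
set_option linter.unusedSectionVars false

noncomputable section

namespace Fermat.Agent.S55lib.CFDual

universe u

open Csm Cpx CategoryTheory

variable {k G : Type u} [CommRing k] [Group G] (V : Subgroup G)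

/-- coinduction of a morphism of two-term complexes -/
def PairHom.coind {D0' D1' D0 D1 : Rep.{u} k V} {D' : D1' ⟶ D0'} {D : D1 ⟶ D0}
    (f : PairHom D' D) : PairHom (cRep.map D') (cRep.map D) where
  a0 := cRep.map f.a0
  a1 := cRep.map f.a1
  comm := by
    intro x
    apply cRep.ext
    intro g
    exact f.comm _

/-- coinduction of a short exact sequence of two-term complexes -/
def TTSES.coind {D0' D1' D0 D1 D0'' D1'' : Rep.{u} k V} {D' : D1' ⟶ D0'} {D : D1 ⟶ D0}
    {D'' : D1'' ⟶ D0''} (S : TTSES D' D D'') :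
    TTSES (cRep.map D') (cRep.map D) (cRep.map D'') where
  a0 := cRep.map S.a0
  a1 := cRep.map S.a1
  b0 := cRep.map S.b0
  b1 := cRep.map S.b1
  ha := by
    intro x
    apply cRep.ext
    intro g
    exact S.ha _
  hb := by
    intro x
    apply cRep.ext
    intro g
    exact S.hb _
  ha0 := cRep.map_injective _ S.ha0
  hb0 := cRep.map_surjective _ S.hb0
  hex0 := cRep.map_exact _ _ S.ha0 S.hex0
  ha1 := cRep.map_injective _ S.ha1
  hb1 := cRep.map_surjective _ S.hb1
  hex1 := cRep.map_exact _ _ S.ha1 S.hex1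

/-! ### The extension step -/

section step

variable {V} (p : ℕ) (hp0 : ∀ m : k, p • m = 0 → m = 0)
  {F : Type u} [AddCommGroup F] [Module k F] (red : k →ₗ[k] F)
  (hred : Function.Surjective red) (hker : ∀ n : k, red n = 0 ↔ ∃ m : k, p • m = n)
  {D0 D1 : Rep.{u} k V} (D : D1 ⟶ D0)
  (lam : D0 ⟶ Rep.trivial k V F) (hlam : Function.Surjective lam.hom)
  (hlamD : ∀ y, lam.hom (D.hom y) = 0)

/-- reduction as a morphism of trivial representations -/
def redHom (V : Subgroup G) {F : Type u} [AddCommGroup F] [Module k F] (red : k →ₗ[k] F) :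
    Rep.trivial k V k ⟶ Rep.trivial k V F :=
  Rep.ofHom { toLinearMap := red
              isIntertwining' := fun _ => rfl }

/-- the smaller two-term complex `D1 → ker λ` -/
def stepSub : D1 ⟶ kerRep lam := kerRep.lift lam D hlamD

/-- the map `k × D0 → F`, `(n, x) ↦ red n + λ x` -/
def stepPsi : prodRep (Rep.trivial k V k) D0 ⟶ Rep.trivial k V F :=
  prodRep.desc (redHom V red) lam

include hker hlamD in
lemma stepPsi_aux (x : prodRep (Rep.trivial k V k) D1) :
    (stepPsi red lam).hom
      ((prodRep.lift (prodRep.fst _ _ ≫ nsmulHom p (Rep.trivial k V k))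
        (prodRep.snd _ _ ≫ D)).hom x) = 0 := by
  show red (p • x.1) + lam.hom (D.hom x.2) = 0
  rw [hlamD, add_zero]
  exact (hker _).2 ⟨x.1, rfl⟩

/-- the roof: `k × D1 → {(n, x) ∈ k × D0 | red n + λ x = 0}`, `(n, y) ↦ (p n, D y)` -/
def stepRoof : prodRep (Rep.trivial k V k) D1 ⟶ kerRep (stepPsi red lam) :=
  kerRep.lift (stepPsi red lam)
    (prodRep.lift (prodRep.fst _ _ ≫ nsmulHom p (Rep.trivial k V k)) (prodRep.snd _ _ ≫ D))
    (stepPsi_aux p red hker D lam hlamD)

lemma stepRoof_val (x : prodRep (Rep.trivial k V k) D1) :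
    ((stepRoof p red hker D lam hlamD).hom x).1 = ((p • x.1, D.hom x.2) : k × D0) := rfl

include hker in
/-- `0 → [k = k] → roof → D → 0` -/
def stepS2 : TTSES (𝟙 (Rep.trivial k V k)) (stepRoof p red hker D lam hlamD) D where
  a0 := kerRep.lift (stepPsi red lam)
    (prodRep.lift (nsmulHom p (Rep.trivial k V k)) 0) (by
      intro n
      show red (p • n) + lam.hom 0 = 0
      rw [map_zero, add_zero]
      exact (hker _).2 ⟨n, rfl⟩)
  a1 := prodRep.inl _ _
  b0 := kerRep.incl _ ≫ prodRep.snd _ _
  b1 := prodRep.snd _ _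
  ha := by
    intro n
    apply Subtype.ext
    show ((p • n, D.hom 0) : k × D0) = (p • n, 0)
    rw [map_zero]
  hb := fun _ => rfl
  ha0 := by
    intro n n' h
    have h1 : p • n = p • n' := congrArg (fun z : kerRep (stepPsi red lam) => z.1.1) h
    have h2 : p • (n - n') = 0 := by rw [smul_sub, h1, sub_self]
    exact sub_eq_zero.1 (hp0 _ h2)
  hb0 := by
    intro x
    obtain ⟨n, hn⟩ := hred (-(lam.hom x))
    refine ⟨⟨(n, x), ?_⟩, rfl⟩
    show red n + lam.hom x = 0
    rw [hn, neg_add_cancel]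
  hex0 := by
    rintro ⟨⟨n, x⟩, hx⟩
    constructor
    · intro h
      have hx0 : x = 0 := h
      subst hx0
      have hn : red n = 0 := by
        have : red n + lam.hom 0 = 0 := hx
        rwa [map_zero, add_zero] at this
      obtain ⟨m, hm⟩ := (hker n).1 hn
      refine ⟨m, ?_⟩
      apply Subtype.ext
      show ((p • m, (0 : D0)) : k × D0) = (n, 0)
      rw [hm]
    · rintro ⟨m, hm⟩
      have := congrArg (fun z : kerRep (stepPsi red lam) => z.1.2) hm
      exact this.symm
  ha1 := fun n n' h => congrArg Prod.fst h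
  hb1 := fun y => ⟨(0, y), rfl⟩
  hex1 := by
    rintro ⟨n, y⟩
    constructor
    · intro h
      have hy : y = 0 := h
      subst hy
      exact ⟨n, rfl⟩
    · rintro ⟨m, hm⟩
      have := congrArg Prod.snd hm
      exact this.symm

include hlam in
/-- `0 → (D1 → ker λ) → roof → [k →p k] → 0` -/
def stepS1 : TTSES (stepSub D lam hlamD) (stepRoof p red hker D lam hlamD)
    (nsmulHom p (Rep.trivial k V k)) where
  a0 := kerRep.lift (stepPsi red lam) (kerRep.incl lam ≫ prodRep.inr _ _) (by
      intro x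
      show red 0 + lam.hom x.1 = 0
      rw [map_zero, zero_add]
      exact x.2)
  a1 := prodRep.inr _ _
  b0 := kerRep.incl _ ≫ prodRep.fst _ _
  b1 := prodRep.fst _ _
  ha := by
    intro y
    apply Subtype.ext
    show ((p • (0 : k), D.hom y) : k × D0) = (0, D.hom y)
    rw [smul_zero]
  hb := fun _ => rfl
  ha0 := by
    intro x x' h
    apply Subtype.ext
    exact congrArg (fun z : kerRep (stepPsi red lam) => z.1.2) h
  hb0 := by
    intro n
    obtain ⟨x, hx⟩ := hlam (-(red n))
    refine ⟨⟨(n, x), ?_⟩, rfl⟩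
    show red n + lam.hom x = 0
    rw [hx, add_neg_cancel]
  hex0 := by
    rintro ⟨⟨n, x⟩, hx⟩
    constructor
    · intro h
      have hn : n = 0 := h
      subst hn
      have hx' : lam.hom x = 0 := by
        have : red 0 + lam.hom x = 0 := hx
        rwa [map_zero, zero_add] at this
      exact ⟨⟨x, hx'⟩, rfl⟩
    · rintro ⟨m, hm⟩
      have := congrArg (fun z : kerRep (stepPsi red lam) => z.1.1) hm
      exact this.symm
  ha1 := fun y y' h => congrArg Prod.snd h
  hb1 := fun n => ⟨(n, 0), rfl⟩
  hex1 := by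
    rintro ⟨n, y⟩
    constructor
    · intro h
      have hn : n = 0 := h
      subst hn
      exact ⟨y, rfl⟩
    · rintro ⟨m, hm⟩
      have := congrArg Prod.fst hm
      exact this.symm

end step

/-! ### The split step -/

/-- the map `k → A`, `n ↦ n • a`, for an invariant element `a` -/
def spanHom {H : Type u} [Group H] (A : Rep.{u} k H) (a : A) (ha : ∀ h, A.ρ h a = a) :
    Rep.trivial k H k ⟶ A :=
  Rep.ofHom
    { toLinearMap := LinearMap.toSpanSingleton k A a
      isIntertwining' := by
        intro h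
        apply LinearMap.ext
        intro n
        show n • a = A.ρ h (n • a)
        rw [map_smul, ha] }

@[simp] lemma spanHom_apply {H : Type u} [Group H] (A : Rep.{u} k H) (a : A)
    (ha : ∀ h, A.ρ h a = a) (n : k) : (spanHom A a ha).hom n = n • a := rfl

/-- the direct sum of two two-term complexes -/
def prodPair {H : Type u} [Group H] {Pa0 Pa1 Pb0 Pb1 : Rep.{u} k H} (da : Pa1 ⟶ Pa0)
    (db : Pb1 ⟶ Pb0) : prodRep Pa1 Pb1 ⟶ prodRep Pa0 Pb0 :=
  prodRep.lift (prodRep.fst _ _ ≫ da) (prodRep.snd _ _ ≫ db)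

@[simp] lemma prodPair_apply {H : Type u} [Group H] {Pa0 Pa1 Pb0 Pb1 : Rep.{u} k H}
    (da : Pa1 ⟶ Pa0) (db : Pb1 ⟶ Pb0) (x : prodRep Pa1 Pb1) :
    (prodPair da db).hom x = ((da.hom x.1, db.hom x.2) : Pa0 × Pb0) := rfl

section split

variable {V} (p : ℕ) (hp0 : ∀ m : k, p • m = 0 → m = 0)
  {F : Type u} [AddCommGroup F] [Module k F] (red : k →ₗ[k] F)
  (hred : Function.Surjective red) (hker : ∀ n : k, red n = 0 ↔ ∃ m : k, p • m = n)
  {D0 D1 : Rep.{u} k V} (D : D1 ⟶ D0)
  (htriv0 : ∀ v (b : D0), D0.ρ v b = b) (htriv1 : ∀ v (b : D1), D1.ρ v b = b)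
  (lam : D0 ⟶ Rep.trivial k V F) (hlamD : ∀ y, lam.hom (D.hom y) = 0)
  (t : D0) (ht : lam.hom t = red 1) (s : D1) (hs : D.hom s = p • t)

include hker ht in
lemma lam_p_smul_t : lam.hom (p • t) = 0 := by
  rw [map_nsmul, ht, ← map_nsmul]
  exact (hker _).2 ⟨1, rfl⟩

include hker ht in
/-- `0 → [k = k] → (D1 → ker λ) ⊕ [k →p k] → D → 0` -/
def splitS : TTSES (𝟙 (Rep.trivial k V k))
    (prodPair (stepSub D lam hlamD) (nsmulHom p (Rep.trivial k V k))) D where
  a0 := prodRep.lift
    (kerRep.lift lam (spanHom D0 (-(p • t)) (fun v => htriv0 v _)) (by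
      intro m
      show lam.hom (m • -(p • t)) = 0
      rw [map_smul, map_neg, lam_p_smul_t p red hker lam t ht, neg_zero, smul_zero]))
    (nsmulHom p (Rep.trivial k V k))
  a1 := prodRep.lift (spanHom D1 (-s) (fun v => htriv1 v _)) (𝟙 _)
  b0 := prodRep.desc (kerRep.incl lam) (spanHom D0 t (fun v => htriv0 v _))
  b1 := prodRep.desc (𝟙 D1) (spanHom D1 s (fun v => htriv1 v _))
  ha := by
    intro n
    refine Prod.ext (Subtype.ext ?_) rfl
    show D.hom (n • -s) = n • -(p • t)
    rw [map_smul, map_neg, hs]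
  hb := by
    rintro ⟨y, n⟩
    show D.hom (y + n • s) = D.hom y + (p • n) • t
    rw [map_add, map_smul, hs, smul_assoc, smul_comm]
  ha0 := by
    intro n n' h
    have h1 : p • n = p • n' := congrArg Prod.snd h
    have h2 : p • (n - n') = 0 := by rw [smul_sub, h1, sub_self]
    exact sub_eq_zero.1 (hp0 _ h2)
  hb0 := by
    intro x
    obtain ⟨n, hn⟩ := hred (lam.hom x)
    refine ⟨(⟨x - n • t, ?_⟩, n), ?_⟩
    · show lam.hom (x - n • t) = 0
      rw [map_sub, map_smul, ht, ← hn, ← map_smul, smul_eq_mul, mul_one, sub_self]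
    · show x - n • t + n • t = x
      rw [sub_add_cancel]
  hex0 := by
    rintro ⟨l, n⟩
    constructor
    · intro h
      have h0 : l.1 + n • t = 0 := h
      have hn : red n = 0 := by
        have := congrArg lam.hom h0
        rw [map_add, map_smul, ht, map_zero, show lam.hom l.1 = 0 from l.2, zero_add,
          ← map_smul, smul_eq_mul, mul_one] at this
        exact this
      obtain ⟨m, hm⟩ := (hker n).1 hn
      refine ⟨m, Prod.ext (Subtype.ext ?_) hm⟩
      show m • -(p • t) = l.1
      rw [eq_neg_of_add_eq_zero_left h0, ← hm, smul_assoc, smul_neg, smul_comm]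
    · rintro ⟨m, hm⟩
      have h1 : m • -(p • t) = l.1 := congrArg (fun z : kerRep lam × k => z.1.1) hm
      have h2 : p • m = n := congrArg Prod.snd hm
      show l.1 + n • t = 0
      rw [← h1, ← h2, smul_assoc, smul_neg, smul_comm, neg_add_cancel]
  ha1 := fun n n' h => congrArg Prod.snd h
  hb1 := fun y => ⟨(y, 0), by
    show y + (0 : k) • s = y
    rw [zero_smul, add_zero]⟩
  hex1 := by
    rintro ⟨y, n⟩
    constructor
    · intro h
      have h0 : y + n • s = 0 := h
      refine ⟨n, Prod.ext ?_ rfl⟩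
      show n • -s = y
      rw [eq_neg_of_add_eq_zero_left h0, smul_neg]
    · rintro ⟨m, hm⟩
      have h1 : m • -s = y := congrArg Prod.fst hm
      have h2 : m = n := congrArg Prod.snd hm
      show y + n • s = 0
      rw [← h1, ← h2, smul_neg, neg_add_cancel]

end split

end Fermat.Agent.S55lib.CFDual
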