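/-
S55 sprint, block (I) / K4 (helper8): the two induction steps after coinduction to `G`:
`Ext³` vanishing is inherited along the extension step, and `Good` along the split step.
-/
import Fermat.Agent.S55lib.CFDual.CoindPair

set_option autoImplicit false
set_option linter.unusedSectionVars false

noncomputable section

namespace Fermat.Agent.S55lib.CFDual

universe u

open Csm Cpx CategoryTheory

variable {k G : Type u} [CommRing k] [Group G] (𝒰 : OpenBasis G)

/-- a two-term complex whose differential is pointwise the identity is acyclic -/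
theorem acyc_of_hom_eq_id (C : Rep.{u} k G) {X : Rep.{u} k G} (d : X ⟶ X)
    (h : ∀ x, d.hom x = x) : Acyc 𝒰 C d := by
  constructor
  · intro n x
    refine Fib.H_eq_zero_of_bijective _ (fun m => ?_) n x
    have h' : ∀ w, (Csm.map 𝒰 (homRep.mapL d C)).mapH m w = w := by
      intro w
      obtain ⟨x, hx, rfl⟩ := (Csm 𝒰 (homRep X C)).exists_rep w
      rw [Cpx.Hom.mapH_cl]
      refine Cpx.cl_congr _ ?_ _
      apply Subtype.ext
      funext g
      apply LinearMap.ext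
      intro y
      show (x.1 g : X →ₗ[k] C) (d.hom y) = (x.1 g : X →ₗ[k] C) y
      rw [h]
    exact ⟨fun a b hab => by rw [← h' a, ← h' b, hab], fun a => ⟨a, h' a⟩⟩
  · intro n y
    refine Fib.H_eq_zero_of_bijective _ (fun m => ?_) n y
    have h' : ∀ w, (Csm.map 𝒰 d).mapH m w = w := by
      intro w
      obtain ⟨x, hx, rfl⟩ := (Csm 𝒰 X).exists_rep w
      rw [Cpx.Hom.mapH_cl]
      refine Cpx.cl_congr _ ?_ _
      apply Subtype.ext
      funext g
      exact h _
    exact ⟨fun a b hab => by rw [← h' a, ← h' b, hab], fun a => ⟨a, h' a⟩⟩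

instance instFiniteTrivialSelf (H : Type u) [Group H] : Module.Finite k (Rep.trivial k H k) :=
  inferInstanceAs (Module.Finite k k)

instance instFreeTrivialSelf (H : Type u) [Group H] : Module.Free k (Rep.trivial k H k) :=
  inferInstanceAs (Module.Free k k)

section

variable (V : Subgroup G) [Finite (G ⧸ V)] [IsDomain k] [IsPrincipalIdealRing k]
  {U : Subgroup G} (hU : U ∈ 𝒰.sets) (hUV : U ≤ V)
  (p : ℕ) (hp0 : ∀ m : k, p • m = 0 → m = 0)
  {F : Type u} [AddCommGroup F] [Module k F] (red : k →ₗ[k] F)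
  (hred : Function.Surjective red) (hker : ∀ n : k, red n = 0 ↔ ∃ m : k, p • m = n)
  {D0 D1 : Rep.{u} k V} [Module.Finite k D0] [Module.Free k D0] [Module.Finite k D1]
  [Module.Free k D1] (D : D1 ⟶ D0)
  (ht0 : ∀ v : V, v.1 ∈ U → ∀ b : D0, D0.ρ v b = b)
  (ht1 : ∀ v : V, v.1 ∈ U → ∀ b : D1, D1.ρ v b = b)
  (lam : D0 ⟶ Rep.trivial k V F) (hlam : Function.Surjective lam.hom)
  (hlamD : ∀ y, lam.hom (D.hom y) = 0) {C : Rep.{u} k G} (hC : IsSm 𝒰 C)

include hU hUV hp0 hred hker ht0 ht1 hlam hC in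
/-- **extension step**: `Ext³` vanishes for `c(D)` if it does for `c(D1 → ker λ)` and for the
standard pair -/
theorem ext3_step
    (h1 : ∀ x : ExtH 𝒰 (cRep.map (stepSub D lam hlamD)) C 3, x = 0)
    (h2 : ∀ x : ExtH 𝒰 (cRep.map (nsmulHom p (Rep.trivial k V k))) C 3, x = 0)
    (x : ExtH 𝒰 (cRep.map D) C 3) : x = 0 := by
  have hR0 : IsSm 𝒰 (cRep V (kerRep (stepPsi red lam))) :=
    cRep.isSm 𝒰 hU hUV (fun v hv b => Subtype.ext (Prod.ext rfl (ht0 v hv b.1.2)))
  have hR1 : IsSm 𝒰 (cRep V (prodRep (Rep.trivial k V k) D1)) :=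
    cRep.isSm 𝒰 hU hUV (fun v hv b => Prod.ext rfl (ht1 v hv b.2))
  have S1 := (stepS1 p red hker D lam hlam hlamD).coind V
  have S2 := (stepS2 p hp0 red hred hker D lam hlamD).coind V
  have hroof := S1.ext3_eq_zero 𝒰 hR0 hR1 hC h2 h1
  have hac : Acyc 𝒰 C (cRep.map (𝟙 (Rep.trivial k V k))) :=
    acyc_of_hom_eq_id 𝒰 C _ (fun _ => rfl)
  exact (S2.ext3_iff_of_acyc 𝒰 hR0 hR1 hC hac).1 hroof x

end

/-! ### Biproducts of pairs -/

section prodPair

variable {H : Type u} [Group H] {Pa0 Pa1 Pb0 Pb1 : Rep.{u} k H} (da : Pa1 ⟶ Pa0)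
  (db : Pb1 ⟶ Pb0)

/-- first inclusion -/
def prodPair.ia : PairHom da (prodPair da db) :=
  ⟨prodRep.inl _ _, prodRep.inl _ _, fun x => by
    show ((da.hom x, db.hom 0) : Pa0 × Pb0) = (da.hom x, 0)
    rw [map_zero]⟩

/-- second inclusion -/
def prodPair.ib : PairHom db (prodPair da db) :=
  ⟨prodRep.inr _ _, prodRep.inr _ _, fun x => by
    show ((da.hom 0, db.hom x) : Pa0 × Pb0) = (0, db.hom x)
    rw [map_zero]⟩

/-- first projection -/
def prodPair.qa : PairHom (prodPair da db) da := ⟨prodRep.fst _ _, prodRep.fst _ _, fun _ => rfl⟩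

/-- second projection -/
def prodPair.qb : PairHom (prodPair da db) db := ⟨prodRep.snd _ _, prodRep.snd _ _, fun _ => rfl⟩

end prodPair

section

variable (V : Subgroup G) {Pa0 Pa1 Pb0 Pb1 : Rep.{u} k V} (da : Pa1 ⟶ Pa0) (db : Pb1 ⟶ Pb0)
  (C : Rep.{u} k G)

/-- `Good` for the coinduction of a direct sum -/
theorem good_coind_prodPair (ha : Good 𝒰 C (cRep.map da)) (hb : Good 𝒰 C (cRep.map db)) :
    Good 𝒰 C (cRep.map (prodPair da db)) := by
  refine good_biprod 𝒰 C ((prodPair.ia da db).coind V) ((prodPair.qa da db).coind V)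
    ((prodPair.ib da db).coind V) ((prodPair.qb da db).coind V) ?_ ?_ ha hb
  · intro x
    apply cRep.ext
    intro g
    show (((x.1 g).1, (0 : Pb0)) : Pa0 × Pb0) + ((0 : Pa0), (x.1 g).2) = x.1 g
    exact Prod.ext (add_zero _) (zero_add _)
  · intro x
    apply cRep.ext
    intro g
    show (((x.1 g).1, (0 : Pb1)) : Pa1 × Pb1) + ((0 : Pa1), (x.1 g).2) = x.1 g
    exact Prod.ext (add_zero _) (zero_add _)

end

section

variable (V : Subgroup G) [Finite (G ⧸ V)] [IsDomain k] [IsPrincipalIdealRing k]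
  {U : Subgroup G} (hU : U ∈ 𝒰.sets) (hUV : U ≤ V)
  (p : ℕ) (hp0 : ∀ m : k, p • m = 0 → m = 0)
  {F : Type u} [AddCommGroup F] [Module k F] (red : k →ₗ[k] F)
  (hred : Function.Surjective red) (hker : ∀ n : k, red n = 0 ↔ ∃ m : k, p • m = n)
  {D0 D1 : Rep.{u} k V} [Module.Finite k D0] [Module.Free k D0] [Module.Finite k D1]
  [Module.Free k D1] (D : D1 ⟶ D0)
  (htriv0 : ∀ v (b : D0), D0.ρ v b = b) (htriv1 : ∀ v (b : D1), D1.ρ v b = b)
  (lam : D0 ⟶ Rep.trivial k V F) (hlamD : ∀ y, lam.hom (D.hom y) = 0)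
  (t : D0) (ht : lam.hom t = red 1) (s : D1) (hs : D.hom s = p • t)
  {C : Rep.{u} k G} (hC : IsSm 𝒰 C)

include hU hUV hp0 hred hker htriv0 htriv1 ht hs hC in
/-- **split step**: `Good` for `c(D)` if it holds for `c(D1 → ker λ)` and for the standard pair -/
theorem good_step
    (h1 : Good 𝒰 C (cRep.map (stepSub D lam hlamD)))
    (h2 : Good 𝒰 C (cRep.map (nsmulHom p (Rep.trivial k V k)))) :
    Good 𝒰 C (cRep.map D) := by
  have hR0 : IsSm 𝒰 (cRep V (prodRep (kerRep lam) (Rep.trivial k V k))) :=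
    cRep.isSm 𝒰 hU hUV (fun v _ b => Prod.ext (Subtype.ext (htriv0 v b.1.1)) rfl)
  have hR1 : IsSm 𝒰 (cRep V (prodRep D1 (Rep.trivial k V k))) :=
    cRep.isSm 𝒰 hU hUV (fun v _ b => Prod.ext (htriv1 v b.1) rfl)
  have S := (splitS p hp0 red hred hker D htriv0 htriv1 lam hlamD t ht s hs).coind V
  have hac : Acyc 𝒰 C (cRep.map (𝟙 (Rep.trivial k V k))) :=
    acyc_of_hom_eq_id 𝒰 C _ (fun _ => rfl)
  exact (S.good_iff_of_acyc 𝒰 hR0 hR1 hC hac).1 (good_coind_prodPair 𝒰 V _ _ C h1 h2)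

end

end Fermat.Agent.S55lib.CFDual
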