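/-
S55 sprint, block (I) / K4 (helper8): functionals `N → 𝔽_p` on elementary abelian `p`-groups:
existence, surjectivity, and invariant functionals under an action factoring through a `p`-group.
-/
import Mathlib

set_option autoImplicit false
set_option linter.style.haveILetI false

namespace Fermat.Agent.S55lib.CFDual

open MulAction

/-- additive maps between `ℤ`-modules (with arbitrary module instances) are linear -/
def addToLin {A B : Type*} [AddCommGroup A] [AddCommGroup B] [Module ℤ A] [Module ℤ B]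
    (f : A →+ B) : A →ₗ[ℤ] B where
  toFun := f
  map_add' := f.map_add
  map_smul' := fun n x => by
    have := map_intCast_smul f ℤ ℤ n x
    simpa using this

@[simp] lemma addToLin_apply {A B : Type*} [AddCommGroup A] [AddCommGroup B] [Module ℤ A]
    [Module ℤ B] (f : A →+ B) (x : A) : addToLin f x = f x := rfl

variable (p : ℕ) [Fact p.Prime]

/-- a nonzero additive map to `𝔽_p` is surjective -/
theorem surjective_of_ne_zero {A : Type*} [AddCommGroup A] (f : A →+ ZMod p) {x : A}
    (hx : f x ≠ 0) : Function.Surjective f := by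
  intro c
  refine ⟨(c / f x).val • x, ?_⟩
  rw [map_nsmul, nsmul_eq_mul, ZMod.natCast_zmod_val, div_mul_cancel₀ _ hx]

/-- on an elementary abelian `p`-group, functionals separate points from `0` -/
theorem exists_functional_ne_zero {N : Type*} [AddCommGroup N] (hN : ∀ n : N, p • n = 0) {n₀ : N}
    (h₀ : n₀ ≠ 0) : ∃ f : N →+ ZMod p, f n₀ ≠ 0 := by
  haveI : Module (ZMod p) N := AddCommGroup.zmodModule hN
  obtain ⟨f, hf⟩ := Module.Projective.exists_dual_ne_zero (ZMod p) h₀
  exact ⟨f.toAddMonoidHom, hf⟩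

/-- **invariant functionals**: if `V` acts on a nontrivial finite elementary abelian `p`-group `N`
through a quotient of `p`-power order, there is a nonzero `V`-invariant functional `N → 𝔽_p`. -/
theorem exists_fixed_functional {V N : Type*} [Group V] [AddCommGroup N] [Finite N] [Nontrivial N]
    (hN : ∀ n : N, p • n = 0) (ρ : V →* AddMonoid.End N) (W : Subgroup V)
    (hW : ∀ w ∈ W, ∀ n : N, ρ w n = n) (a : ℕ) (hidx : W.index = p ^ a) :
    ∃ f : N →+ ZMod p, (∃ n, f n ≠ 0) ∧ ∀ (v : V) (n : N), f (ρ v n) = f n := by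
  classical
  -- the action on functionals
  letI act : MulAction V (N →+ ZMod p) :=
    { smul := fun v f => f.comp (ρ v⁻¹ : N →+ N)
      one_smul := fun f => by
        show f.comp (ρ 1⁻¹ : N →+ N) = f
        rw [inv_one, map_one]
        rfl
      mul_smul := fun v w f => by
        show f.comp (ρ (v * w)⁻¹ : N →+ N) = (f.comp (ρ w⁻¹ : N →+ N)).comp (ρ v⁻¹ : N →+ N)
        rw [mul_inv_rev, map_mul]
        rfl }
  have hsmul : ∀ (v : V) (f : N →+ ZMod p) (n : N), (v • f) n = f (ρ v⁻¹ n) := fun _ _ _ => rfl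
  let φ : V →* Equiv.Perm (N →+ ZMod p) := MulAction.toPermHom V (N →+ ZMod p)
  -- `W` acts trivially
  have hker : W ≤ φ.ker := by
    intro w hw
    rw [MonoidHom.mem_ker]
    apply Equiv.ext
    intro f
    apply AddMonoidHom.ext
    intro n
    show f (ρ w⁻¹ n) = f n
    rw [hW w⁻¹ (W.inv_mem hw)]
  -- the image is a `p`-group
  have hcard : Nat.card φ.range ∣ p ^ a := by
    rw [← Subgroup.index_ker, ← hidx]
    exact Subgroup.index_dvd_of_le hker
  obtain ⟨b, -, hb⟩ := (Nat.dvd_prime_pow (Fact.out : p.Prime)).1 hcard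
  have hP : IsPGroup p φ.range := IsPGroup.of_card hb
  -- the set of functionals has `p`-power cardinality `> 1`
  haveI : Finite (N →+ ZMod p) := DFunLike.finite _
  have hX : IsPGroup p (Multiplicative (N →+ ZMod p)) := by
    intro g
    refine ⟨1, ?_⟩
    rw [pow_one]
    apply Multiplicative.toAdd.injective
    show p • (Multiplicative.toAdd g) = 0
    apply AddMonoidHom.ext
    intro n
    show p • (Multiplicative.toAdd g n) = 0
    rw [← map_nsmul, hN, map_zero]
  obtain ⟨c, hc⟩ := (IsPGroup.iff_card).1 hX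
  have hc' : Nat.card (N →+ ZMod p) = p ^ c := hc
  obtain ⟨n₀, hn₀⟩ := exists_ne (0 : N)
  obtain ⟨f₀, hf₀⟩ := exists_functional_ne_zero p hN hn₀
  have hc0 : c ≠ 0 := by
    rintro rfl
    rw [pow_zero] at hc'
    have hsub : Subsingleton (N →+ ZMod p) := (Nat.card_eq_one_iff_unique.1 hc').1
    have : f₀ = 0 := Subsingleton.elim _ _
    rw [this] at hf₀
    exact hf₀ rfl
  have hdvd : p ∣ Nat.card (N →+ ZMod p) := by
    rw [hc']
    exact dvd_pow_self p hc0
  -- `0` is a fixed point
  have h0 : (0 : N →+ ZMod p) ∈ fixedPoints φ.range (N →+ ZMod p) := by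
    rintro ⟨_, v, rfl⟩
    show v • (0 : N →+ ZMod p) = 0
    rfl
  obtain ⟨f, hf, hf0⟩ := hP.exists_fixed_point_of_prime_dvd_card_of_fixed_point _ hdvd h0
  refine ⟨f, ?_, fun v n => ?_⟩
  · by_contra hcon
    have hcon' : ∀ n, f n = 0 := fun n => by
      by_contra hne
      exact hcon ⟨n, hne⟩
    exact hf0 (AddMonoidHom.ext fun n => (hcon' n).symm)
  · have := hf ⟨φ v⁻¹, v⁻¹, rfl⟩
    have h1 : v⁻¹ • f = f := this
    have h2 := congrArg (fun g : N →+ ZMod p => g n) h1
    simp only [hsmul, inv_inv] at h2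
    exact h2

end Fermat.Agent.S55lib.CFDual
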