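/-
S55 sprint, block (I) / K4 (helper8): the two inductions over the size of the cokernel, for
`ℤ`-lattices: `Ext³(c(D)) = 0` for `P`-pairs (`P/U` a `p`-group) and `Good (c(D))` for pairs with
trivial action, both from the standard pair.
-/
import Fermat.Agent.S55lib.CFDual.CoindStep
import Fermat.Agent.S55lib.CFDual.PGroupDual

set_option autoImplicit false
set_option linter.unusedSectionVars false
set_option linter.style.haveILetI false

noncomputable section

namespace Fermat.Agent.S55lib.CFDual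

open Csm Cpx CategoryTheory

variable {G : Type} [Group G] (𝒰 : OpenBasis G) (p : ℕ) [Fact p.Prime]

/-- reduction mod `p` as a `ℤ`-linear map -/
def redZ : ℤ →ₗ[ℤ] ZMod p := (Int.castAddHom (ZMod p)).toIntLinearMap

lemma redZ_apply (n : ℤ) : redZ p n = (n : ZMod p) := rfl

lemma redZ_surjective : Function.Surjective (redZ p) := ZMod.intCast_surjective

lemma redZ_eq_zero_iff (n : ℤ) : redZ p n = 0 ↔ ∃ m : ℤ, p • m = n := by
  rw [redZ_apply, ZMod.intCast_zmod_eq_zero_iff_dvd]
  constructor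
  · rintro ⟨m, rfl⟩
    exact ⟨m, by rw [nsmul_eq_mul]⟩
  · rintro ⟨m, rfl⟩
    exact ⟨m, by rw [nsmul_eq_mul]⟩

lemma nsmul_int_eq_zero (m : ℤ) (h : p • m = 0) : m = 0 := by
  rw [nsmul_eq_mul] at h
  rcases mul_eq_zero.1 h with h | h
  · exact absurd h (by exact_mod_cast (Fact.out : p.Prime).ne_zero)
  · exact h

section coker

universe u

variable {k G' : Type u} [CommRing k] [Group G'] {V : Subgroup G'} {D0 D1 : Rep.{u} k V}
  (D : D1 ⟶ D0)

/-- the cokernel of a pair with `p D0 ⊆ D D1` is killed by `p` -/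
lemma coker_nsmul (q : ℕ) (hp : ∀ x : D0, ∃ y : D1, D.hom y = q • x) (n : cokerRep D) :
    q • n = 0 := by
  obtain ⟨b, rfl⟩ := cokerRep.proj_surjective D n
  rw [← map_nsmul]
  exact (cokerRep.proj_eq_zero_iff D _).2 (hp b)

variable {F : Type u} [AddCommGroup F] [Module k F]

/-- a linear functional on the cokernel, as a morphism to the trivial module `F` -/
def lamOf (f : cokerRep D →ₗ[k] F) (hf : ∀ v n, f ((cokerRep D).ρ v n) = f n) :
    D0 ⟶ Rep.trivial k V F :=
  Rep.ofHom
    { toLinearMap := f.comp (cokerRep.proj D).hom.toLinearMap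
      isIntertwining' := by
        intro v
        apply LinearMap.ext
        intro x
        show f ((cokerRep.proj D).hom (D0.ρ v x)) = f ((cokerRep.proj D).hom x)
        rw [Rep.hom_comm_apply, hf] }

lemma lamOf_apply (f : cokerRep D →ₗ[k] F) (hf : ∀ v n, f ((cokerRep D).ρ v n) = f n) (x : D0) :
    (lamOf D f hf).hom x = f ((cokerRep.proj D).hom x) := rfl

lemma lamOf_D (f : cokerRep D →ₗ[k] F) (hf : ∀ v n, f ((cokerRep D).ρ v n) = f n) (y : D1) :
    (lamOf D f hf).hom (D.hom y) = 0 := by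
  rw [lamOf_apply, (cokerRep.proj_eq_zero_iff D _).2 ⟨y, rfl⟩, map_zero]

variable (lam : D0 ⟶ Rep.trivial k V F) (hlamD : ∀ y, lam.hom (D.hom y) = 0)

/-- the cokernel of the smaller pair is strictly smaller -/
lemma card_coker_stepSub_lt [Finite (cokerRep D)] {t : D0} (ht : lam.hom t ≠ 0) :
    Nat.card (cokerRep (stepSub D lam hlamD)) < Nat.card (cokerRep D) := by
  classical
  -- the comparison map
  let ψ : cokerRep (stepSub D lam hlamD) →ₗ[k] cokerRep D :=
    Submodule.mapQ _ _ (kerRep.incl lam).hom.toLinearMap (by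
      rintro _ ⟨y, rfl⟩
      exact ⟨y, rfl⟩)
  have hψ : ∀ x : kerRep lam, ψ ((cokerRep.proj (stepSub D lam hlamD)).hom x) =
      (cokerRep.proj D).hom x.1 := fun _ => rfl
  have hinj : Function.Injective ψ := by
    rw [← LinearMap.ker_eq_bot, LinearMap.ker_eq_bot']
    intro n hn
    obtain ⟨x, rfl⟩ := cokerRep.proj_surjective (stepSub D lam hlamD) n
    rw [hψ] at hn
    obtain ⟨y, hy⟩ := (cokerRep.proj_eq_zero_iff D _).1 hn
    exact (cokerRep.proj_eq_zero_iff _ _).2 ⟨y, Subtype.ext hy⟩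
  have hns : ¬ Function.Surjective ψ := by
    intro hs
    obtain ⟨n, hn⟩ := hs ((cokerRep.proj D).hom t)
    obtain ⟨x, rfl⟩ := cokerRep.proj_surjective (stepSub D lam hlamD) n
    rw [hψ] at hn
    have h0 : (cokerRep.proj D).hom (x.1 - t) = 0 := by rw [map_sub, hn, sub_self]
    obtain ⟨y, hy⟩ := (cokerRep.proj_eq_zero_iff D _).1 h0
    have := congrArg lam.hom hy
    rw [hlamD, map_sub, show lam.hom x.1 = 0 from x.2, zero_sub] at this
    exact ht (neg_eq_zero.1 this.symm)
  haveI : Finite (cokerRep (stepSub D lam hlamD)) := Finite.of_injective ψ hinj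
  haveI := Fintype.ofFinite (cokerRep D)
  haveI := Fintype.ofFinite (cokerRep (stepSub D lam hlamD))
  rw [Nat.card_eq_fintype_card, Nat.card_eq_fintype_card]
  exact Fintype.card_lt_of_injective_not_surjective ψ hinj hns

end coker

section acyc

universe u

variable {k G' : Type u} [CommRing k] [Group G'] (𝒰' : OpenBasis G')

/-- an acyclic pair is good -/
lemma good_of_acyc {C : Rep.{u} k G'} {P0 P1 : Rep.{u} k G'} (d : P1 ⟶ P0) (h : Acyc 𝒰' C d) :
    Good 𝒰' C d := by
  refine ⟨⟨?_, ?_⟩, ⟨?_, ?_⟩, h.1 3⟩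
  · intro x y _
    rw [h.1 1 x, h.1 1 y]
  · intro τ
    refine ⟨0, ?_⟩
    apply LinearMap.ext
    intro y
    rw [h.2 2 y, map_zero, map_zero]
  · intro x y _
    rw [h.1 2 x, h.1 2 y]
  · intro τ
    refine ⟨0, ?_⟩
    apply LinearMap.ext
    intro y
    rw [h.2 1 y, map_zero, map_zero]

end acyc

/-- a finitely generated abelian group killed by `p` is finite (arbitrary `ℤ`-module instance) -/
lemma finite_of_nsmul_eq_zero {M : Type} [AddCommGroup M] [inst : Module ℤ M] [Module.Finite ℤ M]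
    (h : ∀ n : M, p • n = 0) : Finite M := by
  obtain rfl := Subsingleton.elim inst (AddCommGroup.toIntModule M)
  refine Module.finite_of_fg_torsion M (fun n => ?_)
  refine ⟨⟨(p : ℤ), ?_⟩, ?_⟩
  · rw [mem_nonZeroDivisors_iff_ne_zero]
    exact_mod_cast (Fact.out : p.Prime).ne_zero
  · rw [Submonoid.mk_smul, Nat.cast_smul_eq_nsmul]
    exact h n

/-- the cokernel is finite (over `ℤ`) -/
lemma coker_finite {V : Subgroup G} {D0 D1 : Rep.{0} ℤ V} (D : D1 ⟶ D0)
    [hfin0 : @Module.Finite ℤ D0 _ _ D0.hV2]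
    (hp : ∀ x : D0, ∃ y : D1, D.hom y = p • x) : Finite (cokerRep D) := by
  haveI hfin : @Module.Finite ℤ (cokerRep D) _ _ (cokerRep D).hV2 := inferInstance
  exact @finite_of_nsmul_eq_zero p _ (cokerRep D) _ (cokerRep D).hV2 hfin (coker_nsmul D p hp)

/-- the hypotheses on the pairs of lattices in the two inductions: finitely generated free, `U` acts
trivially, `D` injective with cokernel killed by `p` -/
structure PPair {V : Subgroup G} (U : Subgroup G) {D0 D1 : Rep.{0} ℤ V} (D : D1 ⟶ D0) : Prop where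
  fin0 : @Module.Finite ℤ D0 _ _ D0.hV2
  free0 : @Module.Free ℤ D0 _ _ D0.hV2
  fin1 : @Module.Finite ℤ D1 _ _ D1.hV2
  free1 : @Module.Free ℤ D1 _ _ D1.hV2
  triv0 : ∀ v : V, v.1 ∈ U → ∀ b : D0, D0.ρ v b = b
  triv1 : ∀ v : V, v.1 ∈ U → ∀ b : D1, D1.ρ v b = b
  inj : Function.Injective D.hom
  div : ∀ x : D0, ∃ y : D1, D.hom y = p • x

variable {p}

/-- the smaller pair satisfies the hypotheses again -/
lemma PPair.sub {V : Subgroup G} {U : Subgroup G} {D0 D1 : Rep.{0} ℤ V} {D : D1 ⟶ D0}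
    (h : PPair p U D) (lam : D0 ⟶ Rep.trivial ℤ V (ZMod p))
    (hlamD : ∀ y, lam.hom (D.hom y) = 0) : PPair p U (stepSub D lam hlamD) := by
  haveI := h.fin0
  haveI := h.free0
  refine ⟨inferInstance, inferInstance, h.fin1, h.free1, ?_, h.triv1, ?_, ?_⟩
  · intro v hv b
    exact Subtype.ext (h.triv0 v hv b.1)
  · intro y y' hy
    exact h.inj (congrArg Subtype.val hy)
  · intro x
    obtain ⟨y, hy⟩ := h.div x.1
    exact ⟨y, Subtype.ext hy⟩

/-- the action on a representation by additive endomorphisms -/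
def repAddEnd {k H : Type} [CommRing k] [Group H] (A : Rep.{0} k H) : H →* AddMonoid.End A where
  toFun h := (A.ρ h).toAddMonoidHom
  map_one' := by
    apply AddMonoidHom.ext
    intro x
    show A.ρ 1 x = x
    rw [map_one]
    rfl
  map_mul' := by
    intro g h
    apply AddMonoidHom.ext
    intro x
    show A.ρ (g * h) x = A.ρ g (A.ρ h x)
    rw [map_mul]
    rfl

variable (p)

/-- a `V`-invariant additive functional on the cokernel, as a morphism `D0 ⟶ 𝔽_p` -/
def lamZ {V : Subgroup G} {D0 D1 : Rep.{0} ℤ V} (D : D1 ⟶ D0) (f : cokerRep D →+ ZMod p)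
    (hf : ∀ v n, f ((cokerRep D).ρ v n) = f n) : D0 ⟶ Rep.trivial ℤ V (ZMod p) :=
  lamOf D (@addToLin _ _ _ _ (cokerRep D).hV2 _ f) hf

lemma lamZ_apply {V : Subgroup G} {D0 D1 : Rep.{0} ℤ V} (D : D1 ⟶ D0) (f : cokerRep D →+ ZMod p)
    (hf : ∀ v n, f ((cokerRep D).ρ v n) = f n) (x : D0) :
    (lamZ p D f hf).hom x = f ((cokerRep.proj D).hom x) := rfl

lemma lamZ_D {V : Subgroup G} {D0 D1 : Rep.{0} ℤ V} (D : D1 ⟶ D0) (f : cokerRep D →+ ZMod p)
    (hf : ∀ v n, f ((cokerRep D).ρ v n) = f n) (y : D1) : (lamZ p D f hf).hom (D.hom y) = 0 :=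
  lamOf_D D _ hf y

/-- a bijective pair is acyclic after coinduction -/
lemma acyc_coind_of_surjective (V : Subgroup G) {D0 D1 : Rep.{0} ℤ V} (D : D1 ⟶ D0)
    (hinj : Function.Injective D.hom) (hsurj : Function.Surjective D.hom) (C : Rep.{0} ℤ G) :
    Acyc 𝒰 C (cRep.map D) := by
  have h1 : ∀ x : cRep V D0, ∃ y : cRep V D1, (cRep.map D).hom y = 1 • x := by
    intro x
    obtain ⟨y, hy⟩ := cRep.map_surjective D hsurj x
    exact ⟨y, by rw [hy, one_smul]⟩
  constructor
  · intro n x
    have := p_smul_ext_eq_zero 𝒰 (cRep.map D) (cRep.map_injective D hinj) 1 h1 C n x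
    rwa [one_smul] at this
  · intro n y
    have := p_smul_F_eq_zero 𝒰 (cRep.map D) (cRep.map_injective D hinj) 1 h1 n y
    rwa [one_smul] at this

lemma surjective_of_subsingleton_coker {V : Subgroup G} {D0 D1 : Rep.{0} ℤ V} (D : D1 ⟶ D0)
    (h : Subsingleton (cokerRep D)) : Function.Surjective D.hom := by
  intro b
  have : (cokerRep.proj D).hom b = 0 := Subsingleton.elim _ _
  exact (cokerRep.proj_eq_zero_iff D b).1 this

/-- **`Ext³` vanishing by induction**: for `V/U` a `p`-group, `Ext³(c(D), C) = 0` for every pair of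
`V`-lattices on which `U` acts trivially, if it holds for the standard pair `ℤ →p ℤ`. -/
theorem ext3_coind (V : Subgroup G) [Finite (G ⧸ V)] {U : Subgroup G} (hU : U ∈ 𝒰.sets)
    (hUV : U ≤ V) (a : ℕ) (hidx : (U.subgroupOf V).index = p ^ a) {C : Rep.{0} ℤ G}
    (hC : IsSm 𝒰 C)
    (hbase : ∀ x : ExtH 𝒰 (cRep.map (nsmulHom p (Rep.trivial ℤ V ℤ))) C 3, x = 0) :
    ∀ (n : ℕ) {D0 D1 : Rep.{0} ℤ V} (D : D1 ⟶ D0), PPair p U D → Nat.card (cokerRep D) = n →
      ∀ x : ExtH 𝒰 (cRep.map D) C 3, x = 0 := by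
  intro n
  induction n using Nat.strong_induction_on with
  | _ n ih =>
    intro D0 D1 D h hn x
    haveI := h.fin0
    haveI := h.free0
    haveI := h.fin1
    haveI := h.free1
    haveI : Finite (cokerRep D) := coker_finite p D h.div
    by_cases hsub : Subsingleton (cokerRep D)
    · exact (acyc_coind_of_surjective 𝒰 V D h.inj
        (surjective_of_subsingleton_coker D hsub) C).1 3 x
    · haveI : Nontrivial (cokerRep D) := not_subsingleton_iff_nontrivial.1 hsub
      have hW : ∀ w ∈ U.subgroupOf V, ∀ n : cokerRep D, repAddEnd (cokerRep D) w n = n := by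
        intro w hw n
        obtain ⟨b, rfl⟩ := cokerRep.proj_surjective D n
        show (cokerRep D).ρ w ((cokerRep.proj D).hom b) = _
        rw [← Rep.hom_comm_apply, h.triv0 w (Subgroup.mem_subgroupOf.1 hw)]
      obtain ⟨f, ⟨n0, hn0⟩, hf⟩ := exists_fixed_functional p (coker_nsmul D p h.div)
        (repAddEnd (cokerRep D)) (U.subgroupOf V) hW a hidx
      have hlamD := lamZ_D p D f hf
      obtain ⟨t, rfl⟩ := cokerRep.proj_surjective D n0
      have hlam : Function.Surjective (lamZ p D f hf).hom := by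
        intro c
        obtain ⟨m, hm⟩ := surjective_of_ne_zero p f hn0 c
        obtain ⟨b, rfl⟩ := cokerRep.proj_surjective D m
        exact ⟨b, hm⟩
      have hlt : Nat.card (cokerRep (stepSub D (lamZ p D f hf) hlamD)) < n := by
        rw [← hn]
        exact card_coker_stepSub_lt D (lamZ p D f hf) hlamD (t := t) hn0
      have h1 := ih _ hlt (stepSub D (lamZ p D f hf) hlamD) (h.sub _ hlamD) rfl
      exact ext3_step 𝒰 V hU hUV p (nsmul_int_eq_zero p) (redZ p) (redZ_surjective p)
        (redZ_eq_zero_iff p) D h.triv0 h.triv1 (lamZ p D f hf) hlam hlamD hC h1 hbase x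

/-- **`Good` by induction**: `c(D)` is good for every pair of lattices with trivial `V`-action, if
the standard pair `ℤ →p ℤ` is. -/
theorem good_coind (V : Subgroup G) [Finite (G ⧸ V)] {U : Subgroup G} (hU : U ∈ 𝒰.sets)
    (hUV : U ≤ V) {C : Rep.{0} ℤ G} (hC : IsSm 𝒰 C)
    (hbase : Good 𝒰 C (cRep.map (nsmulHom p (Rep.trivial ℤ V ℤ)))) :
    ∀ (n : ℕ) {D0 D1 : Rep.{0} ℤ V} (D : D1 ⟶ D0), PPair p V D → Nat.card (cokerRep D) = n →
      Good 𝒰 C (cRep.map D) := by
  intro n
  induction n using Nat.strong_induction_on with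
  | _ n ih =>
    intro D0 D1 D h hn
    haveI := h.fin0
    haveI := h.free0
    haveI := h.fin1
    haveI := h.free1
    haveI : Finite (cokerRep D) := coker_finite p D h.div
    by_cases hsub : Subsingleton (cokerRep D)
    · exact good_of_acyc 𝒰 _ (acyc_coind_of_surjective 𝒰 V D h.inj
        (surjective_of_subsingleton_coker D hsub) C)
    · haveI : Nontrivial (cokerRep D) := not_subsingleton_iff_nontrivial.1 hsub
      obtain ⟨n0, hn0⟩ := exists_ne (0 : cokerRep D)
      obtain ⟨f, hf0⟩ := exists_functional_ne_zero p (coker_nsmul D p h.div) hn0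
      have hf : ∀ (v : V) (n : cokerRep D), f ((cokerRep D).ρ v n) = f n := by
        intro v n
        obtain ⟨b, rfl⟩ := cokerRep.proj_surjective D n
        rw [← Rep.hom_comm_apply, h.triv0 v v.2]
      have hlamD := lamZ_D p D f hf
      obtain ⟨m, hm⟩ := surjective_of_ne_zero p f hf0 1
      obtain ⟨t, rfl⟩ := cokerRep.proj_surjective D m
      obtain ⟨s, hs⟩ := h.div t
      have ht : (lamZ p D f hf).hom t = redZ p 1 := by
        rw [lamZ_apply, hm, redZ_apply, Int.cast_one]
      have hlt : Nat.card (cokerRep (stepSub D (lamZ p D f hf) hlamD)) < n := by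
        rw [← hn]
        refine card_coker_stepSub_lt D (lamZ p D f hf) hlamD (t := t) ?_
        rw [lamZ_apply, hm]
        exact one_ne_zero
      have h1 := ih _ hlt (stepSub D (lamZ p D f hf) hlamD) (h.sub _ hlamD) rfl
      exact good_step 𝒰 V hU hUV p (nsmul_int_eq_zero p) (redZ p) (redZ_surjective p)
        (redZ_eq_zero_iff p) D (fun v b => h.triv0 v v.2 b) (fun v b => h.triv1 v v.2 b)
        (lamZ p D f hf) hlamD t ht s hs hC h1 hbase

end Fermat.Agent.S55lib.CFDual
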