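/-
S55 sprint, block (I) / K4 (helper8): bijectivity of `α¹`, `α²` for a pair `[P →p P]`, reduced to
statements about the cohomology of `P` and `Hom(P, C)` (general coefficient ring).
-/
import Fermat.Agent.S55lib.CFDual.BaseKit
import Fermat.Agent.S55lib.CFDual.CoindDual

set_option autoImplicit false
set_option linter.unusedSectionVars false

noncomputable section

namespace Fermat.Agent.S55lib.CFDual

universe u

open Csm Cpx CategoryTheory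

variable {k G : Type u} [CommRing k] [Group G] (𝒰 : OpenBasis G)

lemma smul_cl₀ {A : Rep.{u} k G} (c : k) (a : A) (ha : ∀ g, A.ρ g a = a) :
    c • cl₀ 𝒰 a ha = cl₀ 𝒰 (c • a) (fun g => by rw [map_smul, ha]) := by
  unfold cl₀
  rw [← cl_smul]
  exact cl_congr _ (ext₀ (x := c • mkInv 𝒰 a ha) (y := mkInv 𝒰 (c • a) _) rfl) _

section pair

variable {P : Rep.{u} k G} (d : P ⟶ P) (p : ℕ) (hd : ∀ x, d.hom x = p • x) (C : Rep.{u} k G)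

include hd in
lemma FJ_mapH_gen (n : ℕ) (w : Hsm 𝒰 (homRep P C) n) :
    (Csm.map 𝒰 (homRep.mapL d C)).mapH n w = p • w :=
  Csm_mapH_eq_nsmul 𝒰 _ p (fun φ => mapL_eq_nsmul _ p hd φ) n w

include hd in
lemma FT_mapH_gen (n : ℕ) (w : Hsm 𝒰 P n) : (Csm.map 𝒰 d).mapH n w = p • w :=
  Csm_mapH_eq_nsmul 𝒰 _ p hd n w

include hd in
/-- **`α²` is bijective** for `[P →p P]`, given the structure of `F¹` and of `H¹, H²(Hom(P, C))` -/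
theorem alpha2_bijective_gen (N : P) (hN : ∀ g, P.ρ g N = N)
    (hF1 : ∀ y : (FC 𝒰 d).H 1, ∃ c : k, y = c • Fib.ι (Csm.map 𝒰 d) 0 (cl₀ 𝒰 N hN))
    (hJ1d : ∀ w : Hsm 𝒰 (homRep P C) 1, ∃ y : Hsm 𝒰 (homRep P C) 1, p • y = w)
    (hSi : ∀ w : Hsm 𝒰 (homRep P C) 2, p • w = 0 →
      (Csm.map 𝒰 (evalHom P C N hN)).mapH 2 w = 0 → w = 0)
    (hSs : ∀ z : Hsm 𝒰 C 2, p • z = 0 → ∃ w : Hsm 𝒰 (homRep P C) 2, p • w = 0 ∧
      (Csm.map 𝒰 (evalHom P C N hN)).mapH 2 w = z) :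
    Function.Bijective (alpha2 𝒰 d C) := by
  have key : ∀ e : ExtH 𝒰 d C 2,
      alpha2 𝒰 d C e (Fib.ι (Csm.map 𝒰 d) 0 (cl₀ 𝒰 N hN)) =
        (Csm.map 𝒰 (evalHom P C N hN)).mapH 2 (Fib.π (Csm.map 𝒰 (homRep.mapL d C)) 2 e) :=
    fun e => alpha2_ι 𝒰 d C N hN (mkInv 𝒰 N hN) rfl (d_mkInv 𝒰 N hN) e
  constructor
  · rw [← LinearMap.ker_eq_bot, LinearMap.ker_eq_bot']
    intro e he
    have h1 : Fib.π (Csm.map 𝒰 (homRep.mapL d C)) 2 e = 0 := by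
      refine hSi _ (fibP_smul_π _ p (FJ_mapH_gen 𝒰 d p hd C) 2 e) ?_
      rw [← key, he, LinearMap.zero_apply]
    obtain ⟨w, rfl⟩ := (Fib.exact_π _ 1 e).1 h1
    obtain ⟨y, rfl⟩ := hJ1d w
    exact fibP_ι_smul _ p (FJ_mapH_gen 𝒰 d p hd C) 1 y
  · intro τ
    have hz : p • τ (Fib.ι (Csm.map 𝒰 d) 0 (cl₀ 𝒰 N hN)) = 0 := by
      rw [← map_nsmul, ← map_nsmul, fibP_ι_smul _ p (FT_mapH_gen 𝒰 d p hd) 0, map_zero]
    obtain ⟨w, hw, hwz⟩ := hSs _ hz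
    obtain ⟨e, he⟩ : ∃ e : ExtH 𝒰 d C 2, Fib.π (Csm.map 𝒰 (homRep.mapL d C)) 2 e = w :=
      fibP_exists_π _ p (FJ_mapH_gen 𝒰 d p hd C) 2 w hw
    refine ⟨e, ?_⟩
    apply LinearMap.ext
    intro y
    obtain ⟨c, rfl⟩ := hF1 y
    rw [map_smul, map_smul, key, he, hwz]

include hd in
/-- **`α¹` is bijective** for `[P →p P]`, given reciprocity statements for morphisms `P ⟶ C` -/
theorem alpha1_bijective_gen
    (hJ1t : ∀ w : Hsm 𝒰 (homRep P C) 1, p • w = 0 → w = 0)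
    (hA1i : ∀ b : P ⟶ C,
      (∀ ξ : (FC 𝒰 d).H 2, (Csm.map 𝒰 b).mapH 2 (Fib.π (Csm.map 𝒰 d) 2 ξ) = 0) →
        ∃ b' : P ⟶ C, ∀ x, b.hom x = p • b'.hom x)
    (hA1s : ∀ τ : (FC 𝒰 d).H 2 →+ Hsm 𝒰 C 2, ∃ b : P ⟶ C,
      ∀ ξ, (Csm.map 𝒰 b).mapH 2 (Fib.π (Csm.map 𝒰 d) 2 ξ) = τ ξ) :
    Function.Bijective (alpha1 𝒰 d C) := by
  have key : ∀ (b : P ⟶ C) (ξ : (FC 𝒰 d).H 2),
      alpha1 𝒰 d C (Fib.ι (Csm.map 𝒰 (homRep.mapL d C)) 0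
        (cl₀ 𝒰 (b.hom.toLinearMap : homRep P C) (ρ_hom_eq_self b))) ξ =
        (Csm.map 𝒰 b).mapH 2 (Fib.π (Csm.map 𝒰 d) 2 ξ) :=
    fun b ξ => alpha1_ι 𝒰 d C b (mkInv 𝒰 _ (ρ_hom_eq_self b)) rfl (d_mkInv 𝒰 _ _) ξ
  constructor
  · rw [← LinearMap.ker_eq_bot, LinearMap.ker_eq_bot']
    intro e he
    have h1 : Fib.π (Csm.map 𝒰 (homRep.mapL d C)) 1 e = 0 :=
      hJ1t _ (fibP_smul_π _ p (FJ_mapH_gen 𝒰 d p hd C) 1 e)
    obtain ⟨w, rfl⟩ := (Fib.exact_π _ 0 e).1 h1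
    obtain ⟨b0, hb0, rfl⟩ := exists_cl₀ 𝒰 w
    have hb : cl₀ 𝒰 b0 hb0 = cl₀ 𝒰 ((homOfInv P C b0 hb0).hom.toLinearMap : homRep P C)
        (ρ_hom_eq_self _) := (cl₀_eq_iff 𝒰 _ _).2 rfl
    rw [hb] at he ⊢
    obtain ⟨b', hb'⟩ := hA1i (homOfInv P C b0 hb0) (fun ξ => by
      rw [← key, he, LinearMap.zero_apply])
    have h2 : cl₀ 𝒰 ((homOfInv P C b0 hb0).hom.toLinearMap : homRep P C) (ρ_hom_eq_self _) =
        p • cl₀ (A := homRep P C) 𝒰 b'.hom.toLinearMap (ρ_hom_eq_self b') := by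
      rw [nsmul_cl₀, cl₀_eq_iff]
      apply LinearMap.ext
      intro x
      exact hb' x
    rw [h2]
    exact fibP_ι_smul _ p (FJ_mapH_gen 𝒰 d p hd C) 0 _
  · intro τ
    obtain ⟨b, hb⟩ := hA1s τ.toAddMonoidHom
    refine ⟨Fib.ι (Csm.map 𝒰 (homRep.mapL d C)) 0
      (cl₀ 𝒰 (b.hom.toLinearMap : homRep P C) (ρ_hom_eq_self b)), ?_⟩
    apply LinearMap.ext
    intro ξ
    rw [key]
    exact hb ξ

end pair

/-! ### The structure of `F¹` for the permutation module -/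

section perm

variable (V : Subgroup G) (d : cTriv (k := k) V ⟶ cTriv (k := k) V)

/-- invariant functions on `G/V` are constant -/
lemma cTriv.eq_smul_nrm (t : cTriv (k := k) V) (ht : ∀ g, (cTriv V).ρ g t = t) :
    t = t.1 1 • cTriv.nrm V := by
  apply cRep.ext
  intro g
  show t.1 g = t.1 1 * 1
  rw [mul_one]
  have := congrArg (fun s : cTriv (k := k) V => s.1 1) (ht g⁻¹)
  have h2 : t.1 ((g⁻¹)⁻¹ * 1) = t.1 1 := this
  rw [inv_inv, mul_one] at h2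
  exact h2

/-- `F¹` is generated by the image of the norm element, if `H¹(G, k[G/V]) = 0` -/
lemma F1_generated (hT1 : ∀ x : Hsm 𝒰 (cTriv (k := k) V) 1, x = 0) (y : (FC 𝒰 d).H 1) :
    ∃ c : k, y = c • Fib.ι (Csm.map 𝒰 d) 0 (cl₀ 𝒰 (cTriv.nrm V) cTriv.ρ_nrm) := by
  obtain ⟨x, rfl⟩ := (Fib.exact_π (Csm.map 𝒰 d) 0 y).1 (hT1 _)
  obtain ⟨t, ht, rfl⟩ := exists_cl₀ 𝒰 x
  refine ⟨t.1 1, ?_⟩
  rw [← map_smul, smul_cl₀, (cl₀_eq_iff 𝒰 _ _).2 (cTriv.eq_smul_nrm V t ht)]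

end perm

/-! ### morphisms `k[G/V] → C` and invariants of `V` -/

section homs

/-- the Shapiro map on classes of invariant elements -/
lemma sh_cl₀ {I : Type u} {D : I → Type u} [∀ i, Group (D i)] {r : ∀ i, D i →* G}
    {Y : ∀ i, Rep.{u} k (D i)} {J : Rep.{u} k G} (S : SmCoind 𝒰 D r Y J) (i : I) (j : J)
    (hj : ∀ g, J.ρ g j = j) (hc : ∀ d, (Y i).ρ d ((S.ev i).hom j) = (S.ev i).hom j) :
    (S.sh i).mapH 0 (cl₀ 𝒰 j hj) = cl₀ (𝒰.comap (r i)) ((S.ev i).hom j) hc := by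
  unfold cl₀
  rw [Hom.mapH_cl]
  refine cl_congr _ ?_ _
  apply ext₀
  rw [SmCoind.fn₀_sh, SmCoind.fn_one]
  rfl

variable {V : Subgroup G} {C : Rep.{u} k G}

/-- invariance of `b (δ_1)` under `V` -/
lemma inv_of_hom (b : cTriv (k := k) V ⟶ C) (v : G) (hv : v ∈ V) :
    C.ρ v (b.hom (cTriv.dlt V 1)) = b.hom (cTriv.dlt V 1) := by
  rw [← Rep.hom_comm_apply, cTriv.ρ_dlt, mul_one,
    cTriv.dlt_eq_of_mk_eq (g := v) (g' := 1) (QuotientGroup.eq.2 (by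
      rw [mul_one]; exact V.inv_mem hv))]

/-- a morphism `k[G/V] → C` with prescribed (invariant) value at `δ_1` -/
lemma exists_hom_of_inv [Fintype (G ⧸ V)] (hC : IsSm 𝒰 C) (hT : IsSm 𝒰 (cTriv (k := k) V)) (c : C)
    (hc : ∀ v ∈ V, C.ρ v c = c) : ∃ b : cTriv (k := k) V ⟶ C, b.hom (cTriv.dlt V 1) = c := by
  have hc' : ∀ v : V, (Rep.res V.subtype C).ρ v c = c := fun v => hc v.1 v.2
  obtain ⟨x, hx⟩ := (dualSmCoind 𝒰 C hC hT).sh_H0_surjective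
    (fun _ => cl₀ (𝒰.comap V.subtype) (A := Rep.res V.subtype C) c hc')
  obtain ⟨b0, hb0, rfl⟩ := exists_cl₀ 𝒰 x
  refine ⟨homOfInv _ _ b0 hb0, ?_⟩
  have h1 := hx PUnit.unit
  have hinv : ∀ v : V, (Rep.res V.subtype C).ρ v ((dualEv C).hom b0) = (dualEv C).hom b0 :=
    fun v => inv_of_hom (homOfInv _ _ b0 hb0) v.1 v.2
  have h2 := (sh_cl₀ 𝒰 (dualSmCoind 𝒰 C hC hT) PUnit.unit b0 hb0 hinv).symm.trans h1
  exact (cl₀_eq_iff (𝒰.comap V.subtype) (A := Rep.res V.subtype C) hinv hc').1 h2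

/-- two morphisms `k[G/V] → C` whose values at `δ_1` differ by the factor `p` -/
lemma hom_eq_nsmul [Finite (G ⧸ V)] (p : ℕ) (b b' : cTriv (k := k) V ⟶ C)
    (h : b.hom (cTriv.dlt V 1) = p • b'.hom (cTriv.dlt V 1)) (x : cTriv (k := k) V) :
    b.hom x = p • b'.hom x := by
  have : b.hom.toLinearMap = p • b'.hom.toLinearMap := by
    apply cTriv.hom_ext
    intro g
    show b.hom (cTriv.dlt V g) = p • b'.hom (cTriv.dlt V g)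
    have e : cTriv.dlt (k := k) V g = (cTriv V).ρ g (cTriv.dlt V 1) := by
      rw [cTriv.ρ_dlt, mul_one]
    rw [e, Rep.hom_comm_apply, Rep.hom_comm_apply, h, map_nsmul]
  exact congrArg (fun φ : cTriv V →ₗ[k] C => φ x) this

end homs

end Fermat.Agent.S55lib.CFDual
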