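/-
S55 sprint, block (I) / K4 (helper8): the base case of K4, part 2.  For the standard pair
`𝒮_V = [ℤ[G/V] →p ℤ[G/V]]`, `α²` and `α¹` are bijective (the latter from the reciprocity
hypothesis (CF4) via Shapiro's lemma and the Bockstein sequence).
-/
import Fermat.Agent.S55lib.CFDual.Base1
import Fermat.Agent.S55lib.CFDual.StdGen
import Fermat.Agent.S55lib.CFDual.IndZ

set_option autoImplicit false
set_option linter.unusedSectionVars false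
set_option linter.style.haveILetI false

noncomputable section

namespace Fermat.Agent.S55lib.CFDual

open Csm Cpx CategoryTheory

variable {G : Type} [Group G] {𝒰 : OpenBasis G} {p : ℕ} [Fact p.Prime]
  {U₀ : Subgroup G} {C : Rep.{0} ℤ G} {V : Subgroup G}

/-- multiplication by `p` on `H^n(H, ℤ)` -/
lemma mulP_mapH {H : Type} [Group H] (𝒱 : OpenBasis H) (n : ℕ) (w : Hsm 𝒱 (trivZ H) n) :
    (Csm.map 𝒱 (mulP p H)).mapH n w = p • w :=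
  Csm_mapH_eq_nsmul 𝒱 _ p (fun a => by rw [mulP_apply, nsmul_eq_mul]) n w

/-- exactness of the Bockstein sequence at `H²(H, ℤ)` -/
lemma exists_bock_eq {H : Type} [Group H] (𝒱 : OpenBasis H) (y : Hsm 𝒱 (trivZ H) 2)
    (hy : p • y = 0) : ∃ χ : Hsm 𝒱 (trivFp p H) 1, bock p 𝒱 χ = y :=
  ((bock_isSES p 𝒱).exact_left 1 y).1 (by rw [mulP_mapH, hy])

namespace BaseData

variable (hB : BaseData 𝒰 p U₀ C V) [Fintype (G ⧸ V)]

include hB

/-- `ℤ[G/V]` as a smooth coinduction of `ℤ` -/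
def ST : SmCoind 𝒰 (fun _ : PUnit.{1} => ↥V) (fun _ => V.subtype)
    (fun _ => Rep.trivial ℤ V ℤ) (cTriv (k := ℤ) V) :=
  cRep.smCoind 𝒰 V _ (isSm_cTriv hB.hV ℤ)

/-- `𝔽_p[G/V]` as a smooth coinduction of `𝔽_p` -/
def STp : SmCoind 𝒰 (fun _ : PUnit.{1} => ↥V) (fun _ => V.subtype)
    (fun _ => Rep.trivial ℤ V (ZMod p)) (cRep V (Rep.trivial ℤ V (ZMod p))) :=
  cRep.smCoind 𝒰 V _ (isSm_cTriv hB.hV (ZMod p))

/-- the Shapiro map of `ℤ[G/V]` -/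
def shT : Cpx.Hom (Csm 𝒰 (cTriv (k := ℤ) V)) (Csm (𝒰.comap V.subtype) (trivZ V)) :=
  hB.ST.sh PUnit.unit

lemma HT1_eq_zero (x : Hsm 𝒰 (cTriv (k := ℤ) V) 1) : x = 0 :=
  hB.ST.sh_H1_injective x (fun _ => Hsm_one_trivZ_eq_zero _ _)

/-- **`α²` is bijective for the standard pair** -/
theorem alpha2_std : Function.Bijective (alpha2 𝒰 (stdPair p V) C) :=
  alpha2_bijective_gen 𝒰 (stdPair p V) p (fun _ => rfl) C (cTriv.nrm V) cTriv.ρ_nrm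
    (F1_generated 𝒰 V _ hB.HT1_eq_zero) hB.HJ1_div hB.sigma_inj hB.sigma_surj

/-! ### The Bockstein sequence on `G` and on `V` -/

/-- the short exact sequence `0 → ℤ[G/V] →p ℤ[G/V] → 𝔽_p[G/V] → 0` on smooth cochains -/
lemma sesT : IsSES (Csm.map 𝒰 (stdPair p V)) (Csm.map 𝒰 (cRep.map (redP p V))) := by
  refine Csm.map_isSES _ _ (isSm_cTriv hB.hV ℤ) ?_ ?_ ?_
  · refine cRep.map_injective _ (fun a b h => ?_)
    have h' : p • a = p • b := h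
    have h2 : p • (a - b) = 0 := by rw [smul_sub, h', sub_self]
    exact sub_eq_zero.1 (nsmul_int_eq_zero p _ h2)
  · exact cRep.map_surjective _ (fun a => by
      obtain ⟨n, rfl⟩ := ZMod.intCast_surjective a
      exact ⟨n, rfl⟩)
  · refine cRep.map_exact _ _ (fun a b h => ?_) (fun b => redZ_eq_zero_iff p b)
    have h' : p • a = p • b := h
    have h2 : p • (a - b) = 0 := by rw [smul_sub, h', sub_self]
    exact sub_eq_zero.1 (nsmul_int_eq_zero p _ h2)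

/-- Lemma X: every Bockstein class on `V` comes from `F²` -/
lemma exists_F2_of_bock (χ : Hsm (𝒰.comap V.subtype) (trivFp p V) 1) :
    ∃ ξ : (FC 𝒰 (stdPair p V)).H 2,
      hB.shT.mapH 2 (Fib.π (Csm.map 𝒰 (stdPair p V)) 2 ξ) = bock p (𝒰.comap V.subtype) χ := by
  obtain ⟨χ', hχ'⟩ := hB.STp.sh_H1_surjective (fun _ => χ)
  have hnat := IsSES.δ_naturality hB.sesT (bock_isSES p (𝒰.comap V.subtype)) hB.shT hB.shT
    (hB.STp.sh PUnit.unit)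
    (fun n x => Csm.mapG_natural (𝒰.isCont_comap V.subtype) (hB.ST.ev PUnit.unit) (hB.ST.ev PUnit.unit) (stdPair p V)
      (mulP p V) (fun a => by
        show (p • a).1 1 = (mulP p V).hom (a.1 1)
        rw [mulP_apply, ← nsmul_eq_mul]
        rfl) n x)
    (fun n y => Csm.mapG_natural (𝒰.isCont_comap V.subtype) (hB.ST.ev PUnit.unit) (hB.STp.ev PUnit.unit)
      (cRep.map (redP p V)) (redP p V) (fun a => rfl) n y) 1 χ'
  obtain ⟨ξ, hξ⟩ := fibP_exists_π _ p hB.FT_mapH 2 (hB.sesT.δ 1 χ') (by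
    rw [← hB.FT_mapH]
    exact hB.sesT.mapH_comp_δ 1 χ')
  refine ⟨ξ, ?_⟩
  rw [hξ, hnat, hχ' PUnit.unit]
  rfl

/-- Lemma Y: a class of `F²` is determined by its Shapiro image -/
lemma F2_ext (ξ ξ' : (FC 𝒰 (stdPair p V)).H 2)
    (h : hB.shT.mapH 2 (Fib.π (Csm.map 𝒰 (stdPair p V)) 2 ξ) =
      hB.shT.mapH 2 (Fib.π (Csm.map 𝒰 (stdPair p V)) 2 ξ')) : ξ = ξ' := by
  have h1 : Fib.π (Csm.map 𝒰 (stdPair p V)) 2 (ξ - ξ') = 0 := by
    refine hB.ST.sh_H2_injective _ (fun _ => ?_)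
    rw [map_sub, map_sub]
    exact sub_eq_zero.2 h
  obtain ⟨w, hw⟩ := (Fib.exact_π _ 1 _).1 h1
  rw [hB.HT1_eq_zero w, map_zero] at hw
  exact sub_eq_zero.1 hw.symm

/-- the key formula: `sh_J ((b')_* y) = c_* (sh_T y)` for `c = b (δ_1)` -/
lemma shJ_liftJ (b : cTriv (k := ℤ) V ⟶ C) (c : C) (hc : ∀ v ∈ V, C.ρ v c = c)
    (hbc : b.hom (cTriv.dlt V 1) = c) (y : Hsm 𝒰 (cTriv (k := ℤ) V) 2) :
    hB.shJ.mapH 2 ((Csm.map 𝒰 (liftJ b)).mapH 2 y) =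
      (Csm.map (𝒰.comap V.subtype) (constHom V C c hc)).mapH 2 (hB.shT.mapH 2 y) :=
  hB.ST.sh_natural hB.SJ (liftJ b) (fun _ => constHom V C c hc) (fun _ t => by
    show (dualEv C).hom ((liftJ b).hom t) = (constHom V C c hc).hom (t.1 1)
    rw [dualEv_liftJ, hbc]
    rfl) PUnit.unit 2 y

/-- `b_* = Σ_* ∘ (b')_*` -/
lemma sigma_liftJ (b : cTriv (k := ℤ) V ⟶ C) (y : Hsm 𝒰 (cTriv (k := ℤ) V) 2) :
    (Csm.map 𝒰 (sigmaJ (V := V) C)).mapH 2 ((Csm.map 𝒰 (liftJ b)).mapH 2 y) =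
      (Csm.map 𝒰 b).mapH 2 y :=
  Csm_mapH_comp_pointwise 𝒰 (liftJ b) (sigmaJ C) b (fun t => sigmaJ_liftJ b t) 2 y

lemma stdPair_injective : Function.Injective (stdPair p V).hom := by
  refine cRep.map_injective _ (fun a b h => ?_)
  have h' : p • a = p • b := h
  have h2 : p • (a - b) = 0 := by rw [smul_sub, h', sub_self]
  exact sub_eq_zero.1 (nsmul_int_eq_zero p _ h2)

/-- `p` kills `F²` -/
lemma p_smul_F2 (ξ : (FC 𝒰 (stdPair p V)).H 2) : p • ξ = 0 :=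
  p_smul_F_eq_zero 𝒰 (stdPair p V) hB.stdPair_injective p (fun x => ⟨x, rfl⟩) 2 ξ

/-- reciprocity, injectivity part -/
lemma A1i (b : cTriv (k := ℤ) V ⟶ C)
    (h : ∀ ξ : (FC 𝒰 (stdPair p V)).H 2,
      (Csm.map 𝒰 b).mapH 2 (Fib.π (Csm.map 𝒰 (stdPair p V)) 2 ξ) = 0) :
    ∃ b' : cTriv (k := ℤ) V ⟶ C, ∀ x, b.hom x = p • b'.hom x := by
  have hc : ∀ v ∈ V, C.ρ v (b.hom (cTriv.dlt V 1)) = b.hom (cTriv.dlt V 1) :=
    fun v hv => inv_of_hom b v hv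
  obtain ⟨c', hc', hpc'⟩ := hB.cf.cf4_inj V hB.hV hB.hVU (b.hom (cTriv.dlt V 1)) hc (fun χ => by
    obtain ⟨ξ, hξ⟩ := hB.exists_F2_of_bock χ
    rw [← hξ, ← hB.shJ_liftJ b _ hc rfl]
    have : (Csm.map 𝒰 (liftJ b)).mapH 2 (Fib.π (Csm.map 𝒰 (stdPair p V)) 2 ξ) = 0 := by
      refine hB.sigma_inj _ ?_ ?_
      · rw [← map_nsmul, fibP_smul_π _ p hB.FT_mapH 2 ξ, map_zero]
      · rw [hB.sigma_liftJ]
        exact h ξ
    rw [this, map_zero])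
  obtain ⟨b', hb'⟩ := exists_hom_of_inv 𝒰 hB.hC (isSm_cTriv hB.hV ℤ) c' hc'
  haveI : Finite (G ⧸ V) := Finite.of_fintype _
  exact ⟨b', hom_eq_nsmul p b b' (by rw [hb', hpc'])⟩

/-- reciprocity, surjectivity part -/
lemma A1s (τ : (FC 𝒰 (stdPair p V)).H 2 →+ Hsm 𝒰 C 2) :
    ∃ b : cTriv (k := ℤ) V ⟶ C, ∀ ξ : (FC 𝒰 (stdPair p V)).H 2,
      (Csm.map 𝒰 b).mapH 2 (Fib.π (Csm.map 𝒰 (stdPair p V)) 2 ξ) = τ ξ := by
  let R : Hsm (𝒰.comap V.subtype) (trivFp p V) 1 →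
      Hsm (𝒰.comap V.subtype) (Rep.res V.subtype C) 2 → Prop := fun χ z =>
    ∃ (ξ : (FC 𝒰 (stdPair p V)).H 2) (w : Hsm 𝒰 (homRep (cTriv (k := ℤ) V) C) 2),
      hB.shT.mapH 2 (Fib.π (Csm.map 𝒰 (stdPair p V)) 2 ξ) = bock p (𝒰.comap V.subtype) χ ∧
      p • w = 0 ∧ (Csm.map 𝒰 (sigmaJ (V := V) C)).mapH 2 w = τ ξ ∧ z = hB.shJ.mapH 2 w
  have htot : ∀ χ, ∃ z, R χ z := by
    intro χ
    obtain ⟨ξ, hξ⟩ := hB.exists_F2_of_bock χ
    obtain ⟨w, hw, hwz⟩ := hB.sigma_surj (τ ξ) (by rw [← map_nsmul, hB.p_smul_F2, map_zero])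
    exact ⟨_, ξ, w, hξ, hw, hwz, rfl⟩
  have huniq : ∀ χ z z', R χ z → R χ z' → z = z' := by
    rintro χ z z' ⟨ξ, w, h1, h2, h3, rfl⟩ ⟨ξ', w', h1', h2', h3', rfl⟩
    have e : ξ = ξ' := hB.F2_ext ξ ξ' (h1.trans h1'.symm)
    subst e
    have : w - w' = 0 := by
      refine hB.sigma_inj _ ?_ ?_
      · rw [smul_sub, h2, h2', sub_self]
      · rw [map_sub, h3, h3', sub_self]
    rw [sub_eq_zero.1 this]
  have hadd : ∀ χ χ' z z', R χ z → R χ' z' → R (χ + χ') (z + z') := by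
    rintro χ χ' z z' ⟨ξ, w, h1, h2, h3, rfl⟩ ⟨ξ', w', h1', h2', h3', rfl⟩
    refine ⟨ξ + ξ', w + w', ?_, ?_, ?_, ?_⟩
    · rw [map_add, map_add, map_add, h1, h1']
    · rw [smul_add, h2, h2', add_zero]
    · rw [map_add, map_add, h3, h3']
    · rw [map_add]
  obtain ⟨φ, hφ⟩ := exists_addMonoidHom_of_rel R htot huniq hadd
  obtain ⟨c, hc, hcφ⟩ := hB.cf.cf4_surj V hB.hV hB.hVU φ
  obtain ⟨b, hb⟩ := exists_hom_of_inv 𝒰 hB.hC (isSm_cTriv hB.hV ℤ) c hc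
  refine ⟨b, fun ξ => ?_⟩
  obtain ⟨χ, hχ⟩ := exists_bock_eq (p := p) (𝒰.comap V.subtype)
    (hB.shT.mapH 2 (Fib.π (Csm.map 𝒰 (stdPair p V)) 2 ξ)) (by
      rw [← map_nsmul, fibP_smul_π _ p hB.FT_mapH 2 ξ, map_zero])
  obtain ⟨ξ', w', h1, h2, h3, h4⟩ := hφ χ
  have e : ξ' = ξ := hB.F2_ext ξ' ξ (h1.trans hχ)
  subst e
  have hw : (Csm.map 𝒰 (liftJ b)).mapH 2 (Fib.π (Csm.map 𝒰 (stdPair p V)) 2 ξ') = w' := by
    have : (Csm.map 𝒰 (liftJ b)).mapH 2 (Fib.π (Csm.map 𝒰 (stdPair p V)) 2 ξ') - w' = 0 :=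
      hB.SJ.sh_H2_injective _ (fun _ => by
        rw [map_sub]
        refine sub_eq_zero.2 ((hB.shJ_liftJ b c hc hb _).trans ?_)
        rw [h1, hcφ χ, h4]
        rfl)
    exact sub_eq_zero.1 this
  rw [← hB.sigma_liftJ, hw, h3]

/-- **`α¹` is bijective for the standard pair** -/
theorem alpha1_std : Function.Bijective (alpha1 𝒰 (stdPair p V) C) :=
  alpha1_bijective_gen 𝒰 (stdPair p V) p (fun _ => rfl) C hB.HJ1_torsion_free hB.A1i hB.A1s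

/-- **the standard pair is good** -/
theorem good_std : Good 𝒰 C (stdPair p V) := ⟨hB.alpha1_std, hB.alpha2_std, hB.ext3_std⟩

end BaseData

end Fermat.Agent.S55lib.CFDual
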