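/-
S55 sprint, block (I) / K4 (helper8): the unit sequence `0 → d → c_V(d|_V) → q_V(d) → 0` of a
two-term complex, for a subgroup `V` of finite index: the quotient complex is again injective with
cokernel killed by `p`, and consists of lattices.
-/
import Fermat.Agent.S55lib.CFDual.CoindPair

set_option autoImplicit false
set_option linter.unusedSectionVars false
set_option linter.style.haveILetI false

noncomputable section

namespace Fermat.Agent.S55lib.CFDual

universe u

open Csm Cpx CategoryTheory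

variable {k G : Type u} [CommRing k] [Group G]

namespace cokerRep

variable {A B A' B' : Rep.{u} k G} (φ : A ⟶ B) (φ' : A' ⟶ B')

/-- functoriality of the cokernel -/
def map (f : A ⟶ A') (g : B ⟶ B') (h : ∀ a, g.hom (φ.hom a) = φ'.hom (f.hom a)) :
    cokerRep φ ⟶ cokerRep φ' :=
  Rep.ofHom
    { toLinearMap := Submodule.mapQ _ _ g.hom.toLinearMap (by
        rintro _ ⟨a, rfl⟩
        exact ⟨f.hom a, (h a).symm⟩)
      isIntertwining' := by
        intro γ
        apply LinearMap.ext
        intro n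
        obtain ⟨b, rfl⟩ := proj_surjective φ n
        show (proj φ').hom (g.hom (B.ρ γ b)) = (cokerRep φ').ρ γ ((proj φ').hom (g.hom b))
        rw [Rep.hom_comm_apply, Rep.hom_comm_apply] }

lemma map_proj (f : A ⟶ A') (g : B ⟶ B') (h : ∀ a, g.hom (φ.hom a) = φ'.hom (f.hom a)) (b : B) :
    (map φ φ' f g h).hom ((proj φ).hom b) = (proj φ').hom (g.hom b) := rfl

end cokerRep

variable (V : Subgroup G) {P0 P1 : Rep.{u} k G} (d : P1 ⟶ P0)

/-- the coinduced pair `c_V(d|_V)` -/
def uPair : cRep V (Rep.res V.subtype P1) ⟶ cRep V (Rep.res V.subtype P0) :=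
  cRep.map (Rep.resMap V.subtype d)

lemma uPair_apply (f : cRep V (Rep.res V.subtype P1)) (g : G) :
    ((uPair V d).hom f).1 g = d.hom (f.1 g) := rfl

lemma uPair_unit (y : P1) : (uPair V d).hom ((cRep.unit V P1).hom y) = (cRep.unit V P0).hom (d.hom y) :=
  cRep.unit_natural V d y

/-- the quotient pair `q_V(d)` -/
def qPair : cokerRep (cRep.unit V P1) ⟶ cokerRep (cRep.unit V P0) :=
  cokerRep.map (cRep.unit V P1) (cRep.unit V P0) d (uPair V d) (uPair_unit V d)

lemma qPair_proj (f : cRep V (Rep.res V.subtype P1)) :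
    (qPair V d).hom ((cokerRep.proj (cRep.unit V P1)).hom f) =
      (cokerRep.proj (cRep.unit V P0)).hom ((uPair V d).hom f) := rfl

/-- the unit sequence `0 → d → c_V(d|_V) → q_V(d) → 0` -/
def unitSES : TTSES d (uPair V d) (qPair V d) where
  a0 := cRep.unit V P0
  a1 := cRep.unit V P1
  b0 := cokerRep.proj (cRep.unit V P0)
  b1 := cokerRep.proj (cRep.unit V P1)
  ha := uPair_unit V d
  hb := fun _ => rfl
  ha0 := cRep.unit_injective V P0
  hb0 := cokerRep.proj_surjective _
  hex0 := cokerRep.proj_eq_zero_iff _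
  ha1 := cRep.unit_injective V P1
  hb1 := cokerRep.proj_surjective _
  hex1 := cokerRep.proj_eq_zero_iff _

lemma uPair_injective (hd : Function.Injective d.hom) : Function.Injective (uPair V d).hom :=
  cRep.map_injective _ hd

lemma uPair_div (hd : Function.Injective d.hom) (p : ℕ) (hp : ∀ x : P0, ∃ y : P1, d.hom y = p • x)
    (f : cRep V (Rep.res V.subtype P0)) :
    ∃ f' : cRep V (Rep.res V.subtype P1), (uPair V d).hom f' = p • f := by
  refine ⟨(cRep.map (Rep.resMap V.subtype (divHom d hd p hp))).hom f, ?_⟩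
  apply cRep.ext
  intro g
  show d.hom ((divHom d hd p hp).hom (f.1 g)) = p • f.1 g
  exact d_divHom d hd p hp _

lemma qPair_injective (hd : Function.Injective d.hom) : Function.Injective (qPair V d).hom := by
  refine (injective_iff_map_eq_zero (qPair V d).hom).2 (fun n hn => ?_)
  obtain ⟨f, rfl⟩ := cokerRep.proj_surjective _ n
  rw [qPair_proj] at hn
  obtain ⟨x, hx⟩ := (cokerRep.proj_eq_zero_iff _ _).1 hn
  refine (cokerRep.proj_eq_zero_iff _ _).2 ⟨f.1 1, ?_⟩
  apply cRep.ext
  intro g
  apply hd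
  have h1 : P0.ρ g⁻¹ x = d.hom (f.1 g) := congrFun (congrArg Subtype.val hx) g
  have h2 : P0.ρ (1 : G)⁻¹ x = d.hom (f.1 1) := congrFun (congrArg Subtype.val hx) 1
  rw [inv_one, map_one] at h2
  show d.hom (P1.ρ g⁻¹ (f.1 1)) = d.hom (f.1 g)
  rw [Rep.hom_comm_apply, ← h1, ← h2]
  rfl

lemma qPair_div (hd : Function.Injective d.hom) (p : ℕ) (hp : ∀ x : P0, ∃ y : P1, d.hom y = p • x)
    (n : cokerRep (cRep.unit V P0)) :
    ∃ m : cokerRep (cRep.unit V P1), (qPair V d).hom m = p • n := by
  obtain ⟨f, rfl⟩ := cokerRep.proj_surjective _ n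
  obtain ⟨f', hf'⟩ := uPair_div V d hd p hp f
  refine ⟨(cokerRep.proj _).hom f', ?_⟩
  rw [qPair_proj, hf', map_nsmul]

/-- a normal subgroup acting trivially on `A` acts trivially on the cokernel of the unit -/
lemma coker_unit_triv {U : Subgroup G} (hN : U.Normal) (hUV : U ≤ V) (A : Rep.{u} k G)
    (htriv : ∀ s ∈ U, ∀ a : A, A.ρ s a = a) (s : G) (hs : s ∈ U)
    (n : cokerRep (cRep.unit V A)) : (cokerRep (cRep.unit V A)).ρ s n = n := by
  obtain ⟨f, rfl⟩ := cokerRep.proj_surjective _ n
  rw [← Rep.hom_comm_apply,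
    cRep.ρ_eq_self_of_triv hN hUV (fun v hv b => htriv v.1 hv b) s hs f]

instance coker_unit_finite [Finite (G ⧸ V)] (A : Rep.{u} k G) [Module.Finite k A] :
    Module.Finite k (cokerRep (cRep.unit V A)) :=
  haveI : Module.Finite k (Rep.res V.subtype A) := inferInstanceAs (Module.Finite k A)
  inferInstance

lemma coker_unit_free [Finite (G ⧸ V)] [IsDomain k] [IsPrincipalIdealRing k] (A : Rep.{u} k G)
    [Module.Finite k A] [Module.Free k A] : Module.Free k (cokerRep (cRep.unit V A)) := by
  haveI : Module.Finite k (Rep.res V.subtype A) := inferInstanceAs (Module.Finite k A)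
  haveI : Module.Free k (Rep.res V.subtype A) := inferInstanceAs (Module.Free k A)
  exact cokerRep.free_of_retraction (cRep.unit V A) (cRep.evalOne V A) (cRep.evalOne_unit V A)

end Fermat.Agent.S55lib.CFDual
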