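/-
S55 sprint, block (I) / K4 (helper8): **the duality theorem K4**.  From the class formation
hypotheses `CFData 𝒰 p U₀ C` (with `U₀` open of index prime to `p`) we prove `K4Statement 𝒰 p C`:
for every two-term complex `d : P₁ ⟶ P₀` of smooth lattices with `d` injective and
`p P₀ ⊆ d P₁`, the pairings `α¹`, `α²` are bijective and `Ext³(d, C) = 0`.
-/
import Fermat.Agent.S55lib.CFDual.Base2
import Fermat.Agent.S55lib.CFDual.UnitSeq
import Fermat.Agent.S55lib.CFDual.SylowOpen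

set_option autoImplicit false
set_option linter.unusedSectionVars false
set_option linter.style.haveILetI false

noncomputable section

namespace Fermat.Agent.S55lib.CFDual

open Csm Cpx CategoryTheory

section triv

universe u

variable {k G : Type u} [CommRing k] [Group G] (𝒰 : OpenBasis G)

/-- a finitely generated smooth representation is fixed by a basic open subgroup -/
lemma exists_triv_of_finite (A : Rep.{u} k G) [Module.Finite k A] (hA : IsSm 𝒰 A) :
    ∃ U ∈ 𝒰.sets, ∀ s ∈ U, ∀ a : A, A.ρ s a = a := by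
  obtain ⟨S, hS⟩ := (Module.Finite.fg_top : (⊤ : Submodule k A).FG)
  let St : A → Subgroup G := fun a =>
    { carrier := {s | A.ρ s a = a}
      mul_mem' := fun {s t} hs ht => by
        show A.ρ (s * t) a = a
        rw [map_mul, Module.End.mul_apply, ht, hs]
      one_mem' := by
        show A.ρ 1 a = a
        rw [map_one]
        rfl
      inv_mem' := fun {s} hs => by
        show A.ρ s⁻¹ a = a
        have hs' : A.ρ s a = a := hs
        conv_lhs => rw [← hs']
        rw [← Module.End.mul_apply, ← map_mul, inv_mul_cancel, map_one]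
        rfl }
  obtain ⟨W, hW, hWS⟩ := 𝒰.exists_le_of_finite (T := (S : Set A)) S.finite_toSet St
    (fun a _ => by
      obtain ⟨U, hU, h⟩ := hA a
      exact ⟨U, hU, fun s hs => h s hs⟩)
  refine ⟨W, hW, fun s hs a => ?_⟩
  have hmem : a ∈ Submodule.span k (S : Set A) := by rw [hS]; trivial
  refine Submodule.span_induction (p := fun x _ => A.ρ s x = x) ?_ ?_ ?_ ?_ hmem
  · intro x hx
    exact hWS x hx hs
  · exact map_zero _
  · intro x y _ _ hx hy
    rw [map_add, hx, hy]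
  · intro c x _ hx
    rw [map_smul, hx]

/-- the extension-target property for the `F` groups (stated for a general coefficient ring, so
that the module structures are those of the complexes) -/
def ExtTargetFC (C : Rep.{u} k G) {P0 P1 : Rep.{u} k G} (d : P1 ⟶ P0) (n : ℕ) : Prop :=
  ExtTarget k (Hsm 𝒰 C 2) ((FC 𝒰 d).H n)

end triv

/-- `extTarget_of_torsion` with explicit module structures -/
theorem extTarget_of_torsion' {Y T : Type} [AddCommGroup Y] [AddCommGroup T] (iY : Module ℤ Y)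
    (iT : Module ℤ T) (p : ℕ) [Fact p.Prime] (hY : ∀ y : Y, p • y = 0) :
    @ExtTarget ℤ _ T Y _ iT _ iY :=
  fun X _ iX f => @extendsAlong_of_torsion X Y T _ _ _ iX iY iT p _ hY f

variable {G : Type} [Group G] (𝒰 : OpenBasis G) (p : ℕ) [Fact p.Prime]

/-- the class of two-term complexes of lattices with trivial `U`-action, injective differential
and cokernel killed by `p` -/
structure InClass (U : Subgroup G) {P0 P1 : Rep.{0} ℤ G} (d : P1 ⟶ P0) : Prop where
  fin0 : @Module.Finite ℤ P0 _ _ P0.hV2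
  free0 : @Module.Free ℤ P0 _ _ P0.hV2
  fin1 : @Module.Finite ℤ P1 _ _ P1.hV2
  free1 : @Module.Free ℤ P1 _ _ P1.hV2
  triv0 : ∀ s ∈ U, ∀ b : P0, P0.ρ s b = b
  triv1 : ∀ s ∈ U, ∀ b : P1, P1.ρ s b = b
  inj : Function.Injective d.hom
  div : ∀ x : P0, ∃ y : P1, d.hom y = p • x

namespace InClass

variable {𝒰 p} {U : Subgroup G} {P0 P1 : Rep.{0} ℤ G} {d : P1 ⟶ P0}

/-- restriction to a subgroup `V ⊇ U` gives a pair of the inductions -/
lemma ppair (h : InClass p U d) (V : Subgroup G) : PPair p U (Rep.resMap V.subtype d) where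
  fin0 := h.fin0
  free0 := h.free0
  fin1 := h.fin1
  free1 := h.free1
  triv0 := fun v hv b => h.triv0 v.1 hv b
  triv1 := fun v hv b => h.triv1 v.1 hv b
  inj := h.inj
  div := h.div

/-- the quotient pair of the unit sequence is in the class again -/
lemma q (h : InClass p U d) (hN : U.Normal) [Finite (G ⧸ U)] : InClass p U (qPair U d) := by
  haveI := h.fin0
  haveI := h.free0
  haveI := h.fin1
  haveI := h.free1
  exact
    { fin0 := coker_unit_finite U P0
      free0 := coker_unit_free U P0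
      fin1 := coker_unit_finite U P1
      free1 := coker_unit_free U P1
      triv0 := coker_unit_triv U hN le_rfl P0 h.triv0
      triv1 := coker_unit_triv U hN le_rfl P1 h.triv1
      inj := qPair_injective U d h.inj
      div := qPair_div U d h.inj p h.div }

end InClass

section main

variable {𝒰 p} {U₀ : Subgroup G} {C : Rep.{0} ℤ G} (cf : CFData 𝒰 p U₀ C) (hC : IsSm 𝒰 C)
  (hcop : Nat.Coprime U₀.index p) {U : Subgroup G} (hU : U ∈ 𝒰.sets) (hUU₀ : U ≤ U₀)

include cf hC hU hUU₀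

/-- the coinduced pair of the unit sequence is good -/
theorem good_uPair {P0 P1 : Rep.{0} ℤ G} {d : P1 ⟶ P0} (h : InClass p U d) :
    Good 𝒰 C (uPair U d) := by
  haveI : U.FiniteIndex := 𝒰.finiteIndex U hU
  haveI : Finite (G ⧸ U) := Subgroup.finite_quotient_of_finiteIndex
  haveI : Fintype (G ⧸ U) := Fintype.ofFinite _
  have hB : BaseData 𝒰 p U₀ C U := ⟨cf, hC, ⟨U, hU, le_rfl⟩, hUU₀⟩
  exact good_coind 𝒰 p U hU le_rfl hC hB.good_std _ (Rep.resMap U.subtype d) (h.ppair U) rfl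

include hcop in
/-- **`Ext³ = 0`** on the class -/
theorem ext3_of_inClass {P0 P1 : Rep.{0} ℤ G} {d : P1 ⟶ P0} (h : InClass p U d)
    (x : ExtH 𝒰 d C 3) : x = 0 := by
  haveI : U.Normal := 𝒰.normal U hU
  haveI : U.FiniteIndex := 𝒰.finiteIndex U hU
  obtain ⟨P, hUP, hPU₀, ⟨a, ha⟩, hcopP⟩ := exists_sylow_preimage p U U₀ hUU₀ hcop
  haveI : P.FiniteIndex := Subgroup.finiteIndex_of_le hUP
  haveI : Finite (G ⧸ P) := Subgroup.finite_quotient_of_finiteIndex
  haveI : Fintype (G ⧸ P) := Fintype.ofFinite _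
  have hB : BaseData 𝒰 p U₀ C P := ⟨cf, hC, ⟨U, hU, hUP⟩, hPU₀⟩
  have hE : ∀ y : ExtH 𝒰 (uPair P d) C 3, y = 0 :=
    ext3_coind 𝒰 p P hU hUP a ha hC hB.ext3_std _ (Rep.resMap P.subtype d) (h.ppair P) rfl
  let i : PairHom d (uPair P d) := ⟨cRep.unit P P0, cRep.unit P P1, uPair_unit P d⟩
  let s : PairHom (uPair P d) d := ⟨cRep.tr P P0, cRep.tr P P1, fun f =>
    (cRep.tr_natural P d f).symm⟩
  exact ext3_of_retract 𝒰 C i s P.index p hcopP (fun y => cRep.tr_unit P P0 y)
    (fun y => cRep.tr_unit P P1 y) (p_smul_ext_eq_zero 𝒰 d h.inj p h.div C 3) hE x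

/-- the setting of the unit sequence: smoothness of the coinduced modules -/
lemma isSm_cRes {A : Rep.{0} ℤ G} (htriv : ∀ s ∈ U, ∀ b : A, A.ρ s b = b) :
    IsSm 𝒰 (cRep U (Rep.res U.subtype A)) :=
  cRep.isSm 𝒰 hU le_rfl (fun v hv b => htriv v.1 hv b)

/-- `p` kills the `F` groups of the coinduced pair -/
lemma p_smul_F_uPair {P0 P1 : Rep.{0} ℤ G} {d : P1 ⟶ P0} (h : InClass p U d) (n : ℕ)
    (y : (FC 𝒰 (uPair U d)).H n) : p • y = 0 :=
  p_smul_F_eq_zero 𝒰 (uPair U d) (uPair_injective U d h.inj) p (uPair_div U d h.inj p h.div) n y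

/-- `p` kills the `F` groups of a pair in the class -/
lemma p_smul_F_inClass {P0 P1 : Rep.{0} ℤ G} {d : P1 ⟶ P0} (h : InClass p U d) (n : ℕ)
    (y : (FC 𝒰 d).H n) : p • y = 0 :=
  p_smul_F_eq_zero 𝒰 d h.inj p h.div n y

omit cf hC hU hUU₀ in
/-- the `F` groups are extension sources, being killed by `p` -/
lemma extTarget_FC {P0 P1 : Rep.{0} ℤ G} (d : P1 ⟶ P0) (n : ℕ)
    (hY : ∀ y : (FC 𝒰 d).H n, p • y = 0) : ExtTargetFC 𝒰 C d n := by
  unfold ExtTargetFC
  exact extTarget_of_torsion' _ _ p hY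

/-- step (A): `α²` is surjective on the class -/
theorem alpha2_surjective {P0 P1 : Rep.{0} ℤ G} {d : P1 ⟶ P0} (h : InClass p U d) :
    Function.Surjective (alpha2 𝒰 d C) := by
  haveI : U.Normal := 𝒰.normal U hU
  haveI : U.FiniteIndex := 𝒰.finiteIndex U hU
  haveI : Finite (G ⧸ U) := Subgroup.finite_quotient_of_finiteIndex
  haveI := h.fin0
  haveI := h.free0
  haveI := h.fin1
  haveI := h.free1
  haveI : @Module.Finite ℤ (Rep.res U.subtype P0) _ _ (Rep.res U.subtype P0).hV2 := h.fin0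
  haveI : @Module.Finite ℤ (Rep.res U.subtype P1) _ _ (Rep.res U.subtype P1).hV2 := h.fin1
  haveI := coker_unit_free U P0
  haveI := coker_unit_free U P1
  have hgood := good_uPair cf hC hU hUU₀ h
  exact (unitSES U d).surj2 𝒰 (isSm_cRes cf hC hU hUU₀ h.triv0) (isSm_cRes cf hC hU hUU₀ h.triv1)
    hC (qPair_injective U d h.inj)
    (extTarget_FC _ 1 (p_smul_F_uPair cf hC hU hUU₀ h 1)) hgood.2.1.2

include hcop in
/-- step (B): `α²` is injective on the class -/
theorem alpha2_injective {P0 P1 : Rep.{0} ℤ G} {d : P1 ⟶ P0} (h : InClass p U d) :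
    Function.Injective (alpha2 𝒰 d C) := by
  haveI : U.Normal := 𝒰.normal U hU
  haveI : U.FiniteIndex := 𝒰.finiteIndex U hU
  haveI : Finite (G ⧸ U) := Subgroup.finite_quotient_of_finiteIndex
  haveI := h.fin0
  haveI := h.free0
  haveI := h.fin1
  haveI := h.free1
  haveI : @Module.Finite ℤ (Rep.res U.subtype P0) _ _ (Rep.res U.subtype P0).hV2 := h.fin0
  haveI : @Module.Finite ℤ (Rep.res U.subtype P1) _ _ (Rep.res U.subtype P1).hV2 := h.fin1
  haveI := coker_unit_free U P0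
  haveI := coker_unit_free U P1
  have hgood := good_uPair cf hC hU hUU₀ h
  have hq := h.q (𝒰.normal U hU)
  exact (unitSES U d).inj2 𝒰 (isSm_cRes cf hC hU hUU₀ h.triv0) (isSm_cRes cf hC hU hUU₀ h.triv1)
    hC (ext3_of_inClass cf hC hcop hU hUU₀ hq)
    (extTarget_FC _ 1 (p_smul_F_inClass cf hC hU hUU₀ hq 1))
    (alpha2_surjective cf hC hU hUU₀ hq) hgood.2.1.1

/-- step (C): `α¹` is surjective on the class -/
theorem alpha1_surjective {P0 P1 : Rep.{0} ℤ G} {d : P1 ⟶ P0} (h : InClass p U d) :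
    Function.Surjective (alpha1 𝒰 d C) := by
  haveI : U.Normal := 𝒰.normal U hU
  haveI : U.FiniteIndex := 𝒰.finiteIndex U hU
  haveI : Finite (G ⧸ U) := Subgroup.finite_quotient_of_finiteIndex
  haveI := h.fin0
  haveI := h.free0
  haveI := h.fin1
  haveI := h.free1
  haveI : @Module.Finite ℤ (Rep.res U.subtype P0) _ _ (Rep.res U.subtype P0).hV2 := h.fin0
  haveI : @Module.Finite ℤ (Rep.res U.subtype P1) _ _ (Rep.res U.subtype P1).hV2 := h.fin1
  haveI := coker_unit_free U P0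
  haveI := coker_unit_free U P1
  have hgood := good_uPair cf hC hU hUU₀ h
  have hq := h.q (𝒰.normal U hU)
  exact (unitSES U d).surj1 𝒰 (isSm_cRes cf hC hU hUU₀ h.triv0) (isSm_cRes cf hC hU hUU₀ h.triv1)
    hC (extTarget_FC _ 2 (p_smul_F_uPair cf hC hU hUU₀ h 2)) hgood.1.2
    (alpha2_surjective cf hC hU hUU₀ hq) hgood.2.1.1

include hcop in
/-- step (D): `α¹` is injective on the class -/
theorem alpha1_injective {P0 P1 : Rep.{0} ℤ G} {d : P1 ⟶ P0} (h : InClass p U d) :
    Function.Injective (alpha1 𝒰 d C) := by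
  haveI : U.Normal := 𝒰.normal U hU
  haveI : U.FiniteIndex := 𝒰.finiteIndex U hU
  haveI : Finite (G ⧸ U) := Subgroup.finite_quotient_of_finiteIndex
  haveI := h.fin0
  haveI := h.free0
  haveI := h.fin1
  haveI := h.free1
  haveI : @Module.Finite ℤ (Rep.res U.subtype P0) _ _ (Rep.res U.subtype P0).hV2 := h.fin0
  haveI : @Module.Finite ℤ (Rep.res U.subtype P1) _ _ (Rep.res U.subtype P1).hV2 := h.fin1
  haveI := coker_unit_free U P0
  haveI := coker_unit_free U P1
  have hgood := good_uPair cf hC hU hUU₀ h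
  have hq := h.q (𝒰.normal U hU)
  exact (unitSES U d).inj1 𝒰 (isSm_cRes cf hC hU hUU₀ h.triv0) (isSm_cRes cf hC hU hUU₀ h.triv1)
    hC (extTarget_FC _ 2 (p_smul_F_inClass cf hC hU hUU₀ hq 2))
    (alpha1_surjective cf hC hU hUU₀ hq) hgood.1.1 (alpha2_injective cf hC hcop hU hUU₀ hq)

include hcop in
/-- every pair in the class is good -/
theorem good_of_inClass {P0 P1 : Rep.{0} ℤ G} {d : P1 ⟶ P0} (h : InClass p U d) :
    Good 𝒰 C d :=
  ⟨⟨alpha1_injective cf hC hcop hU hUU₀ h, alpha1_surjective cf hC hU hUU₀ h⟩,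
    ⟨alpha2_injective cf hC hcop hU hUU₀ h, alpha2_surjective cf hC hU hUU₀ h⟩,
    ext3_of_inClass cf hC hcop hU hUU₀ h⟩

end main

/-- **K4**: the class formation hypotheses imply the duality statement. -/
theorem k4_of_cfData {U₀ : Subgroup G} {C : Rep.{0} ℤ G} (cf : CFData 𝒰 p U₀ C) (hC : IsSm 𝒰 C)
    (hU₀ : 𝒰.IsOpen U₀) (hcop : Nat.Coprime U₀.index p) : K4Statement 𝒰 p C := by
  intro P0 P1 i0 i1 i2 i3 hsm0 hsm1 d hinj hdiv
  have e0 : P0.hV2 = AddCommGroup.toIntModule P0 := Subsingleton.elim _ _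
  have e1 : P1.hV2 = AddCommGroup.toIntModule P1 := Subsingleton.elim _ _
  have j0 : @Module.Finite ℤ P0 _ _ P0.hV2 := by rw [e0]; exact i0
  have j1 : @Module.Free ℤ P0 _ _ P0.hV2 := by rw [e0]; exact i1
  have j2 : @Module.Finite ℤ P1 _ _ P1.hV2 := by rw [e1]; exact i2
  have j3 : @Module.Free ℤ P1 _ _ P1.hV2 := by rw [e1]; exact i3
  obtain ⟨W₀, hW₀, hW₀U⟩ := hU₀
  obtain ⟨W₁, hW₁, ht0⟩ := @exists_triv_of_finite ℤ G _ _ 𝒰 P0 j0 hsm0
  obtain ⟨W₂, hW₂, ht1⟩ := @exists_triv_of_finite ℤ G _ _ 𝒰 P1 j2 hsm1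
  obtain ⟨W₃, hW₃, hle₃⟩ := 𝒰.directed W₀ hW₀ W₁ hW₁
  obtain ⟨U, hU, hle⟩ := 𝒰.directed W₃ hW₃ W₂ hW₂
  have hUW₀ : U ≤ W₀ := (hle.trans inf_le_left).trans (hle₃.trans inf_le_left)
  have hUW₁ : U ≤ W₁ := (hle.trans inf_le_left).trans (hle₃.trans inf_le_right)
  have hUW₂ : U ≤ W₂ := hle.trans inf_le_right
  have h : InClass p U d :=
    ⟨j0, j1, j2, j3, fun s hs b => ht0 s (hUW₁ hs) b, fun s hs b => ht1 s (hUW₂ hs) b, hinj,
      hdiv⟩
  exact good_of_inClass cf hC hcop hU (hUW₀.trans hW₀U) h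

end Fermat.Agent.S55lib.CFDual
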