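/-
S55 sprint, block (I) / K4 (helper8): for `U ≤ U₀` with `U` normal of finite index and `[G : U₀]`
prime to `p`, there is a subgroup `U ≤ P ≤ U₀` with `P/U` a `p`-group and `[G : P]` prime to `p`
(the preimage of a Sylow subgroup).
-/
import Mathlib

set_option autoImplicit false
set_option linter.style.haveILetI false

namespace Fermat.Agent.S55lib.CFDual

theorem exists_sylow_preimage_aux {G Q : Type*} [Group G] [Group Q] [Finite Q] (p : ℕ)
    [Fact p.Prime] (f : G →* Q) (hf : Function.Surjective f) (U₀ : Subgroup G)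
    (hU : f.ker ≤ U₀) (hcop : Nat.Coprime U₀.index p) :
    ∃ P : Subgroup G, f.ker ≤ P ∧ P ≤ U₀ ∧ (∃ a : ℕ, f.ker.relIndex P = p ^ a) ∧
      Nat.Coprime P.index p := by
  classical
  have hp : p.Prime := Fact.out
  let W : Subgroup Q := U₀.map f
  obtain ⟨S₀⟩ : Nonempty (Sylow p W) := inferInstance
  let S : Subgroup Q := (S₀ : Subgroup W).map W.subtype
  have hSW : S ≤ W := Subgroup.map_subtype_le _
  refine ⟨S.comap f, ?_, ?_, ?_, ?_⟩
  · intro u hu
    rw [Subgroup.mem_comap]
    have : f u = 1 := hu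
    rw [this]
    exact S.one_mem
  · intro g hg
    obtain ⟨u₀, hu₀, hu₀g⟩ := hSW (Subgroup.mem_comap.1 hg)
    have hmem : u₀⁻¹ * g ∈ f.ker := by
      rw [MonoidHom.mem_ker, map_mul, map_inv, hu₀g, inv_mul_cancel]
    have : g = u₀ * (u₀⁻¹ * g) := by group
    rw [this]
    exact U₀.mul_mem hu₀ (hU hmem)
  · obtain ⟨a, ha⟩ := (IsPGroup.iff_card).1 S₀.isPGroup'
    refine ⟨a, ?_⟩
    rw [← MonoidHom.comap_bot, Subgroup.relIndex_comap,
      Subgroup.map_comap_eq_self_of_surjective hf, Subgroup.relIndex_bot_left]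
    have h3 : Nat.card S = Nat.card (S₀ : Subgroup W) :=
      Nat.card_congr ((S₀ : Subgroup W).equivMapOfInjective W.subtype
        W.subtype_injective).symm.toEquiv
    rw [h3]
    exact ha
  · rw [Subgroup.index_comap_of_surjective _ hf, ← Subgroup.relIndex_mul_index hSW]
    have h4 : S.relIndex W = (S₀ : Subgroup W).index := by
      show (S.subgroupOf W).index = _
      rw [← Subgroup.comap_subtype, Subgroup.comap_map_eq_self_of_injective W.subtype_injective]
    have h5 : W.index = U₀.index := Subgroup.index_map_eq _ hf hU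
    rw [h4, h5]
    refine Nat.Coprime.mul_left ?_ hcop
    rw [Nat.coprime_comm, Nat.Prime.coprime_iff_not_dvd hp]
    exact S₀.not_dvd_index

theorem exists_sylow_preimage {G : Type*} [Group G] (p : ℕ) [Fact p.Prime] (U U₀ : Subgroup G)
    [hN : U.Normal] [hfin : U.FiniteIndex] (hU : U ≤ U₀) (hcop : Nat.Coprime U₀.index p) :
    ∃ P : Subgroup G, U ≤ P ∧ P ≤ U₀ ∧ (∃ a : ℕ, (U.subgroupOf P).index = p ^ a) ∧
      Nat.Coprime P.index p := by
  haveI : Finite (G ⧸ U) := Subgroup.finite_quotient_of_finiteIndex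
  have hker : (QuotientGroup.mk' U).ker = U := QuotientGroup.ker_mk' U
  obtain ⟨P, h1, h2, h3, h4⟩ := exists_sylow_preimage_aux p (QuotientGroup.mk' U)
    (QuotientGroup.mk'_surjective U) U₀ (by rw [hker]; exact hU) hcop
  rw [hker] at h1 h3
  exact ⟨P, h1, h2, h3, h4⟩

end Fermat.Agent.S55lib.CFDual
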